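import Fermat.Agent.Igusa.TorsionModel.GaloisBase
import Mathlib.GroupTheory.Index
import Mathlib.RingTheory.IntegralClosure.Algebra.Basic
import Mathlib.RingTheory.IntegralClosure.IsIntegralClosure.Basic

/-!
# Dual pairs for an unramified quotient of the Galois group
-/

set_option autoImplicit false
set_option linter.unusedSectionVars false

noncomputable section

namespace FermatLib.Igusa.TorsionModel

local notation "Qbar" => AlgebraicClosure ℚ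
local notation "Γℚ" => (AlgebraicClosure ℚ ≃ₐ[ℚ] AlgebraicClosure ℚ)

variable {ℓ : ℕ}

set_option quotPrecheck false in
local notation "O" => ↥(GaloisRep.ratLocalizedAt ℓ)

/-- Congruent to the identity at `A₀` on the integral elements fixed by `N`. -/
def IsTrivialResidue (ℓ : ℕ) (A₀ : ValuationSubring Qbar) (N : Subgroup Γℚ) (σ : Γℚ) : Prop :=
  ∀ x : Qbar, IsIntegral (GaloisRep.ratLocalizedAt ℓ) x → (∀ τ ∈ N, τ • x = x) →
    σ • x - x ∈ A₀.nonunits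

/-- Integral and fixed by `N`. -/
def IsIntegralFixed (ℓ : ℕ) (N : Subgroup Γℚ) (x : Qbar) : Prop :=
  IsIntegral (GaloisRep.ratLocalizedAt ℓ) x ∧ ∀ τ ∈ N, τ • x = x

namespace IsIntegralFixed

variable {N : Subgroup Γℚ} {x y : Qbar}

theorem smul [N.Normal] (h : IsIntegralFixed ℓ N x) (g : Γℚ) : IsIntegralFixed ℓ N (g • x) := by
  refine ⟨smul_integral g h.1, fun τ hτ => ?_⟩
  have h1 : g⁻¹ * τ * g ∈ N := by
    simpa using (Subgroup.Normal.conj_mem inferInstance τ hτ g⁻¹ : g⁻¹ * τ * g⁻¹⁻¹ ∈ N)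
  rw [← mul_smul, show τ * g = g * (g⁻¹ * τ * g) by group, mul_smul, h.2 _ h1]

theorem smul_eq (h : IsIntegralFixed ℓ N x) {a b : Γℚ} (hab : a⁻¹ * b ∈ N) : b • x = a • x := by
  conv_lhs => rw [show b = a * (a⁻¹ * b) by group, mul_smul, h.2 _ hab]

theorem add (hx : IsIntegralFixed ℓ N x) (hy : IsIntegralFixed ℓ N y) :
    IsIntegralFixed ℓ N (x + y) :=
  ⟨hx.1.add hy.1, fun τ hτ => by rw [smul_add, hx.2 τ hτ, hy.2 τ hτ]⟩

theorem mul (hx : IsIntegralFixed ℓ N x) (hy : IsIntegralFixed ℓ N y) :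
    IsIntegralFixed ℓ N (x * y) :=
  ⟨hx.1.mul hy.1, fun τ hτ => by rw [smul_mul', hx.2 τ hτ, hy.2 τ hτ]⟩

theorem neg (hx : IsIntegralFixed ℓ N x) : IsIntegralFixed ℓ N (-x) :=
  ⟨hx.1.neg, fun τ hτ => by rw [smul_neg, hx.2 τ hτ]⟩

theorem one : IsIntegralFixed ℓ N 1 := ⟨isIntegral_one, fun τ _ => smul_one τ⟩

theorem sum {α : Type} (s : Finset α) {f : α → Qbar} (h : ∀ a ∈ s, IsIntegralFixed ℓ N (f a)) :
    IsIntegralFixed ℓ N (∑ a ∈ s, f a) :=
  ⟨IsIntegral.sum _ fun a ha => (h a ha).1, fun τ hτ => by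
    rw [Finset.smul_sum]
    exact Finset.sum_congr rfl fun a ha => (h a ha).2 τ hτ⟩

end IsIntegralFixed

/-- A pair separating a nontrivial class from the trivial one. -/
theorem exists_sep (hℓ : ℓ.Prime) (A₀ : ValuationSubring Qbar) (hA₀ : A₀.LiesOverPrime ℓ)
    (N : Subgroup Γℚ) [N.Normal] [N.FiniteIndex]
    (hunr : ∀ σ, IsTrivialResidue ℓ A₀ N σ → σ ∈ N) (σ : Γℚ) (hσ : σ ∉ N) :
    ∃ (ι : Type) (_ : Fintype ι) (Ω a : ι → Qbar),
      (∀ p, IsIntegralFixed ℓ N (Ω p)) ∧ (∀ p, IsIntegralFixed ℓ N (a p)) ∧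
      ∑ p, a p * (σ • Ω p - Ω p) = 1 := by
  classical
  have : Fintype (Γℚ ⧸ N) := Fintype.ofFinite _
  have hy : ∀ g : Γℚ, ∃ y : Qbar,
      IsIntegralFixed ℓ N y ∧ (g ∉ N → g • y - y ∉ A₀.nonunits) := by
    intro g
    by_cases hg : g ∈ N
    · exact ⟨0, ⟨isIntegral_zero, fun τ _ => smul_zero τ⟩, fun h => absurd hg h⟩
    · have h := mt (hunr g) hg
      simp only [IsTrivialResidue, not_forall] at h
      obtain ⟨y, hy₁, hy₂, hy₃⟩ := h
      exact ⟨y, ⟨hy₁, hy₂⟩, fun _ => hy₃⟩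
  choose y hyP hyu using hy
  let rep : (Γℚ ⧸ N) → Γℚ := Quotient.out
  have hrep : ∀ g : Γℚ, (rep (g : Γℚ ⧸ N))⁻¹ * g ∈ N := fun g => by
    rw [← QuotientGroup.eq]
    exact Quotient.out_eq' _
  let ι : Type := (Γℚ ⧸ N) × (Γℚ ⧸ N)
  let Ω : ι → Qbar := fun p => rep p.1 • y (rep p.2)
  have hΩ : ∀ p, IsIntegralFixed ℓ N (Ω p) := fun p => (hyP _).smul _
  let c : Qbar → (PUnit.{1} → Qbar) := fun x _ => x
  set B : Subalgebra O (PUnit.{1} → Qbar) :=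
    Algebra.adjoin O (Set.range fun q : (Γℚ ⧸ N) × ι => c (rep q.1 • Ω q.2)) with hB
  have hmem : ∀ f ∈ B, ∃ x, IsIntegralFixed ℓ N x ∧ f = c x := by
    intro f hf
    induction hf using Algebra.adjoin_induction with
    | mem f hf => obtain ⟨q, rfl⟩ := hf; exact ⟨_, (hΩ _).smul _, rfl⟩
    | algebraMap r =>
      exact ⟨algebraMap O Qbar r, ⟨isIntegral_algebraMap,
        fun τ _ => isFixedBase_galois.fixed τ r⟩, rfl⟩
    | add a b _ _ ha hb =>
      obtain ⟨x, hx, rfl⟩ := ha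
      obtain ⟨z, hz, rfl⟩ := hb
      exact ⟨x + z, hx.add hz, rfl⟩
    | mul a b _ _ ha hb =>
      obtain ⟨x, hx, rfl⟩ := ha
      obtain ⟨z, hz, rfl⟩ := hb
      exact ⟨x * z, hx.mul hz, rfl⟩
  have hfin : Module.Finite O B := by
    refine Module.Finite.iff_fg.mpr (fg_adjoin_of_finite (Set.finite_range _) ?_)
    intro f hf
    obtain ⟨q, rfl⟩ := hf
    exact ((hΩ _).smul _).1.map (AlgHom.pi fun _ : PUnit.{1} => AlgHom.id O Qbar)
  have cstep : ∀ (g : Γℚ) (p : ι), c (g • Ω p) ∈ B := by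
    intro g p
    rw [(hΩ p).smul_eq (hrep g)]
    exact Algebra.subset_adjoin ⟨((g : Γℚ ⧸ N), p), rfl⟩
  let v : ι → B := fun p => ⟨c (σ • Ω p), cstep σ p⟩ - ⟨c (Ω p), by simpa using cstep 1 p⟩
  have htop : Ideal.span (Set.range v) = ⊤ := by
    by_contra hne
    obtain ⟨m, hm, hle⟩ := Ideal.exists_le_maximal _ hne
    obtain ⟨τ, t, hτ⟩ := exists_mem_iff_of_isMaximal hℓ A₀ hA₀ B hfin m hm
    set σ' := τ * σ * τ⁻¹ with hσ'
    have hσ'N : σ' ∉ N := fun h => hσ (by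
      simpa [hσ', mul_assoc] using (Subgroup.Normal.conj_mem inferInstance _ h τ⁻¹))
    have hqN : rep (σ' : Γℚ ⧸ N) ∉ N := fun h => hσ'N (by
      have := N.mul_mem h (hrep σ'); rwa [mul_inv_cancel_left] at this)
    let p : ι := ((τ⁻¹ : Γℚ), (σ' : Γℚ ⧸ N))
    have hp := (hτ (v p)).mp (hle (Ideal.subset_span ⟨_, rfl⟩))
    have e1 : τ • Ω p = y (rep (σ' : Γℚ ⧸ N)) := by
      show τ • rep ((τ⁻¹ : Γℚ) : Γℚ ⧸ N) • _ = _
      rw [← (hyP _).smul_eq (hrep τ⁻¹), smul_inv_smul]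
    have e2 : τ • (σ • Ω p) = rep (σ' : Γℚ ⧸ N) • y (rep (σ' : Γℚ ⧸ N)) := by
      rw [← (hyP _).smul_eq (hrep σ'), ← e1, hσ', mul_smul (τ * σ) τ⁻¹, mul_smul τ σ, inv_smul_smul]
    refine hyu _ hqN ?_
    have hsub : τ • ((v p : B) : PUnit.{1} → Qbar) t = τ • (σ • Ω p) - τ • Ω p :=
      smul_sub _ _ _
    rw [hsub, e1, e2] at hp
    exact hp
  obtain ⟨b, hb⟩ := Ideal.mem_span_range_iff_exists_fun.mp ((Ideal.eq_top_iff_one _).mp htop)
  choose x hx hxeq using fun p => hmem _ (b p).2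
  refine ⟨ι, inferInstance, Ω, x, hΩ, hx, ?_⟩
  have h := congrArg (fun f : B => (f : PUnit.{1} → Qbar) PUnit.unit) hb
  simp only [AddSubmonoidClass.coe_finsetSum, Finset.sum_apply, MulMemClass.coe_mul,
    Pi.mul_apply, hxeq, v, AddSubgroupClass.coe_sub, Pi.sub_apply, OneMemClass.coe_one,
    Pi.one_apply] at h
  exact h

/-- Dual pairs for a finite set of classes. -/
theorem exists_partial_dual (hℓ : ℓ.Prime) (A₀ : ValuationSubring Qbar) (hA₀ : A₀.LiesOverPrime ℓ)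
    (N : Subgroup Γℚ) [N.Normal] [N.FiniteIndex]
    (hunr : ∀ σ, IsTrivialResidue ℓ A₀ N σ → σ ∈ N) (s : Finset (Γℚ ⧸ N)) :
    ∃ (κ : Type) (_ : Fintype κ) (ω ω' : κ → Qbar),
      (∀ i, IsIntegralFixed ℓ N (ω i)) ∧ (∀ i, IsIntegralFixed ℓ N (ω' i)) ∧
      (∀ σ ∈ N, ∑ i, σ • ω i * ω' i = 1) ∧
      ∀ σ : Γℚ, (σ : Γℚ ⧸ N) ∈ s → σ ∉ N → ∑ i, σ • ω i * ω' i = 0 := by
  classical
  induction s using Finset.induction_on with
  | empty =>
    exact ⟨Unit, inferInstance, fun _ => 1, fun _ => 1, fun _ => .one, fun _ => .one,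
      fun σ _ => by simp, fun σ h => absurd h (Finset.notMem_empty _)⟩
  | insert q s _ ih =>
    obtain ⟨κ, hκ, ω, ω', hω, hω', h1, h0⟩ := ih
    induction q using QuotientGroup.induction_on with
    | _ q =>
    by_cases hq : q ∈ N
    · refine ⟨κ, hκ, ω, ω', hω, hω', h1, fun σ hσ hσN => h0 σ ?_ hσN⟩
      rcases Finset.mem_insert.mp hσ with h | h
      · refine absurd ?_ hσN
        have := N.mul_mem hq (QuotientGroup.eq.mp h.symm)
        rwa [mul_inv_cancel_left] at this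
      · exact h
    obtain ⟨ι, hι, Ω, a, hΩ, ha, hsum⟩ := exists_sep hℓ A₀ hA₀ N hunr q hq
    let u : Option ι → Qbar := fun o => o.elim 1 Ω
    let u' : Option ι → Qbar := fun o => o.elim (∑ p, a p * q • Ω p) fun p => -a p
    have hu : ∀ o, IsIntegralFixed ℓ N (u o) := Option.forall.mpr ⟨.one, hΩ⟩
    have hu' : ∀ o, IsIntegralFixed ℓ N (u' o) :=
      Option.forall.mpr ⟨.sum _ fun p _ => (ha p).mul ((hΩ p).smul q), fun p => (ha p).neg⟩
    have hval : ∀ σ : Γℚ, ∑ o, σ • u o * u' o = ∑ p, a p * (q • Ω p - σ • Ω p) := by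
      intro σ
      rw [Fintype.sum_option]
      show σ • (1 : Qbar) * (∑ p, a p * q • Ω p) + ∑ p, σ • Ω p * -a p = _
      rw [smul_one, one_mul, ← Finset.sum_add_distrib]
      exact Finset.sum_congr rfl fun p _ => by ring
    have split : ∀ σ : Γℚ, ∑ i : κ × Option ι, σ • (ω i.1 * u i.2) * (ω' i.1 * u' i.2) =
        (∑ i, σ • ω i * ω' i) * ∑ o, σ • u o * u' o := by
      intro σ
      rw [Fintype.sum_prod_type, Finset.sum_mul_sum]
      exact Finset.sum_congr rfl fun i _ => Finset.sum_congr rfl fun o _ => by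
        rw [smul_mul']; ring
    refine ⟨κ × Option ι, inferInstance, fun i => ω i.1 * u i.2, fun i => ω' i.1 * u' i.2,
      fun i => (hω i.1).mul (hu i.2), fun i => (hω' i.1).mul (hu' i.2), fun σ hσ => ?_,
      fun σ hσs hσN => ?_⟩
    · rw [split, h1 σ hσ, one_mul, hval, ← hsum]
      exact Finset.sum_congr rfl fun p _ => by rw [(hΩ p).2 σ hσ]
    · rw [split, hval]
      rcases Finset.mem_insert.mp hσs with h | h
      · refine mul_eq_zero_of_right _ (Finset.sum_eq_zero fun p _ => ?_)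
        rw [(hΩ p).smul_eq (QuotientGroup.eq.mp h.symm), sub_self, mul_zero]
      · rw [h0 σ h hσN, zero_mul]

theorem exists_dual_pair (hℓ : ℓ.Prime) (A₀ : ValuationSubring Qbar) (hA₀ : A₀.LiesOverPrime ℓ)
    (N : Subgroup Γℚ) [N.Normal] [N.FiniteIndex]
    (hunr : ∀ σ, IsTrivialResidue ℓ A₀ N σ → σ ∈ N) :
    ∃ (κ : Type) (_ : Fintype κ) (ω ω' : κ → Qbar),
      (∀ i, IsIntegralFixed ℓ N (ω i)) ∧ (∀ i, IsIntegralFixed ℓ N (ω' i)) ∧
      (∀ σ ∈ N, ∑ i, σ • ω i * ω' i = 1) ∧ (∀ σ ∉ N, ∑ i, σ • ω i * ω' i = 0) := by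
  classical
  have : Fintype (Γℚ ⧸ N) := Fintype.ofFinite _
  obtain ⟨κ, hκ, ω, ω', hω, hω', h1, h0⟩ := exists_partial_dual hℓ A₀ hA₀ N hunr Finset.univ
  exact ⟨κ, hκ, ω, ω', hω, hω', h1, fun σ hσ => h0 σ (Finset.mem_univ _) hσ⟩

end FermatLib.Igusa.TorsionModel
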