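import Fermat.Agent.Igusa.TorsionModel.GaloisBase
import Mathlib.RingTheory.Valuation.LocalSubring
import Mathlib.Algebra.Polynomial.Lifts

/-!
# Integrality over `ℤ_(ℓ)` is detected at one place
-/

set_option autoImplicit false
set_option linter.unusedSectionVars false

noncomputable section

namespace FermatLib.Igusa.TorsionModel

local notation "Qbar" => AlgebraicClosure ℚ
local notation "Γℚ" => (AlgebraicClosure ℚ ≃ₐ[ℚ] AlgebraicClosure ℚ)

variable {ℓ : ℕ}

set_option quotPrecheck false in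
local notation "O" => ↥(GaloisRep.ratLocalizedAt ℓ)

/-- A valuation ring containing `ℤ_(ℓ)` but not lying over `ℓ` is everything. -/
theorem eq_top_of_not_liesOverPrime (hℓ : ℓ.Prime) (V : ValuationSubring Qbar)
    (hO : ∀ r : O, algebraMap O Qbar r ∈ V) (hV : ¬ V.LiesOverPrime ℓ) (x : Qbar) : x ∈ V := by
  have hl : ((ℓ : ℕ) : Qbar)⁻¹ ∈ V := by
    rcases V.mem_or_inv_mem ((ℓ : ℕ) : Qbar)⁻¹ with h | h
    · exact h
    rw [inv_inv] at h
    by_contra hn
    refine hV ?_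
    show ((ℓ : ℕ) : Qbar) ∈ V.nonunits
    refine (ValuationSubring.coe_mem_nonunits_iff (a := (⟨_, h⟩ : V))).mpr
      ((IsLocalRing.mem_maximalIdeal _).mpr fun hu => hn ?_)
    obtain ⟨w, hw⟩ := hu.exists_left_inv
    have hw' : (w : Qbar) * ((ℓ : ℕ) : Qbar) = 1 := congrArg Subtype.val hw
    rw [← eq_inv_of_mul_eq_one_left hw']
    exact w.2
  have hq : ∀ q : ℚ, algebraMap ℚ Qbar q ∈ V := by
    intro q
    obtain ⟨v, d, hd, hvd⟩ := Nat.exists_eq_pow_mul_and_not_dvd q.den_ne_zero ℓ hℓ.ne_one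
    have hd0 : d ≠ 0 := fun h => hd (h ▸ dvd_zero ℓ)
    have hmem : ((d : ℚ))⁻¹ ∈ GaloisRep.ratLocalizedAt ℓ := by
      show ((d : ℚ))⁻¹.den.Coprime ℓ
      rw [Rat.inv_natCast_den, if_neg hd0]
      exact (hℓ.coprime_iff_not_dvd.mpr hd).symm
    have h1 : algebraMap ℚ Qbar ((d : ℚ))⁻¹ ∈ V := hO ⟨_, hmem⟩
    rw [← Rat.num_div_den q, hvd]
    simp only [map_div₀, map_intCast, map_natCast, Nat.cast_mul, Nat.cast_pow, map_mul, map_pow,
      map_inv₀] at h1 ⊢
    rw [div_eq_mul_inv, mul_inv, ← inv_pow]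
    exact mul_mem (intCast_mem V _) (mul_mem (pow_mem hl _) h1)
  let φ : ℚ →+* V := (algebraMap ℚ Qbar).codRestrict V.toSubring hq
  obtain ⟨p, hp, hpx⟩ := Algebra.IsIntegral.isIntegral (R := ℚ) x
  have : IsIntegral V x := ⟨p.map φ, hp.map φ, by rw [Polynomial.eval₂_map]; exact hpx⟩
  obtain ⟨y, hy⟩ := IsIntegrallyClosed.isIntegral_iff.mp this
  exact hy ▸ y.2

/-- An element all of whose conjugates are integral at one place over `ℓ` is integral. -/
theorem isIntegral_of_forall_smul_mem (hℓ : ℓ.Prime) (A₀ : ValuationSubring Qbar)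
    (hA₀ : A₀.LiesOverPrime ℓ) {x : Qbar} (hx : ∀ σ : Γℚ, σ • x ∈ A₀) :
    IsIntegral O x := by
  set s : Set Qbar := Set.range (algebraMap O Qbar)
  have h : x ∈ ⨅ V : {V : ValuationSubring Qbar // s ⊆ V.toSubring}, V.1.toSubring := by
    rw [Subring.mem_iInf]
    rintro ⟨V, hV⟩
    by_cases hVℓ : V.LiesOverPrime ℓ
    · obtain ⟨σ, hσ, -⟩ := exists_smul_mem_of_liesOverPrime hℓ A₀ V hA₀ hVℓ
      have h1 := hσ _ (hx σ⁻¹)
      rwa [smul_inv_smul] at h1
    · exact eq_top_of_not_liesOverPrime hℓ V (fun r => hV ⟨r, rfl⟩) hVℓ x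
  rw [iInf_valuationSubring_superset, Subalgebra.mem_toSubring, mem_integralClosure_iff] at h
  obtain ⟨p, hp, hpx⟩ := h
  have hcl : ∀ y ∈ Subring.closure s, y ∈ s := by
    intro y hy
    have : Subring.closure s ≤ (algebraMap O Qbar).range :=
      Subring.closure_le.mpr (by rw [RingHom.coe_range])
    exact RingHom.mem_range.mp (this hy)
  have hlift : p.map (algebraMap (Subring.closure s) Qbar) ∈
      Polynomial.lifts (algebraMap O Qbar) := by
    rw [Polynomial.lifts_iff_coeff_lifts]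
    intro n
    rw [Polynomial.coeff_map]
    exact hcl _ (p.coeff n).2
  obtain ⟨q, hq, -, hqm⟩ := Polynomial.lifts_and_degree_eq_and_monic hlift (hp.map _)
  refine ⟨q, hqm, ?_⟩
  rw [← Polynomial.eval_map, hq, Polynomial.eval_map]
  exact hpx

end FermatLib.Igusa.TorsionModel
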