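import Fermat.Agent.Igusa.TorsionModel.GaloisBase
import Fermat.Prelude.Def_ModularCurve_LaurentCoeff
import Mathlib.RingTheory.Finiteness.Nakayama
import Mathlib.LinearAlgebra.Basis.VectorSpace

/-!
# Solutions of linear systems injective at all closed points are integral
-/

set_option autoImplicit false
set_option linter.unusedSectionVars false

noncomputable section

open ModularCurve

namespace FermatLib.Igusa.TorsionModel

/-- A row space which is everything modulo each maximal ideal is everything. -/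
theorem span_eq_top_of_forall_maximal {B : Type*} [CommRing B] {n : Type*} [Fintype n]
    {R : Type*} (P : R → n → B)
    (hinj : ∀ m : Ideal B, m.IsMaximal → ∀ v : n → B,
      (∀ r, ∑ j, P r j * v j ∈ m) → ∀ j, v j ∈ m) :
    Submodule.span B (Set.range P) = ⊤ := by
  classical
  set S := Submodule.span B (Set.range P) with hS
  by_contra hne
  set N := (n → B) ⧸ S with hN
  have hfg : (⊤ : Submodule B N).FG := Module.Finite.fg_top
  set I := Submodule.annihilator (⊤ : Submodule B N) with hI
  have hIne : I ≠ ⊤ := by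
    intro h1
    refine hne (eq_top_iff.mpr fun x _ => ?_)
    have h2 : (1 : B) ∈ I := h1 ▸ Submodule.mem_top
    have h3 := Submodule.mem_annihilator.mp h2 (Submodule.Quotient.mk x) Submodule.mem_top
    rw [one_smul] at h3
    exact (Submodule.Quotient.mk_eq_zero S).mp h3
  obtain ⟨m, hm, hIm⟩ := Ideal.exists_le_maximal I hIne
  -- modulo `m` the rows span everything
  let _ : Field (B ⧸ m) := Ideal.Quotient.field m
  let π : (n → B) →ₗ[B] (n → B ⧸ m) :=
    LinearMap.pi fun j => (Ideal.Quotient.mkₐ B m).toLinearMap.comp (LinearMap.proj j)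
  set Sbar : Submodule (B ⧸ m) (n → B ⧸ m) := Submodule.span (B ⧸ m) (Set.range fun r => π (P r))
  have htop : Sbar = ⊤ := by
    by_contra hlt
    obtain ⟨φ, hφ0, hφ⟩ := Submodule.exists_le_ker_of_lt_top Sbar (lt_top_iff_ne_top.mpr hlt)
    choose v hv using fun j => Ideal.Quotient.mk_surjective (φ (Pi.single j 1))
    have hφeq : ∀ x : n → B, φ (π x) = Ideal.Quotient.mk m (∑ j, x j * v j) := by
      intro x
      rw [pi_eq_sum_univ (π x), map_sum, map_sum]
      refine Finset.sum_congr rfl fun j _ => ?_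
      rw [map_smul, map_mul, hv j, smul_eq_mul]
      congr 2
      funext i
      simp [Pi.single_apply, eq_comm]
    refine hφ0 (LinearMap.pi_ext fun j c => ?_)
    have hj : v j ∈ m := hinj m hm v (fun r => by
      rw [← Ideal.Quotient.eq_zero_iff_mem, ← hφeq]
      exact LinearMap.mem_ker.mp (hφ (Submodule.subset_span ⟨r, rfl⟩))) j
    have : (Pi.single j c : n → B ⧸ m) = c • Pi.single j 1 := by
      rw [← Pi.single_smul, smul_eq_mul, mul_one]
    rw [this, map_smul, ← hv j, Ideal.Quotient.eq_zero_iff_mem.mpr hj, smul_zero,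
      LinearMap.zero_apply]
  -- hence `N = m N`
  have hle : (⊤ : Submodule B N) ≤ m • ⊤ := by
    intro y _
    obtain ⟨x, rfl⟩ := Submodule.Quotient.mk_surjective S y
    have hx : π x ∈ Sbar := htop ▸ Submodule.mem_top
    have hlift : ∀ z ∈ Sbar, ∃ s ∈ S, π s = z := by
      intro z hz
      induction hz using Submodule.span_induction with
      | mem z hz => obtain ⟨r, rfl⟩ := hz; exact ⟨P r, Submodule.subset_span ⟨r, rfl⟩, rfl⟩
      | zero => exact ⟨0, S.zero_mem, map_zero _⟩
      | add a b _ _ ha hb =>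
        obtain ⟨s, hs, rfl⟩ := ha
        obtain ⟨t, ht, rfl⟩ := hb
        exact ⟨s + t, S.add_mem hs ht, map_add _ _ _⟩
      | smul c a _ ha =>
        obtain ⟨s, hs, rfl⟩ := ha
        obtain ⟨c', rfl⟩ := Ideal.Quotient.mk_surjective c
        exact ⟨c' • s, S.smul_mem c' hs, by rw [map_smul]; rfl⟩
    obtain ⟨s, hs, hsx⟩ := hlift _ hx
    have hmem : ∀ j, x j - s j ∈ m := fun j =>
      Ideal.Quotient.eq.mp (congr_fun hsx j).symm
    have e : (Submodule.Quotient.mk x : N) = Submodule.Quotient.mk (x - s) := by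
      rw [Submodule.Quotient.mk_sub, (Submodule.Quotient.mk_eq_zero S).mpr hs, sub_zero]
    rw [e, ← Finset.univ_sum_single (x - s), ← Submodule.mkQ_apply, map_sum]
    refine Submodule.sum_mem _ fun j _ => ?_
    have : (Pi.single j ((x - s) j) : n → B) = (x j - s j) • Pi.single j 1 := by
      rw [← Pi.single_smul, smul_eq_mul, mul_one, Pi.sub_apply]
    rw [this, map_smul]
    exact Submodule.smul_mem_smul (hmem j) Submodule.mem_top
  obtain ⟨r, hr, hr0⟩ :=
    Submodule.exists_sub_one_mem_and_smul_eq_zero_of_fg_of_le_smul m ⊤ hfg hle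
  have hrI : r ∈ I := Submodule.mem_annihilator.mpr fun y hy => hr0 y hy
  have h1 : (1 : B) ∈ m := by
    have := m.sub_mem (hIm hrI) hr
    rwa [sub_sub_cancel] at this
  exact hm.ne_top ((Ideal.eq_top_iff_one m).mpr h1)

local notation "Qbar" => AlgebraicClosure ℚ
local notation "Γℚ" => (AlgebraicClosure ℚ ≃ₐ[ℚ] AlgebraicClosure ℚ)

variable {ℓ : ℕ} {T : Type}

set_option quotPrecheck false in
local notation "O" => ↥(GaloisRep.ratLocalizedAt ℓ)

/-- Evaluation of a ring of functions at a point. -/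
def evalT (B : Subalgebra O (T → Qbar)) (t : T) : B →+* Qbar :=
  (Pi.evalRingHom (fun _ : T => Qbar) t).comp B.val.toRingHom

@[simp]
theorem evalT_apply (B : Subalgebra O (T → Qbar)) (t : T) (b : B) :
    evalT B t b = (b : T → Qbar) t := rfl

/-- The reduction of a conjugate of an evaluation at a fixed place. -/
def reduceT (hℓ : ℓ.Prime) (A₀ : ValuationSubring Qbar) (hA₀ : A₀.LiesOverPrime ℓ)
    (B : Subalgebra O (T → Qbar)) (hB : Module.Finite O B) (σ : Γℚ) (t : T) :
    B →+* IsLocalRing.ResidueField A₀ :=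
  (IsLocalRing.residue A₀).comp
    ((((σ : Qbar →+* Qbar)).comp (evalT B t)).codRestrict A₀.toSubring fun b =>
      mem_of_isIntegral_localBase hℓ A₀ hA₀ (smul_integral σ
        (haveI := hB; (IsIntegral.of_finite O b).map
          ((Pi.evalAlgHom O (fun _ : T => Qbar) t).comp B.val))))

theorem reduceT_eq_zero_iff (hℓ : ℓ.Prime) (A₀ : ValuationSubring Qbar)
    (hA₀ : A₀.LiesOverPrime ℓ) (B : Subalgebra O (T → Qbar)) (hB : Module.Finite O B)
    (σ : Γℚ) (t : T) (b : B) :
    reduceT hℓ A₀ hA₀ B hB σ t b = 0 ↔ σ • (b : T → Qbar) t ∈ A₀.nonunits := by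
  rw [reduceT, RingHom.comp_apply, IsLocalRing.residue_eq_zero_iff,
    ← ValuationSubring.coe_mem_nonunits_iff]
  rfl

/-- A linear system with an injective reduction at every point has integral solutions. -/
theorem exists_solution_of_injective (hℓ : ℓ.Prime) (A₀ : ValuationSubring Qbar)
    (hA₀ : A₀.LiesOverPrime ℓ) [Finite T] (B : Subalgebra O (T → Qbar)) (hB : Module.Finite O B)
    {n : Type} [Fintype n] {R : Type*} (P : R → n → B) (b : R → B) (ξ : T → n → Qbar)
    (hsol : ∀ t r, ∑ j, (P r j : T → Qbar) t * ξ t j = (b r : T → Qbar) t)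
    (hinj : ∀ σ t (v : n → IsLocalRing.ResidueField A₀),
      (∀ r, ∑ j, reduceT hℓ A₀ hA₀ B hB σ t (P r j) * v j = 0) → v = 0) :
    ∀ j, ∃ x : B, ∀ t, (x : T → Qbar) t = ξ t j := by
  classical
  have htop : Submodule.span B (Set.range P) = ⊤ := by
    refine span_eq_top_of_forall_maximal P fun m hm v hv j => ?_
    obtain ⟨σ, t, hσt⟩ := exists_mem_iff_of_isMaximal hℓ A₀ hA₀ B hB m hm
    have h0 := hinj σ t (fun j => reduceT hℓ A₀ hA₀ B hB σ t (v j)) fun r => by
      have h1 := (reduceT_eq_zero_iff hℓ A₀ hA₀ B hB σ t _).mpr ((hσt _).mp (hv r))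
      simpa [map_sum] using h1
    exact (hσt _).mpr ((reduceT_eq_zero_iff hℓ A₀ hA₀ B hB σ t _).mp (congr_fun h0 j))
  intro j
  have hmem : (Pi.single j 1 : n → B) ∈ Submodule.span B (Set.range P) :=
    htop ▸ Submodule.mem_top
  suffices h : ∀ z ∈ Submodule.span B (Set.range P),
      ∃ x : B, ∀ t, (x : T → Qbar) t = ∑ i, (z i : T → Qbar) t * ξ t i by
    obtain ⟨x, hx⟩ := h _ hmem
    refine ⟨x, fun t => ?_⟩
    rw [hx t, Finset.sum_eq_single j]
    · simp
    · intro i _ hi; simp [Pi.single_eq_of_ne hi]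
    · simp
  intro z hz
  induction hz using Submodule.span_induction with
  | mem z hz => obtain ⟨r, rfl⟩ := hz; exact ⟨b r, fun t => (hsol t r).symm⟩
  | zero => exact ⟨0, fun t => by simp⟩
  | add z w _ _ hz hw =>
    obtain ⟨x, hx⟩ := hz
    obtain ⟨y, hy⟩ := hw
    exact ⟨x + y, fun t => by simp [hx, hy, add_mul, Finset.sum_add_distrib]⟩
  | smul c z _ hz =>
    obtain ⟨x, hx⟩ := hz
    exact ⟨c * x, fun t => by simp [hx, Finset.mul_sum, mul_assoc]⟩

/-- The series form: the equations are coefficientwise. -/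
theorem exists_solution_of_injective_series (hℓ : ℓ.Prime) (A₀ : ValuationSubring Qbar)
    (hA₀ : A₀.LiesOverPrime ℓ) [Finite T] (B : Subalgebra O (T → Qbar)) (hB : Module.Finite O B)
    {n : Type} [Fintype n] {S : Type*} (v : S → n → LaurentSeries B) (w : S → LaurentSeries B)
    (ξ : T → n → Qbar)
    (hsol : ∀ t s, ∑ j, ξ t j • coeffMap (evalT B t) (v s j) = coeffMap (evalT B t) (w s))
    (hinj : ∀ σ t (c : n → IsLocalRing.ResidueField A₀),
      (∀ s, ∑ j, c j • coeffMap (reduceT hℓ A₀ hA₀ B hB σ t) (v s j) = 0) → c = 0) :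
    ∀ j, ∃ x : B, ∀ t, (x : T → Qbar) t = ξ t j := by
  refine exists_solution_of_injective hℓ A₀ hA₀ B hB (R := S × ℤ)
    (fun r j => (v r.1 j).coeff r.2) (fun r => (w r.1).coeff r.2) ξ (fun t r => ?_)
    fun σ t c hc => hinj σ t c fun s => ?_
  · have h := congrArg (fun x : LaurentSeries Qbar => x.coeff r.2) (hsol t r.1)
    simp only [HahnSeries.coeff_sum, HahnSeries.coeff_smul, coeffMap_coeff, evalT_apply,
      smul_eq_mul] at h
    rw [← h]
    exact Finset.sum_congr rfl fun j _ => mul_comm _ _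
  · ext i
    simp only [HahnSeries.coeff_sum, HahnSeries.coeff_smul, coeffMap_coeff, smul_eq_mul,
      HahnSeries.coeff_zero]
    rw [← hc (s, i)]
    exact Finset.sum_congr rfl fun j _ => mul_comm _ _

end FermatLib.Igusa.TorsionModel
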