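import Fermat.Agent.Igusa.TorsionModel.StageSystems
import Fermat.Prelude.Def_ModularCurve_LaurentCoeff

/-!
# Normal bases given by integral series
-/

set_option autoImplicit false
set_option linter.unusedSectionVars false

noncomputable section

open AlgebraicCurve ModularCurve

namespace FermatLib.Igusa.TorsionModel

/-- Multiplying a series by a constant. -/
theorem smul_series_eq {R : Type*} [CommRing R] (c : R) (x : LaurentSeries R) :
    c • x = HahnSeries.single (0 : ℤ) c * x := by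
  ext i
  rw [HahnSeries.coeff_single_zero_mul, HahnSeries.coeff_smul, smul_eq_mul]

/-- A basis given by series over `O`. -/
structure SeriesBasis (O : Type*) [CommRing O] (g : ℕ) where
  C : Fin g → LaurentSeries O
  E : ℕ → LaurentSeries O

namespace SeriesBasis

variable {O R S : Type*} [CommRing O] [CommRing R] [CommRing S] {g : ℕ} (Z : SeriesBasis O g)

/-- The basis over an `O`-ring. -/
def bas (j : O →+* R) (M : ℕ) : Fin g ⊕ Fin M → LaurentSeries R :=
  Sum.elim (fun l => coeffMap j (Z.C l)) fun t => coeffMap j (Z.E t)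

/-- The series `E t - ∑ c l C l`. -/
def reduced (j : O →+* R) (c : Fin g → R) (t : ℕ) : LaurentSeries R :=
  coeffMap j (Z.E t) - ∑ l, c l • coeffMap j (Z.C l)

/-- The series `φ`. -/
def phi (j : O →+* R) (c₁ c₂ : ℕ → Fin g → R) : LaurentSeries R :=
  Z.reduced j (c₁ g) g * Z.reduced j (c₂ g) g

/-- The series `x`. -/
def xSer (j : O →+* R) (k : ℕ) (a : Fin g ⊕ Fin (4 * g) → R) : LaurentSeries R :=
  coeffMap j (Z.E (4 * g + k)) + ∑ i, a i • Z.bas j (4 * g) i

theorem coeffMap_smul (h : R →+* S) (c : R) (x : LaurentSeries R) :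
    coeffMap h (c • x) = h c • coeffMap h x := by
  rw [smul_series_eq, smul_series_eq, map_mul, coeffMap_single]

theorem coeffMap_bas (h : R →+* S) (j : O →+* R) (M : ℕ) (i : Fin g ⊕ Fin M) :
    coeffMap h (Z.bas j M i) = Z.bas (h.comp j) M i := by
  rcases i with l | t <;> simp [bas, coeffMap_coeffMap]

theorem coeffMap_reduced (h : R →+* S) (j : O →+* R) (c : Fin g → R) (t : ℕ) :
    coeffMap h (Z.reduced j c t) = Z.reduced (h.comp j) (fun l => h (c l)) t := by
  simp only [reduced, map_sub, map_sum, coeffMap_smul, coeffMap_coeffMap]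

theorem coeffMap_phi (h : R →+* S) (j : O →+* R) (c₁ c₂ : ℕ → Fin g → R) :
    coeffMap h (Z.phi j c₁ c₂) =
      Z.phi (h.comp j) (fun t l => h (c₁ t l)) (fun t l => h (c₂ t l)) := by
  simp only [phi, map_mul, coeffMap_reduced]

theorem coeffMap_xSer (h : R →+* S) (j : O →+* R) (k : ℕ) (a : Fin g ⊕ Fin (4 * g) → R) :
    coeffMap h (Z.xSer j k a) = Z.xSer (h.comp j) k (fun i => h (a i)) := by
  simp only [xSer, map_add, map_sum, coeffMap_smul, coeffMap_coeffMap, coeffMap_bas]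

/-- The unknowns of the first system. -/
abbrev Unknown₁ (g : ℕ) : Type :=
  (Fin g ⊕ Fin (4 * g)) ⊕ ((Fin (g + 1) × Fin (g + 1)) × Fin (5 * g + 1))

/-- The unknowns of the second system. -/
abbrev Unknown₂ (g : ℕ) : Type := Fin g ⊕ (Fin (g + 1) × (Fin g ⊕ Fin (6 * g + 1)))

/-- The coefficient series of the first system. -/
def row₁ (j : O →+* R) (c₁ c₂ cc : ℕ → Fin g → R) (st : Fin (g + 1) × Fin (g + 1)) :
    Unknown₁ g → LaurentSeries R :=
  Sum.elim (fun i => Z.bas j (4 * g) i * (Z.reduced j (c₁ st.1) st.1 * Z.reduced j (c₂ st.2) st.2))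
    fun p => if p.1 = st then -(Z.phi j c₁ c₂ * Z.reduced j (cc p.2) p.2) else 0

/-- The right hand side of the first system. -/
def rhs₁ (j : O →+* R) (c₁ c₂ : ℕ → Fin g → R) (k : ℕ) (st : Fin (g + 1) × Fin (g + 1)) :
    LaurentSeries R :=
  -(coeffMap j (Z.E (4 * g + k)) * (Z.reduced j (c₁ st.1) st.1 * Z.reduced j (c₂ st.2) st.2))

/-- The coefficient series of the second system. -/
def row₂ (j : O →+* R) (a : ℕ → Fin g ⊕ Fin (4 * g) → R) (k : Fin (g + 1)) :
    Unknown₂ g → LaurentSeries R :=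
  Sum.elim (fun l => coeffMap j (Z.C l) * Z.xSer j k (a k))
    fun p => if p.1 = k then Z.xSer j 0 (a 0) * Z.bas j (6 * g + 1) p.2 else 0

/-- The right hand side of the second system. -/
def rhs₂ (j : O →+* R) (a : ℕ → Fin g ⊕ Fin (4 * g) → R) (i : ℕ) (k : Fin (g + 1)) :
    LaurentSeries R :=
  coeffMap j (Z.E i) * Z.xSer j k (a k)

theorem coeffMap_row₁ (h : R →+* S) (j : O →+* R) (c₁ c₂ cc : ℕ → Fin g → R)
    (st : Fin (g + 1) × Fin (g + 1)) (u : Unknown₁ g) :
    coeffMap h (Z.row₁ j c₁ c₂ cc st u) = Z.row₁ (h.comp j) (fun t l => h (c₁ t l))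
      (fun t l => h (c₂ t l)) (fun t l => h (cc t l)) st u := by
  rcases u with i | p
  · simp [row₁, map_mul, coeffMap_bas, coeffMap_reduced]
  · simp only [row₁, Sum.elim_inr]
    split_ifs <;> simp [map_mul, coeffMap_phi, coeffMap_reduced]

theorem coeffMap_rhs₁ (h : R →+* S) (j : O →+* R) (c₁ c₂ : ℕ → Fin g → R) (k : ℕ)
    (st : Fin (g + 1) × Fin (g + 1)) :
    coeffMap h (Z.rhs₁ j c₁ c₂ k st) =
      Z.rhs₁ (h.comp j) (fun t l => h (c₁ t l)) (fun t l => h (c₂ t l)) k st := by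
  simp [rhs₁, map_mul, coeffMap_reduced, coeffMap_coeffMap]

theorem coeffMap_row₂ (h : R →+* S) (j : O →+* R) (a : ℕ → Fin g ⊕ Fin (4 * g) → R)
    (k : Fin (g + 1)) (u : Unknown₂ g) :
    coeffMap h (Z.row₂ j a k u) = Z.row₂ (h.comp j) (fun t i => h (a t i)) k u := by
  rcases u with i | p
  · simp [row₂, map_mul, coeffMap_xSer, coeffMap_coeffMap]
  · simp only [row₂, Sum.elim_inr]
    split_ifs <;> simp [map_mul, coeffMap_bas, coeffMap_xSer]

theorem coeffMap_rhs₂ (h : R →+* S) (j : O →+* R) (a : ℕ → Fin g ⊕ Fin (4 * g) → R) (i : ℕ)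
    (k : Fin (g + 1)) :
    coeffMap h (Z.rhs₂ j a i k) = Z.rhs₂ (h.comp j) (fun t l => h (a t l)) i k := by
  simp [rhs₂, map_mul, coeffMap_xSer, coeffMap_coeffMap]

end SeriesBasis

/-- A normal basis represented by series over `O`. -/
structure Represents {O K F : Type*} [CommRing O] [Field K] [Field F] [Algebra K F] {g : ℕ}
    {P₀ : Place K F} (Z : SeriesBasis O g) (j : O →+* K) (B : NormalBasis K F g P₀)
    (ι : F →+* LaurentSeries K) : Prop where
  commutes : ∀ (c : K) (f : F), ι (c • f) = c • ι f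
  C_eq : ∀ l, ι (B.C l) = coeffMap j (Z.C l)
  E_eq : ∀ t, ι (B.E t) = coeffMap j (Z.E t)

namespace Represents

variable {O K F : Type*} [CommRing O] [Field K] [Field F] [Algebra K F] {g : ℕ}
  {P₀ : Place K F} {Z : SeriesBasis O g} {j : O →+* K} {B : NormalBasis K F g P₀}
  {ι : F →+* LaurentSeries K} (h : Represents Z j B ι)

include h

theorem map_bas (M : ℕ) (i : Fin g ⊕ Fin M) : ι (B.bas M i) = Z.bas j M i := by
  rcases i with l | t
  · exact h.C_eq l
  · exact h.E_eq t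

theorem map_reduced (c : Fin g → K) (t : ℕ) : ι (B.reduced c t) = Z.reduced j c t := by
  simp [NormalBasis.reduced, SeriesBasis.reduced, h.commutes, h.C_eq, h.E_eq]

theorem map_phi (c₁ c₂ : ℕ → Fin g → K) : ι (B.phi c₁ c₂) = Z.phi j c₁ c₂ := by
  simp [NormalBasis.phi, SeriesBasis.phi, h.map_reduced]

theorem map_xVec (k : ℕ) (a : Fin g ⊕ Fin (4 * g) → K) : ι (B.xVec k a) = Z.xSer j k a := by
  simp [NormalBasis.xVec, SeriesBasis.xSer, h.commutes, h.map_bas, h.E_eq]

theorem sum_row₁ (c₁ c₂ cc : ℕ → Fin g → K) (st : Fin (g + 1) × Fin (g + 1))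
    (v : SeriesBasis.Unknown₁ g → K) :
    ∑ u, v u • Z.row₁ j c₁ c₂ cc st u =
      ι ((∑ i, v (Sum.inl i) • B.bas (4 * g) i) *
          (B.reduced (c₁ st.1) st.1 * B.reduced (c₂ st.2) st.2)) -
        ι (B.phi c₁ c₂ * ∑ l, v (Sum.inr (st, l)) • B.reduced (cc l) l) := by
  rw [Fintype.sum_sum_type, Fintype.sum_prod_type, Finset.sum_eq_single st]
  · simp only [SeriesBasis.row₁, Sum.elim_inl, Sum.elim_inr, if_pos, map_mul, map_sum,
      h.commutes, h.map_bas, h.map_reduced, h.map_phi, Finset.sum_mul, Finset.mul_sum,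
      smul_mul_assoc, mul_smul_comm, smul_neg, Finset.sum_neg_distrib]
    rw [sub_eq_add_neg]
  · intro p _ hp
    simp [SeriesBasis.row₁, hp]
  · simp

theorem stageOne_iff (c₁ c₂ cc : ℕ → Fin g → K) (k : ℕ) (v : SeriesBasis.Unknown₁ g → K) :
    (∀ st, ∑ u, v u • Z.row₁ j c₁ c₂ cc st u = Z.rhs₁ j c₁ c₂ k st) ↔
      B.StageOne c₁ c₂ cc k (fun i => v (Sum.inl i)) (fun s t l => v (Sum.inr ((s, t), l))) := by
  rw [NormalBasis.StageOne, Prod.forall]
  refine forall₂_congr fun s t => ?_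
  rw [h.sum_row₁, show Z.rhs₁ j c₁ c₂ k (s, t) =
      ι (-(B.E (4 * g + k) * (B.reduced (c₁ s) s * B.reduced (c₂ t) t))) by
    simp [SeriesBasis.rhs₁, h.E_eq, h.map_reduced], ← map_sub, ι.injective.eq_iff,
    NormalBasis.xVec]
  constructor <;> intro he <;> linear_combination he

theorem stageOneZero_iff (c₁ c₂ cc : ℕ → Fin g → K) (v : SeriesBasis.Unknown₁ g → K) :
    (∀ st, ∑ u, v u • Z.row₁ j c₁ c₂ cc st u = 0) ↔
      B.StageOneZero c₁ c₂ cc (fun i => v (Sum.inl i)) (fun s t l => v (Sum.inr ((s, t), l))) := by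
  rw [NormalBasis.StageOneZero, Prod.forall]
  refine forall₂_congr fun s t => ?_
  rw [h.sum_row₁, sub_eq_zero, ι.injective.eq_iff]

theorem sum_row₂ (a : ℕ → Fin g ⊕ Fin (4 * g) → K) (k : Fin (g + 1))
    (v : SeriesBasis.Unknown₂ g → K) :
    ∑ u, v u • Z.row₂ j a k u =
      ι ((∑ l, v (Sum.inl l) • B.C l) * B.xVec k (a k)) +
        ι (B.xVec 0 (a 0) * ∑ i, v (Sum.inr (k, i)) • B.bas (6 * g + 1) i) := by
  rw [Fintype.sum_sum_type, Fintype.sum_prod_type, Finset.sum_eq_single k]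
  · simp only [SeriesBasis.row₂, Sum.elim_inl, Sum.elim_inr, if_pos, map_mul, map_sum,
      h.commutes, h.map_bas, h.map_xVec, h.C_eq, Finset.sum_mul, Finset.mul_sum,
      smul_mul_assoc, mul_smul_comm]
  · intro p _ hp
    simp [SeriesBasis.row₂, hp]
  · simp

theorem stageTwo_iff (a : ℕ → Fin g ⊕ Fin (4 * g) → K) (i : ℕ)
    (v : SeriesBasis.Unknown₂ g → K) :
    (∀ k, ∑ u, v u • Z.row₂ j a k u = Z.rhs₂ j a i k) ↔
      B.StageTwo i a (fun l => v (Sum.inl l)) (fun k u => v (Sum.inr (k, u))) := by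
  rw [NormalBasis.StageTwo]
  refine forall_congr' fun k => ?_
  rw [h.sum_row₂, show Z.rhs₂ j a i k = ι (B.E i * B.xVec k (a k)) by
    simp [SeriesBasis.rhs₂, h.E_eq, h.map_xVec], ← map_add, ι.injective.eq_iff,
    NormalBasis.reduced]
  constructor <;> intro he <;> linear_combination -he

theorem stageTwoZero_iff (a : ℕ → Fin g ⊕ Fin (4 * g) → K) (v : SeriesBasis.Unknown₂ g → K) :
    (∀ k, ∑ u, v u • Z.row₂ j a k u = 0) ↔
      B.StageTwoZero a (fun l => v (Sum.inl l)) (fun k u => -v (Sum.inr (k, u))) := by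
  rw [NormalBasis.StageTwoZero]
  refine forall_congr' fun k => ?_
  rw [h.sum_row₂, ← map_add, map_eq_zero_iff ι ι.injective]
  simp only [neg_smul, Finset.sum_neg_distrib, mul_neg]
  exact add_eq_zero_iff_eq_neg

end Represents

end FermatLib.Igusa.TorsionModel
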