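import Fermat.Agent.Igusa.PlaceMap
import Fermat.Agent.Igusa.TorsionModel.SeriesModel
import Fermat.Agent.Igusa.TorsionModel.IntegralSolve
import Fermat.Prelude.Def_AlgebraicCurve_BaseChangeGalois

/-!
# A curve over `ℚ̄` with good reduction at one place, and reduction of coordinates
-/

set_option autoImplicit false
set_option linter.unusedSectionVars false

noncomputable section

open AlgebraicCurve ModularCurve

namespace FermatLib.Igusa.TorsionModel

local notation "Qbar" => AlgebraicClosure ℚ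
local notation "Γℚ" => (AlgebraicClosure ℚ ≃ₐ[ℚ] AlgebraicClosure ℚ)

variable {ℓ : ℕ} {hℓ : ℓ.Prime} {A₀ : ValuationSubring (AlgebraicClosure ℚ)}
  {hA₀ : A₀.LiesOverPrime ℓ}

set_option quotPrecheck false in
local notation "O" => ↥(GaloisRep.ratLocalizedAt ℓ)

set_option quotPrecheck false in
local notation "k₀" => IsLocalRing.ResidueField A₀

/-- The base mapped into the fixed residue field. -/
def baseRes (hℓ : ℓ.Prime) (A₀ : ValuationSubring Qbar) (hA₀ : A₀.LiesOverPrime ℓ) :
    O →+* IsLocalRing.ResidueField A₀ :=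
  (IsLocalRing.residue A₀).comp
    ((algebraMap O Qbar).codRestrict A₀.toSubring (algebraMap_localBase_mem hℓ A₀ hA₀))

/-- A function field over `ℚ̄` with a rational place, an integral normal basis, a good reduction
at `A₀` and a compatible Galois action. -/
structure SpecData (hℓ : ℓ.Prime) (A₀ : ValuationSubring Qbar) (hA₀ : A₀.LiesOverPrime ℓ)
    (F Fb : Type) [Field F] [Algebra Qbar F] [Field Fb]
    [Algebra (IsLocalRing.ResidueField A₀) Fb] where
  g : ℕ
  P₀ : Place Qbar F
  Pb : Place (IsLocalRing.ResidueField A₀) Fb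
  BL : NormalBasis Qbar F g P₀
  Bk : NormalBasis (IsLocalRing.ResidueField A₀) Fb g Pb
  Z : SeriesBasis (GaloisRep.ratLocalizedAt ℓ) g
  ι : F →+* LaurentSeries Qbar
  ιb : Fb →+* LaurentSeries (IsLocalRing.ResidueField A₀)
  repL : Represents Z (algebraMap (GaloisRep.ratLocalizedAt ℓ) Qbar) BL ι
  repk : Represents Z (baseRes hℓ A₀ hA₀) Bk ιb
  hF : RRField Qbar F g
  hB : RRField (IsLocalRing.ResidueField A₀) Fb g
  R : ConstantReduction A₀ (IsLocalRing.residue A₀) F Fb
  r : Place Qbar F → Place (IsLocalRing.ResidueField A₀) Fb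
  hr : R.IsReduction r
  r_base : r P₀ = Pb
  C_ring : ∀ l, ∃ h : BL.C l ∈ R.ring, R.red ⟨BL.C l, h⟩ = Bk.C l
  E_ring : ∀ t, ∃ h : BL.E t ∈ R.ring, R.red ⟨BL.E t, h⟩ = Bk.E t
  act : Γℚ →* SemilinearAut Qbar F
  act_base : ∀ (σ : Γℚ) (a : Qbar), SemilinearAut.baseAut (act σ) a = σ a
  act_P₀ : ∀ σ, act σ • P₀ = P₀
  act_series : ∀ (σ : Γℚ) (f : F),
    ι (SemilinearAut.toRingAut (act σ) f) = coeffMap (σ : Qbar →+* Qbar) (ι f)

namespace SpecData

variable {F Fb : Type} [Field F] [Algebra Qbar F] [Field Fb]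
  [Algebra (IsLocalRing.ResidueField A₀) Fb] (S : SpecData hℓ A₀ hA₀ F Fb)

/-- The reduced divisor. -/
def red (D : Divisor Qbar F) : Divisor k₀ Fb := Finsupp.mapDomain S.r D

theorem red_add (D E : Divisor Qbar F) : S.red (D + E) = S.red D + S.red E :=
  Finsupp.mapDomain_add

theorem red_sub (D E : Divisor Qbar F) : S.red (D - E) = S.red D - S.red E :=
  Finsupp.mapDomain_sub

theorem red_base (n : ℤ) : S.red (atBase S.P₀ n) = atBase S.Pb n := by
  simp [red, Finsupp.mapDomain_single, S.r_base]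

theorem red_degree (D : Divisor Qbar F) : Divisor.degree (S.red D) = Divisor.degree D :=
  degree_mapDomain S.hF S.hB S.r D

theorem red_mem_space {D : Divisor Qbar F} {f : S.R.ring} (hf : (f : F) ∈ riemannRochSpace D) :
    S.R.red f ∈ riemannRochSpace (S.red D) :=
  ConstantReduction.IsReduction.redSpace_le S.R S.hF S.hr D (S.R.red_mem_redSpace hf)

theorem space_eq_bot_of_red {D : Divisor Qbar F} (h : riemannRochSpace (S.red D) = ⊥) :
    riemannRochSpace D = ⊥ := by
  rw [eq_bot_iff]
  intro f hf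
  by_contra hf0
  obtain ⟨c, x, hc, hx, hx0⟩ := S.R.exists_smul_red_ne_zero hf0
  have := S.red_mem_space (f := x) (D := D) (by rw [hx]; exact Submodule.smul_mem _ c hf)
  rw [h, Submodule.mem_bot] at this
  exact hx0 this

theorem good_of_red {D : Divisor Qbar F} (hD : 0 ≤ D) (h : IsGood S.g S.Pb (S.red D)) :
    IsGood S.g S.P₀ D where
  nonneg := hD
  degree := by rw [← S.red_degree, h.degree]
  nonspecial := S.space_eq_bot_of_red (by rw [S.red_sub, S.red_base]; exact h.nonspecial)
  complement := S.space_eq_bot_of_red (by rw [S.red_sub, S.red_base]; exact h.complement)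

theorem red_principal {D : Divisor Qbar F} (hD : D ∈ Divisor.principal (K := Qbar) (F := F)) :
    ∃ f : Fb, f ≠ 0 ∧ ∀ v, S.red D v = v.ord f := by
  obtain ⟨f, hf, hDf⟩ := hD
  obtain ⟨c, x, hc, hx, hx0⟩ := S.R.exists_smul_red_ne_zero hf
  refine ⟨S.R.red x, hx0, fun v => S.hr x hx0 D (fun P => ?_) v⟩
  rw [hDf, hx, Algebra.smul_def, P.ord_mul (by simpa using hc) hf, ord_algebraMap, zero_add]

/-- Coordinates of a divisor with good reduction are integral and reduce to coordinates. -/
theorem coord_integral {D : Divisor Qbar F} (h : IsGood S.g S.Pb (S.red D))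
    {c : ℕ → Fin S.g → Qbar} (hc : S.BL.IsCoord D c) :
    ∃ hint : ∀ t l, c t l ∈ A₀,
      S.Bk.IsCoord (S.red D) fun t l => IsLocalRing.residue A₀ ⟨c t l, hint t l⟩ := by
  classical
  choose hC hCred using S.C_ring
  choose hE hEred using S.E_ring
  have key : ∀ (t : ℕ) (a₀ : A₀) (a : Fin S.g → A₀),
      (a₀ : Qbar) • S.BL.E t - ∑ l, (a l : Qbar) • S.BL.C l ∈
        riemannRochSpace (atBase S.P₀ (2 * S.g + t) - D) →
      IsLocalRing.residue A₀ a₀ • S.Bk.E t - ∑ l, IsLocalRing.residue A₀ (a l) • S.Bk.C l ∈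
        riemannRochSpace (atBase S.Pb (2 * S.g + t) - S.red D) := by
    intro t a₀ a hmem
    set x : S.R.ring := S.R.constMul a₀ ⟨S.BL.E t, hE t⟩ -
      ∑ l, S.R.constMul (a l) ⟨S.BL.C l, hC l⟩ with hx
    have hxF : (x : F) = (a₀ : Qbar) • S.BL.E t - ∑ l, (a l : Qbar) • S.BL.C l := by
      simp [hx, Algebra.smul_def, AddSubgroupClass.coe_sub]
    have h2 := S.red_mem_space (f := x) (by rw [hxF]; exact hmem)
    rw [S.red_sub, S.red_base] at h2
    simpa [hx, hEred, hCred] using h2
  have hint : ∀ t l, c t l ∈ A₀ := by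
    intro t l
    by_contra hl
    let w : Option (Fin S.g) → Qbar := fun o => o.elim 1 (c t)
    obtain ⟨i₀, hi₀, hA⟩ := ConstantReduction.exists_scale_coeffs A₀ (c := w)
      ⟨none, one_ne_zero⟩
    rcases i₀ with _ | l₀
    · exact hl (by simpa [w] using hA (some l))
    have hne : c t l₀ ≠ 0 := hi₀
    have hnu : ¬ IsUnit (⟨(c t l₀)⁻¹, by simpa [w] using hA none⟩ : A₀) := by
      intro hu
      obtain ⟨v, hv⟩ := hu.exists_right_inv
      have h1 : (c t l₀)⁻¹ * (v : Qbar) = 1 := congrArg Subtype.val hv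
      have hv' : (v : Qbar) = c t l₀ := by
        field_simp at h1
        exact h1
      refine hl ?_
      have h2 := mul_mem v.2 (hA (some l))
      rw [hv', show w (some l₀) = c t l₀ from rfl, show w (some l) = c t l from rfl,
        mul_inv_cancel_left₀ hne] at h2
      exact h2
    have h3 := key t ⟨_, by simpa [w] using hA none⟩
      (fun m => ⟨_, by simpa [w] using hA (some m)⟩) (by
        have e : ((c t l₀)⁻¹ : Qbar) • S.BL.E t - ∑ m, ((c t l₀)⁻¹ * c t m) • S.BL.C m
            = (c t l₀)⁻¹ • S.BL.reduced (c t) t := by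
          simp [NormalBasis.reduced, smul_sub, Finset.smul_sum, smul_smul]
        simp only
        rw [e]
        exact Submodule.smul_mem _ _ (hc t))
    rw [(IsLocalRing.residue_eq_zero_iff _).mpr ((IsLocalRing.mem_maximalIdeal _).mpr hnu),
      zero_smul, zero_sub, Submodule.neg_mem_iff] at h3
    have h4 := Fintype.linearIndependent_iff.mp S.Bk.C_indep _
      (h.eq_zero (S.Bk.sumC_mem _) h3) l₀
    refine one_ne_zero (α := k₀) ?_
    rw [← h4, ← map_one (IsLocalRing.residue A₀)]
    exact congrArg _ (Subtype.ext (inv_mul_cancel₀ hne).symm)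
  refine ⟨hint, fun t => ?_⟩
  have h3 := key t 1 (fun l => ⟨c t l, hint t l⟩) (by
    simpa [NormalBasis.reduced] using hc t)
  simpa [NormalBasis.reduced] using h3

theorem act_smul_space (σ : Γℚ) {D : Divisor Qbar F} {f : F} (hf : f ∈ riemannRochSpace D) :
    SemilinearAut.toRingAut (S.act σ) f ∈ riemannRochSpace (S.act σ • D) := by
  rcases eq_or_ne f 0 with rfl | hf0
  · simp
  refine mem_space_iff.mpr (Or.inr fun v => ?_)
  have h1 := (mem_space_iff.mp hf).resolve_left hf0 ((S.act σ)⁻¹ • v)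
  have h2 := SemilinearAut.ord_smul (S.act σ) ((S.act σ)⁻¹ • v) f
  rw [smul_inv_smul, SemilinearAut.smul_def] at h2
  rw [SemilinearAut.divisor_smul_apply, h2]
  exact h1

theorem act_smul (σ : Γℚ) (a : Qbar) (f : F) :
    SemilinearAut.toRingAut (S.act σ) (a • f) = σ a • SemilinearAut.toRingAut (S.act σ) f := by
  rw [Algebra.smul_def, map_mul, SemilinearAut.commutes, S.act_base, ← Algebra.smul_def]

theorem act_C (σ : Γℚ) (l : Fin S.g) :
    SemilinearAut.toRingAut (S.act σ) (S.BL.C l) = S.BL.C l := by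
  apply S.ι.injective
  rw [S.act_series, S.repL.C_eq, coeffMap_coeffMap]
  exact coeffMap_congr (RingHom.ext fun r => isFixedBase_galois.fixed σ r) _

theorem act_E (σ : Γℚ) (t : ℕ) :
    SemilinearAut.toRingAut (S.act σ) (S.BL.E t) = S.BL.E t := by
  apply S.ι.injective
  rw [S.act_series, S.repL.E_eq, coeffMap_coeffMap]
  exact coeffMap_congr (RingHom.ext fun r => isFixedBase_galois.fixed σ r) _

theorem act_base_divisor (σ : Γℚ) (n : ℤ) : S.act σ • atBase S.P₀ n = atBase S.P₀ n := by
  rw [SemilinearAut.smul_single, S.act_P₀]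

theorem coord_smul (σ : Γℚ) {D : Divisor Qbar F} {c : ℕ → Fin S.g → Qbar}
    (hc : S.BL.IsCoord D c) : S.BL.IsCoord (S.act σ • D) fun t l => σ (c t l) := by
  intro t
  have h := S.act_smul_space σ (hc t)
  rw [smul_sub, S.act_base_divisor] at h
  have e : SemilinearAut.toRingAut (S.act σ) (S.BL.reduced (c t) t) =
      S.BL.reduced (fun l => σ (c t l)) t := by
    simp [NormalBasis.reduced, S.act_smul, S.act_C, S.act_E]
  rwa [e] at h

theorem smul_nonneg_divisor (σ : Γℚ) {D : Divisor Qbar F} (hD : 0 ≤ D) : 0 ≤ S.act σ • D := by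
  refine Finsupp.le_def.mpr fun v => ?_
  rw [SemilinearAut.divisor_smul_apply]
  exact Finsupp.le_def.mp hD _

/-- A divisor all of whose conjugates have good reduction. -/
def IsEverywhereGood (D : Divisor Qbar F) : Prop :=
  0 ≤ D ∧ ∀ σ : Γℚ, IsGood S.g S.Pb (S.red (S.act σ • D))

theorem IsEverywhereGood.good {S : SpecData hℓ A₀ hA₀ F Fb} {D : Divisor Qbar F}
    (h : S.IsEverywhereGood D) : IsGood S.g S.P₀ D := by
  refine S.good_of_red h.1 ?_
  simpa using h.2 1

theorem IsEverywhereGood.good_red {S : SpecData hℓ A₀ hA₀ F Fb} {D : Divisor Qbar F}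
    (h : S.IsEverywhereGood D) : IsGood S.g S.Pb (S.red D) := by
  simpa using h.2 1

theorem IsEverywhereGood.smul {S : SpecData hℓ A₀ hA₀ F Fb} {D : Divisor Qbar F}
    (h : S.IsEverywhereGood D) (σ : Γℚ) : S.IsEverywhereGood (S.act σ • D) :=
  ⟨S.smul_nonneg_divisor σ h.1, fun τ => by rw [← mul_smul, ← map_mul]; exact h.2 _⟩

end SpecData

end FermatLib.Igusa.TorsionModel
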