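import Fermat.Agent.Igusa.TorsionModel.SimpleFibres
import Fermat.Agent.Igusa.TorsionModel.SpecData
import Fermat.Agent.Igusa.TorsionModel.DualBasis
import Fermat.Agent.Igusa.TorsionModel.IntegralValues
import Mathlib.GroupTheory.GroupAction.Quotient
import Mathlib.FieldTheory.IsAlgClosed.Basic
import Mathlib.RingTheory.RootsOfUnity.PrimitiveRoots

/-!
# Unramified points with good reduction avoiding a finite set
-/

set_option autoImplicit false
set_option linter.unusedSectionVars false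

noncomputable section

open AlgebraicCurve ModularCurve

namespace FermatLib.Igusa.TorsionModel

local notation "Qbar" => AlgebraicClosure ℚ
local notation "Γℚ" => (AlgebraicClosure ℚ ≃ₐ[ℚ] AlgebraicClosure ℚ)

variable {ℓ : ℕ} {hℓ : ℓ.Prime} {A₀ : ValuationSubring (AlgebraicClosure ℚ)}
  {hA₀ : A₀.LiesOverPrime ℓ}

set_option quotPrecheck false in
local notation "O" => ↥(GaloisRep.ratLocalizedAt ℓ)

set_option quotPrecheck false in
local notation "k₀" => IsLocalRing.ResidueField A₀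

/-- The stabiliser of an algebraic number has finite index. -/
theorem finiteIndex_stabilizer_galois (x : Qbar) :
    (MulAction.stabilizer Γℚ x).FiniteIndex := by
  have hfin : (MulAction.orbit Γℚ x).Finite := by
    refine ((minpoly ℚ x).rootSet_finite Qbar).subset ?_
    rintro _ ⟨σ, rfl⟩
    rw [Polynomial.mem_rootSet_of_ne (minpoly.ne_zero (Algebra.IsIntegral.isIntegral x))]
    show Polynomial.aeval (σ x) (minpoly ℚ x) = 0
    rw [Polynomial.aeval_algHom_apply σ x, minpoly.aeval, map_zero]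
  have : Finite (MulAction.orbit Γℚ x) := hfin.to_subtype
  have : Finite (Γℚ ⧸ MulAction.stabilizer Γℚ x) :=
    Finite.of_equiv _ (MulAction.orbitEquivQuotientStabilizer Γℚ x)
  exact Subgroup.finiteIndex_of_finite_quotient

/-- The nonzero residue characteristic test. -/
theorem natCast_residue_ne_zero (hℓ : ℓ.Prime) (hA₀ : A₀.LiesOverPrime ℓ) {d : ℕ}
    (hd : d.Coprime ℓ) : (d : k₀) ≠ 0 := by
  intro h
  rw [← map_natCast (IsLocalRing.residue A₀) d, IsLocalRing.residue_eq_zero_iff] at h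
  refine intCast_not_mem_nonunits hℓ A₀ hA₀ hd ?_
  have := (ValuationSubring.coe_mem_nonunits_iff (a := ((d : ℕ) : A₀))).mpr h
  simpa using this

theorem mem_of_pow_eq_one {ζ : Qbar} {q : ℕ} (hq : q ≠ 0) (h : ζ ^ q = 1) : ζ ∈ A₀ := by
  rcases A₀.mem_or_inv_mem ζ with h' | h'
  · exact h'
  · rw [show ζ = ζ⁻¹ ^ (q - 1) by
      rw [inv_pow]
      refine eq_inv_of_mul_eq_one_left ?_
      rw [← pow_succ', Nat.sub_add_cancel (Nat.pos_of_ne_zero hq), h]]
    exact pow_mem h' _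

theorem residue_ne_one (hℓ : ℓ.Prime) (hA₀ : A₀.LiesOverPrime ℓ) {ζ : Qbar} {q : ℕ}
    (hq : q.Prime) (hqℓ : q ≠ ℓ) (hζ : IsPrimitiveRoot ζ q) (hmem : ζ ∈ A₀) :
    IsLocalRing.residue A₀ ⟨ζ, hmem⟩ ≠ 1 := by
  intro h
  have h0 : ∑ i ∈ Finset.range q, (⟨ζ, hmem⟩ : A₀) ^ i = 0 :=
    Subtype.ext (by simpa using hζ.geom_sum_eq_zero hq.one_lt)
  have h1 := congrArg (IsLocalRing.residue A₀) h0
  simp only [map_sum, map_pow, h, one_pow, Finset.sum_const, Finset.card_range, nsmul_eq_mul,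
    mul_one, map_zero] at h1
  exact natCast_residue_ne_zero hℓ hA₀ ((Nat.coprime_primes hq hℓ).mpr hqℓ) h1

theorem eq_of_residue_eq (hℓ : ℓ.Prime) (hA₀ : A₀.LiesOverPrime ℓ) {ζ ξ : Qbar} {q : ℕ}
    (hq : q.Prime) (hqℓ : q ≠ ℓ) (hζ : IsPrimitiveRoot ζ q) (hξ : IsPrimitiveRoot ξ q)
    (h : ζ - ξ ∈ A₀.nonunits) : ζ = ξ := by
  by_contra hne
  have : NeZero q := ⟨hq.ne_zero⟩
  obtain ⟨i, -, hi⟩ := hξ.eq_pow_of_pow_eq_one (hζ.pow_eq_one)
  have hξA := mem_of_pow_eq_one (A₀ := A₀) hq.ne_zero hξ.pow_eq_one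
  have hζA := mem_of_pow_eq_one (A₀ := A₀) hq.ne_zero hζ.pow_eq_one
  -- the quotient is a primitive root congruent to one
  set η : Qbar := ζ * ξ⁻¹ with hη
  have hξ0 : ξ ≠ 0 := hξ.ne_zero hq.ne_zero
  have hηq : η ^ q = 1 := by
    rw [hη, mul_pow, inv_pow, hζ.pow_eq_one, hξ.pow_eq_one, inv_one, one_mul]
  have hη1 : η ≠ 1 := fun e => hne ((mul_inv_eq_one₀ hξ0).mp e)
  have hηA := mem_of_pow_eq_one (A₀ := A₀) hq.ne_zero hηq
  have hprim : IsPrimitiveRoot η q :=
    IsPrimitiveRoot.iff_orderOf.mpr (haveI : Fact q.Prime := ⟨hq⟩; orderOf_eq_prime hηq hη1)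
  refine residue_ne_one hℓ hA₀ hq hqℓ hprim hηA ?_
  have hd : IsLocalRing.residue A₀ (⟨ζ, hζA⟩ - ⟨ξ, hξA⟩ : A₀) = 0 :=
    (IsLocalRing.residue_eq_zero_iff _).mpr
      ((ValuationSubring.coe_mem_nonunits_iff (a := (⟨ζ, hζA⟩ - ⟨ξ, hξA⟩ : A₀))).mp h)
  rw [map_sub, sub_eq_zero] at hd
  have hmul : (⟨η, hηA⟩ : A₀) * ⟨ξ, hξA⟩ = ⟨ζ, hζA⟩ :=
    Subtype.ext (inv_mul_cancel_right₀ hξ0 ζ)
  have h2 := congrArg (IsLocalRing.residue A₀) hmul
  rw [map_mul, hd] at h2
  refine mul_right_cancel₀ (fun e => ?_) (h2.trans (one_mul _).symm)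
  have hu := congrArg (IsLocalRing.residue A₀)
    (show (⟨ξ, hξA⟩ : A₀) ^ q = 1 from Subtype.ext (by simpa using hξ.pow_eq_one))
  rw [map_pow, e, map_one, zero_pow hq.ne_zero] at hu
  exact zero_ne_one hu

namespace SpecData

variable {F Fb : Type} [Field F] [Algebra Qbar F] [Field Fb]
  [Algebra (IsLocalRing.ResidueField A₀) Fb] (S : SpecData hℓ A₀ hA₀ F Fb)

theorem exists_degree_coprime (hℓ : ℓ.Prime) :
    ∃ t : ℕ, (2 * S.g + t).Coprime ℓ ∧ 0 < 2 * S.g + t := by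
  by_cases h : ℓ ∣ 2 * S.g + 1
  · refine ⟨2, (hℓ.coprime_iff_not_dvd.mpr fun h2 => ?_).symm, by omega⟩
    have h1 := Nat.dvd_sub h2 h
    rw [show 2 * S.g + 2 - (2 * S.g + 1) = 1 by omega] at h1
    exact hℓ.one_lt.ne' (Nat.dvd_one.mp h1)
  · exact ⟨1, (hℓ.coprime_iff_not_dvd.mpr h).symm, by omega⟩

theorem ne_base_of_red_ne {P : Place Qbar F} (h : S.r P ≠ S.Pb) : P ≠ S.P₀ :=
  fun e => h (e ▸ S.r_base)

/-- Values of basis functions away from the cusp. -/
theorem exists_value_C {P : Place Qbar F} (hP : S.r P ≠ S.Pb) (l : Fin S.g) :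
    ∃ a : A₀, HasValueAt P (S.BL.C l) (a : Qbar) ∧
      HasValueAt (S.r P) (S.Bk.C l) (IsLocalRing.residue A₀ a) := by
  obtain ⟨h, hred⟩ := S.C_ring l
  obtain ⟨a, ha, hb⟩ := ConstantReduction.IsReduction.exists_value S.R S.hF S.hr ⟨_, h⟩ P
    fun P' hP' => (mem_space_iff.mp (S.BL.C_mem l)).imp id fun hv => by
      have := hv P'
      rw [Finsupp.single_eq_of_ne (S.ne_base_of_red_ne (hP' ▸ hP))] at this
      simpa using this
  exact ⟨a, ha, hred ▸ hb⟩

theorem exists_value_E {P : Place Qbar F} (hP : S.r P ≠ S.Pb) (t : ℕ) :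
    ∃ a : A₀, HasValueAt P (S.BL.E t) (a : Qbar) ∧
      HasValueAt (S.r P) (S.Bk.E t) (IsLocalRing.residue A₀ a) := by
  obtain ⟨h, hred⟩ := S.E_ring t
  obtain ⟨a, ha, hb⟩ := ConstantReduction.IsReduction.exists_value S.R S.hF S.hr ⟨_, h⟩ P
    fun P' hP' => (mem_space_iff.mp (S.BL.E_mem t)).imp id fun hv => by
      have := hv P'
      rw [Finsupp.single_eq_of_ne (S.ne_base_of_red_ne (hP' ▸ hP))] at this
      simpa using this
  exact ⟨a, ha, hred ▸ hb⟩

theorem act_ord (σ : Γℚ) (P : Place Qbar F) (f : F) :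
    (S.act σ • P).ord (SemilinearAut.toRingAut (S.act σ) f) = P.ord f := by
  have := SemilinearAut.ord_smul (S.act σ) P f
  rwa [SemilinearAut.smul_def] at this

theorem act_hasValueAt (σ : Γℚ) {P : Place Qbar F} {f : F} {a : Qbar}
    (hf : SemilinearAut.toRingAut (S.act σ) f = f) (h : HasValueAt P f a) :
    HasValueAt (S.act σ • P) f (σ a) := by
  have e : SemilinearAut.toRingAut (S.act σ) (algebraMap Qbar F a) = algebraMap Qbar F (σ a) := by
    rw [SemilinearAut.commutes, S.act_base]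
  rcases h with h | h
  · left
    rw [← e, ← h, hf]
  · right
    rw [← e]
    conv_rhs => rw [← hf, ← map_sub]
    rwa [S.act_ord]

/-- Functions in the basis separate the reduced places away from the cusp. -/
theorem separates_red {Q Q' : Place k₀ Fb} (hQ : Q ≠ S.Pb) (hQ' : Q' ≠ S.Pb)
    (hC : ∀ l c, HasValueAt Q (S.Bk.C l) c → HasValueAt Q' (S.Bk.C l) c)
    (hE : ∀ t, t ≤ 1 → ∀ c, HasValueAt Q (S.Bk.E t) c → HasValueAt Q' (S.Bk.E t) c) :
    Q = Q' := by
  classical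
  by_contra hne
  set D : Divisor k₀ Fb := atBase S.Pb (2 * S.g + 1) - Finsupp.single Q 1 with hD
  obtain ⟨f, hfD, hf0, hford⟩ := S.hB.exists_ord_eq (D := D) (by
    rw [hD, map_sub, Divisor.degree_single, Divisor.degree_single, S.hB.deg_one, S.hB.deg_one]
    omega) Q'
  have hQ'0 : D Q' = 0 := by
    rw [hD, Finsupp.sub_apply, Finsupp.single_eq_of_ne hQ', Finsupp.single_eq_of_ne (Ne.symm hne),
      sub_zero]
  obtain ⟨c, hc⟩ := S.Bk.exists_coeff S.hB (M := 2) (f := f) (riemannRochSpace_mono (by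
    rw [hD]
    refine le_trans (sub_le_self _ (Finsupp.single_nonneg.mpr zero_le_one))
      (Finsupp.single_mono (by omega))) hfD)
  have hval : ∀ (R : Place k₀ Fb), R ≠ S.Pb → ∀ i, ∃ a, HasValueAt R (S.Bk.bas 2 i) a := by
    intro R hR i
    refine exists_hasValueAt (S.hB.deg_one R)
      ((mem_space_iff.mp (S.Bk.bas_mem 2 i)).imp id fun hv => ?_)
    have := hv R
    rw [Finsupp.single_eq_of_ne hR] at this
    simpa using this
  choose a ha using hval Q hQ
  have ha' : ∀ i, HasValueAt Q' (S.Bk.bas 2 i) (a i) := by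
    rintro (l | t)
    · exact hC l _ (ha (Sum.inl l))
    · exact hE t (Nat.le_of_lt_succ t.2) _ (ha (Sum.inr t))
  have hsum : ∀ (R : Place k₀ Fb), (∀ i, HasValueAt R (S.Bk.bas 2 i) (a i)) →
      f - algebraMap k₀ Fb (∑ i, c i * a i) = 0 ∨
        1 ≤ R.ord (f - algebraMap k₀ Fb (∑ i, c i * a i)) := by
    intro R hR
    have e : f - algebraMap k₀ Fb (∑ i, c i * a i) =
        ∑ i, algebraMap k₀ Fb (c i) * (S.Bk.bas 2 i - algebraMap k₀ Fb (a i)) := by
      rw [← hc, map_sum, ← Finset.sum_sub_distrib]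
      exact Finset.sum_congr rfl fun i _ => by rw [Algebra.smul_def, map_mul, mul_sub]
    rw [e]
    refine Finset.sum_induction _ (fun x => x = 0 ∨ 1 ≤ R.ord x)
      (fun x y hx hy => ord_add_ge R hx hy) (Or.inl rfl) fun i _ => ?_
    rcases eq_or_ne (c i) 0 with h0 | h0
    · exact Or.inl (by rw [h0, map_zero, zero_mul])
    rcases hR i with h | h
    · exact Or.inl (by rw [h, sub_self, mul_zero])
    · refine Or.inr ?_
      rw [R.ord_mul (by simpa using h0) (fun e => by simp [e] at h), ord_algebraMap]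
      omega
  have hfQ : 1 ≤ Q.ord f := by
    have := (mem_space_iff.mp hfD).resolve_left hf0 Q
    rw [hD, Finsupp.sub_apply, Finsupp.single_eq_of_ne hQ, Finsupp.single_eq_same] at this
    omega
  have hzero : ∑ i, c i * a i = 0 := by
    refine HasValueAt.unique (v := Q) (f := f) ?_ (Or.inr (by rw [map_zero, sub_zero]; omega))
    rcases hsum Q ha with h | h
    · exact Or.inl (sub_eq_zero.mp h)
    · exact Or.inr h
  rcases hsum Q' ha' with h | h <;> rw [hzero, map_zero, sub_zero] at h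
  · exact hf0 h
  · omega

/-- Fibres of a separating function over unramified values. -/
theorem eq_of_red_eq {t n : ℕ} (hn : n = 2 * S.g + t) {ξ : Qbar} (hξA : ξ ∈ A₀)
    (hsimple : ∀ Q : Place k₀ Fb, Q ≠ S.Pb →
      Q.ord (S.Bk.E t - algebraMap k₀ Fb (IsLocalRing.residue A₀ ⟨ξ, hξA⟩)) ≤ 1)
    (hn0 : 0 < n) {P P' : Place Qbar F}
    (hP : 0 < P.ord (S.BL.E t - algebraMap Qbar F ξ))
    (hP' : 0 < P'.ord (S.BL.E t - algebraMap Qbar F ξ)) :
    S.r P ≠ S.Pb ∧ (S.r P = S.r P' → P = P') := by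
  classical
  set f := S.BL.E t - algebraMap Qbar F ξ with hf
  have hf0 : f ≠ 0 := fun e => by simp [e] at hP
  obtain ⟨hEr, hEred⟩ := S.E_ring t
  set fr : S.R.ring := ⟨S.BL.E t, hEr⟩ - ⟨algebraMap Qbar F ξ, S.R.algebraMap_mem ⟨ξ, hξA⟩⟩
    with hfr
  have hred : S.R.red fr = S.Bk.E t - algebraMap k₀ Fb (IsLocalRing.residue A₀ ⟨ξ, hξA⟩) := by
    rw [hfr, map_sub, hEred]
    exact congrArg _ (S.R.red_algebraMap ⟨ξ, hξA⟩)
  have hred0 : S.R.red fr ≠ 0 := by
    rw [hred]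
    intro e
    have := S.Bk.E_ord t
    rw [sub_eq_zero.mp e, ord_algebraMap] at this
    omega
  obtain ⟨D, hD, -⟩ := S.hF.exists_div hf0
  have hmap : ∀ Q, Finsupp.mapDomain S.r D Q = Q.ord (S.R.red fr) := fun Q =>
    S.hr fr hred0 D (fun v => hD v) Q
  have hDle : ∀ v, v ≠ S.P₀ → 0 ≤ D v := by
    intro v hv
    rw [hD]
    have h1 : S.BL.E t = 0 ∨ 0 ≤ v.ord (S.BL.E t) := by
      refine (mem_space_iff.mp (S.BL.E_mem t)).imp id fun h => ?_
      have := h v
      rw [Finsupp.single_eq_of_ne hv] at this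
      simpa using this
    have h2 := ord_add_ge v h1
      (Or.inr (ord_algebraMap v (-ξ)).ge : algebraMap Qbar F (-ξ) = 0 ∨ _)
    rw [map_neg, ← sub_eq_add_neg] at h2
    exact h2.resolve_left hf0
  have hD0 : D S.P₀ = -(n : ℤ) := by
    rw [hD, hn, hf, sub_eq_add_neg, ← map_neg, Curve.ord_add_eq_left _ (S.BL.E_ne t)
      (Or.inr (by rw [S.BL.E_ord, ord_algebraMap]; omega)), S.BL.E_ord]
    omega
  set Dp := D + atBase S.P₀ n with hDp
  have hnn : 0 ≤ Dp := Finsupp.le_def.mpr fun v => by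
    rw [hDp, Finsupp.add_apply, Finsupp.coe_zero, Pi.zero_apply]
    rcases eq_or_ne v S.P₀ with rfl | hv
    · rw [hD0, Finsupp.single_eq_same]; omega
    · rw [Finsupp.single_eq_of_ne hv, add_zero]; exact hDle v hv
  have hmapp : ∀ Q, Finsupp.mapDomain S.r Dp Q = Q.ord (S.R.red fr) + atBase S.Pb n Q := by
    intro Q
    rw [hDp, Finsupp.mapDomain_add, Finsupp.add_apply, hmap, Finsupp.mapDomain_single, S.r_base]
  have hpos : ∀ R, 0 < R.ord f → 1 ≤ Dp R := by
    intro R hR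
    have hne : R ≠ S.P₀ := by
      rintro rfl
      rw [← hD, hD0] at hR
      omega
    rw [hDp, Finsupp.add_apply, Finsupp.single_eq_of_ne hne, add_zero, hD]
    omega
  have hb : Finsupp.mapDomain S.r Dp S.Pb = 0 := by
    rw [hmapp, Finsupp.single_eq_same, hred, sub_eq_add_neg, ← map_neg,
      Curve.ord_add_eq_left _ (S.Bk.E_ne t)
        (Or.inr (by rw [S.Bk.E_ord, ord_algebraMap]; omega)), S.Bk.E_ord, hn]
    push_cast
    omega
  have hne : S.r P ≠ S.Pb := by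
    intro e
    have := one_le_mapDomain_apply S.r Dp (a := P) (hpos P hP)
      (fun b _ => Finsupp.le_def.mp hnn b)
    rw [e, hb] at this
    omega
  refine ⟨hne, fun e => ?_⟩
  by_contra hPP
  have h2 : Finsupp.single P (1 : ℤ) + Finsupp.single P' 1 ≤ Dp := by
    refine Finsupp.le_def.mpr fun v => ?_
    rw [Finsupp.add_apply]
    rcases eq_or_ne v P with rfl | hv
    · rw [Finsupp.single_eq_same, Finsupp.single_eq_of_ne hPP, add_zero]; exact hpos _ hP
    rcases eq_or_ne v P' with rfl | hv'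
    · rw [Finsupp.single_eq_same, Finsupp.single_eq_of_ne hv, zero_add]; exact hpos _ hP'
    · rw [Finsupp.single_eq_of_ne hv, Finsupp.single_eq_of_ne hv', add_zero]
      exact Finsupp.le_def.mp hnn v
  have h3 := Finsupp.le_def.mp (mapDomain_mono S.r h2) (S.r P)
  rw [Finsupp.mapDomain_add, Finsupp.mapDomain_single, Finsupp.mapDomain_single, ← e,
    Finsupp.add_apply, Finsupp.single_eq_same, hmapp, Finsupp.single_eq_of_ne hne, hred] at h3
  have := hsimple _ hne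
  omega

/-- **Unramified points avoiding a finite set of reductions.** -/
theorem exists_point [IsAlgClosed k₀] [Curve.IsFunctionField k₀ Fb]
    (Φ : Set (Place k₀ Fb)) (hΦ : Φ.Finite) :
    ∃ (P : Place Qbar F) (N : Subgroup Γℚ), N.Normal ∧ N.FiniteIndex ∧
      (∀ σ : Γℚ, S.r (S.act σ • P) ∉ Φ) ∧ (∀ σ ∈ N, S.act σ • P = P) ∧
      ∀ σ, IsTrivialResidue ℓ A₀ N σ → σ ∈ N := by
  classical
  obtain ⟨t, hcop, hn0⟩ := S.exists_degree_coprime hℓ
  have hnk : ((2 * S.g + t : ℕ) : k₀) ≠ 0 := natCast_residue_ne_zero hℓ hA₀ hcop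
  have hone : IsOnePole (S.Bk.E t) S.Pb (2 * S.g + t) := by
    refine ⟨by rw [S.Bk.E_ord]; push_cast; rfl, fun v hv => ?_, hn0⟩
    have := (mem_space_iff.mp (S.Bk.E_mem t)).resolve_left (S.Bk.E_ne t) v
    rw [Finsupp.single_eq_of_ne hv] at this
    simpa using this
  have hmult := hone.finite_multiple S.hB.deg_one S.hB.principal hnk
  -- the forbidden values
  set bad : Set k₀ := {c | ∃ v ∈ Φ ∪ {v : Place k₀ Fb |
      ∃ c : k₀, 2 ≤ v.ord (S.Bk.E t - algebraMap k₀ Fb c)}, HasValueAt v (S.Bk.E t) c}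
  have hbad : bad.Finite := by
    refine ((hΦ.union hmult).biUnion (fun v _ => (Set.Subsingleton.finite
      (s := {c | HasValueAt v (S.Bk.E t) c}) fun _ h _ h' => h.unique h'))).subset ?_
    rintro c ⟨v, hv, hc⟩
    exact Set.mem_biUnion hv hc
  obtain ⟨q, hq⟩ := (Nat.infinite_setOfPred_prime.sdiff
    ((hbad.image orderOf).insert ℓ)).nonempty
  obtain ⟨hqp : q.Prime, hqnot⟩ := hq
  simp only [Set.mem_insert_iff, Set.mem_image, not_or, not_exists, not_and] at hqnot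
  obtain ⟨hqℓ, hqbad⟩ := hqnot
  have : Fact q.Prime := ⟨hqp⟩
  have : NeZero (q : Qbar) := ⟨by exact_mod_cast hqp.ne_zero⟩
  obtain ⟨ζ, hζ⟩ := HasEnoughRootsOfUnity.exists_primitiveRoot Qbar q
  have hconj : ∀ τ : Γℚ, IsPrimitiveRoot (τ ζ) q := fun τ => hζ.map_of_injective τ.injective
  have hmem : ∀ τ : Γℚ, τ ζ ∈ A₀ := fun τ =>
    mem_of_pow_eq_one hqp.ne_zero (hconj τ).pow_eq_one
  have hgood : ∀ τ : Γℚ, IsLocalRing.residue A₀ ⟨τ ζ, hmem τ⟩ ∉ bad := by
    intro τ h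
    refine hqbad _ h (orderOf_eq_prime ?_ (residue_ne_one hℓ hA₀ hqp hqℓ (hconj τ) (hmem τ)))
    rw [← map_pow, show (⟨τ ζ, hmem τ⟩ : A₀) ^ q = 1 from
      Subtype.ext (by simpa using (hconj τ).pow_eq_one), map_one]
  have hsimple : ∀ τ : Γℚ, ∀ Q : Place k₀ Fb, Q ≠ S.Pb →
      Q.ord (S.Bk.E t - algebraMap k₀ Fb (IsLocalRing.residue A₀ ⟨τ ζ, hmem τ⟩)) ≤ 1 := by
    intro τ Q _
    by_contra hlt
    refine hgood τ ⟨Q, Or.inr ?_, Or.inr (by omega)⟩
    exact ⟨IsLocalRing.residue A₀ ⟨τ ζ, hmem τ⟩, by omega⟩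
  -- a zero of `E t - ζ`
  set f := S.BL.E t - algebraMap Qbar F ζ with hf
  have hf0 : f ≠ 0 := by
    intro e
    have := S.BL.E_ord t
    rw [sub_eq_zero.mp e, ord_algebraMap] at this
    omega
  obtain ⟨P, hP⟩ : ∃ P : Place Qbar F, 0 < P.ord f := by
    obtain ⟨D, hD, hdeg⟩ := S.hF.exists_div hf0
    by_contra hno
    push Not at hno
    have hle : D ≤ atBase S.P₀ (-1) := Finsupp.le_def.mpr fun v => by
      rw [hD]
      rcases eq_or_ne v S.P₀ with rfl | hv
      · rw [Finsupp.single_eq_same, hf, sub_eq_add_neg, ← map_neg,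
          Curve.ord_add_eq_left _ (S.BL.E_ne t)
            (Or.inr (by rw [S.BL.E_ord, ord_algebraMap]; omega)), S.BL.E_ord]
        omega
      · rw [Finsupp.single_eq_of_ne hv]; exact hno v
    have := degree_mono hle
    rw [hdeg, Divisor.degree_single, S.hF.deg_one] at this
    omega
  have hzero : ∀ τ : Γℚ, 0 < (S.act τ • P).ord (S.BL.E t - algebraMap Qbar F (τ ζ)) := by
    intro τ
    have e : SemilinearAut.toRingAut (S.act τ) f = S.BL.E t - algebraMap Qbar F (τ ζ) := by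
      rw [hf, map_sub, S.act_E, SemilinearAut.commutes, S.act_base]
    rwa [← e, S.act_ord]
  have hne : ∀ τ : Γℚ, S.r (S.act τ • P) ≠ S.Pb := fun τ =>
    (S.eq_of_red_eq rfl (hmem τ) (hsimple τ) hn0 (hzero τ) (hzero τ)).1
  have hvalue : ∀ τ : Γℚ, HasValueAt (S.r (S.act τ • P)) (S.Bk.E t)
      (IsLocalRing.residue A₀ ⟨τ ζ, hmem τ⟩) := by
    intro τ
    obtain ⟨a, ha, hb⟩ := S.exists_value_E (hne τ) t
    have : (a : Qbar) = τ ζ := ha.unique (Or.inr (hzero τ))
    rwa [show (⟨τ ζ, hmem τ⟩ : A₀) = a from Subtype.ext this.symm]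
  have hP1 : S.r P ≠ S.Pb := by simpa using hne 1
  choose vC hvC hvC' using fun l => S.exists_value_C hP1 l
  choose vE hvE hvE' using fun s => S.exists_value_E hP1 s
  let w : Option (Fin S.g ⊕ Fin 2) → Qbar := fun o =>
    o.elim ζ (Sum.elim (fun l => (vC l : Qbar)) fun s => (vE s : Qbar))
  set H : Subgroup Γℚ := ⨅ o, MulAction.stabilizer Γℚ (w o) with hH
  have hHfin : H.FiniteIndex :=
    Subgroup.finiteIndex_iInf fun o => finiteIndex_stabilizer_galois (w o)
  -- residues of the values at conjugate points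
  have hconjC : ∀ (τ : Γℚ) l, ∃ h : τ (vC l : Qbar) ∈ A₀,
      HasValueAt (S.r (S.act τ • P)) (S.Bk.C l) (IsLocalRing.residue A₀ ⟨_, h⟩) := by
    intro τ l
    obtain ⟨a, ha, hb⟩ := S.exists_value_C (hne τ) l
    have e : (a : Qbar) = τ (vC l : Qbar) :=
      ha.unique (S.act_hasValueAt τ (S.act_C τ l) (hvC l))
    exact ⟨e ▸ a.2, by rwa [show (⟨τ (vC l : Qbar), e ▸ a.2⟩ : A₀) = a from Subtype.ext e.symm]⟩
  have hconjE : ∀ (τ : Γℚ) s, ∃ h : τ (vE s : Qbar) ∈ A₀,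
      HasValueAt (S.r (S.act τ • P)) (S.Bk.E s) (IsLocalRing.residue A₀ ⟨_, h⟩) := by
    intro τ s
    obtain ⟨a, ha, hb⟩ := S.exists_value_E (hne τ) s
    have e : (a : Qbar) = τ (vE s : Qbar) :=
      ha.unique (S.act_hasValueAt τ (S.act_E τ s) (hvE s))
    exact ⟨e ▸ a.2, by rwa [show (⟨τ (vE s : Qbar), e ▸ a.2⟩ : A₀) = a from Subtype.ext e.symm]⟩
  have hwA : ∀ o (τ : Γℚ), τ (w o) ∈ A₀ := by
    rintro (_ | l | s) τ
    · exact hmem τ
    · exact (hconjC τ l).1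
    · exact (hconjE τ s).1
  -- equality of conjugate points from congruences
  have key : ∀ σ τ : Γℚ, (∀ o, (σ * τ) (w o) - τ (w o) ∈ A₀.nonunits) →
      S.act (σ * τ) • P = S.act τ • P := by
    intro σ τ hcong
    have hres : ∀ o, IsLocalRing.residue A₀ ⟨_, hwA o (σ * τ)⟩ =
        IsLocalRing.residue A₀ ⟨_, hwA o τ⟩ := by
      intro o
      rw [← sub_eq_zero, ← map_sub, IsLocalRing.residue_eq_zero_iff]
      exact (ValuationSubring.coe_mem_nonunits_iff
        (a := (⟨_, hwA o (σ * τ)⟩ - ⟨_, hwA o τ⟩ : A₀))).mp (hcong o)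
    have hζeq : (σ * τ) ζ = τ ζ :=
      eq_of_residue_eq hℓ hA₀ hqp hqℓ (hconj _) (hconj _) (hcong none)
    refine (S.eq_of_red_eq rfl (hmem τ) (hsimple τ) hn0 ?_ (hzero τ)).2 ?_
    · have := hzero (σ * τ)
      rwa [hζeq] at this
    refine S.separates_red (hne _) (hne _) (fun l c hc => ?_) fun s hs c hc => ?_
    · rw [hc.unique (hconjC (σ * τ) l).2]
      have h := hres (some (Sum.inl l))
      simp only [w, Option.elim_some, Sum.elim_inl] at h
      rw [h]
      exact (hconjC τ l).2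
    · rw [hc.unique (hconjE (σ * τ) s).2]
      have h := hres (some (Sum.inr ⟨s, by omega⟩))
      simp only [w, Option.elim_some, Sum.elim_inr] at h
      rw [h]
      exact (hconjE τ s).2
  refine ⟨P, H.normalCore, Subgroup.normalCore_normal H, Subgroup.finiteIndex_normalCore H,
    fun σ => ?_, fun σ hσ => ?_, fun σ hσ => ?_⟩
  · intro hmemΦ
    exact hgood σ ⟨_, Or.inl hmemΦ, hvalue σ⟩
  · have h := key σ 1 fun o => by
      have h1 : σ (w o) = w o := (Subgroup.mem_iInf.mp (Subgroup.normalCore_le H hσ)) o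
      rw [mul_one, h1, AlgEquiv.one_apply, sub_self]
      exact (ValuationSubring.coe_mem_nonunits_iff (a := (0 : A₀))).mpr (zero_mem _)
    simpa using h
  · intro τ
    -- `τ σ τ⁻¹` fixes all the values
    rw [Subgroup.mem_iInf]
    intro o
    have hcong : ∀ o', (σ * τ⁻¹) (w o') - τ⁻¹ (w o') ∈ A₀.nonunits := by
      intro o'
      refine hσ (τ⁻¹ (w o'))
        (isIntegral_of_forall_smul_mem hℓ A₀ hA₀ fun g => hwA o' (g * τ⁻¹)) fun g hg => ?_
      have hg' : τ * g * τ⁻¹ ∈ H :=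
        Subgroup.normalCore_le H ((Subgroup.normalCore_normal H).conj_mem g hg τ)
      have h1 : (τ * g * τ⁻¹) (w o') = w o' := (Subgroup.mem_iInf.mp hg') o'
      show g (τ⁻¹ (w o')) = τ⁻¹ (w o')
      conv_rhs => rw [← h1]
      rw [← AlgEquiv.mul_apply, ← AlgEquiv.mul_apply, ← mul_assoc, ← mul_assoc, inv_mul_cancel,
        one_mul]
    have hPeq := key σ τ⁻¹ hcong
    show (τ * σ * τ⁻¹) (w o) = w o
    have hfix : (σ * τ⁻¹) (w o) = τ⁻¹ (w o) := by
      rcases o with _ | l | s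
      · exact eq_of_residue_eq hℓ hA₀ hqp hqℓ (hconj _) (hconj _) (hcong none)
      · have h1 := S.act_hasValueAt (σ * τ⁻¹) (S.act_C _ l) (hvC l)
        rw [hPeq] at h1
        exact h1.unique (S.act_hasValueAt τ⁻¹ (S.act_C _ l) (hvC l))
      · have h1 := S.act_hasValueAt (σ * τ⁻¹) (S.act_E _ s) (hvE s)
        rw [hPeq] at h1
        exact h1.unique (S.act_hasValueAt τ⁻¹ (S.act_E _ s) (hvE s))
    rw [mul_assoc, AlgEquiv.mul_apply, hfix, ← AlgEquiv.mul_apply, mul_inv_cancel,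
      AlgEquiv.one_apply]

end SpecData

end FermatLib.Igusa.TorsionModel
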