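import Fermat.Agent.Igusa.TorsionModel.Translation
import Fermat.Agent.Igusa.TorsionModel.UnramifiedPoint
import Fermat.Agent.Curve.RiemannRoch

/-!
# Existence of good translations
-/

set_option autoImplicit false
set_option linter.unusedSectionVars false

noncomputable section

open AlgebraicCurve ModularCurve

namespace FermatLib.Igusa.TorsionModel

section Generic

variable {K F : Type*} [Field K] [Field F] [Algebra K F] {g : ℕ}

theorem space_eq_bot_iff_of_equiv {D D' : Divisor K F}
    (h : D - D' ∈ Divisor.principal (K := K) (F := F)) :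
    riemannRochSpace D = ⊥ ↔ riemannRochSpace D' = ⊥ := by
  have key : ∀ {E E' : Divisor K F}, E - E' ∈ Divisor.principal (K := K) (F := F) →
      riemannRochSpace E = ⊥ → riemannRochSpace E' = ⊥ := by
    intro E E' h hE
    obtain ⟨f, hf, hdiv⟩ := h
    rw [Submodule.eq_bot_iff] at hE ⊢
    intro x hx
    have h2 : f⁻¹ * x ∈ riemannRochSpace E := by
      refine (mul_mem_iff_mem_add (inv_ne_zero hf) (Df := -(E - E')) fun v => ?_).mpr ?_
      · rw [Finsupp.neg_apply, hdiv, v.ord_inv]
      · rwa [show E + -(E - E') = E' by abel]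
    exact (mul_eq_zero.mp (hE _ h2)).resolve_left (inv_ne_zero hf)
  exact ⟨key h, key (by have := neg_mem h; rwa [neg_sub] at this)⟩

/-- Outside a finite set, subtracting a place lowers the dimension. -/
theorem exists_finite_drop (hF : RRField K F g) (X : Divisor K F) :
    ∃ s : Set (Place K F), s.Finite ∧ ∀ Q ∉ s,
      Module.finrank K (riemannRochSpace (X - Finsupp.single Q 1)) ≤
        Module.finrank K (riemannRochSpace X) - 1 := by
  have := hF.finite_space X
  rcases eq_or_ne (riemannRochSpace X) ⊥ with h | h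
  · refine ⟨∅, Set.finite_empty, fun Q _ => ?_⟩
    have h1 := Submodule.finrank_mono (riemannRochSpace_mono (K := K) (F := F)
      (sub_le_self X (Finsupp.single_nonneg.mpr (zero_le_one' ℤ)) :
        X - Finsupp.single Q 1 ≤ X))
    rw [h, finrank_bot] at h1 ⊢
    omega
  obtain ⟨f, hf, hf0⟩ := Submodule.exists_mem_ne_zero_of_ne_bot h
  obtain ⟨D, hD, -⟩ := hF.exists_div hf0
  refine ⟨↑(X + D).support, Finset.finite_toSet _, fun Q hQ => ?_⟩
  rw [Finset.mem_coe, Finsupp.notMem_support_iff, Finsupp.add_apply, hD] at hQ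
  have hlt : riemannRochSpace (X - Finsupp.single Q 1) < riemannRochSpace X := by
    refine lt_of_le_of_ne
      (riemannRochSpace_mono (sub_le_self X (Finsupp.single_nonneg.mpr zero_le_one))) fun e => ?_
    have h1 := (mem_space_iff.mp (e ▸ hf)).resolve_left hf0 Q
    rw [Finsupp.sub_apply, Finsupp.single_eq_same] at h1
    omega
  have := Submodule.finrank_lt_finrank_of_lt hlt
  omega

/-- Riemann-Roch duality in degree `g - 1`. -/
theorem exists_flip (hF : RRField K F g) [Curve.IsFunctionField K F] [IsAlgClosed K] :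
    ∃ W : Divisor K F, Divisor.degree W = 2 * (g : ℤ) - 2 ∧ ∀ D : Divisor K F,
      Divisor.degree D = (g : ℤ) - 1 → riemannRochSpace (W - D) = ⊥ → riemannRochSpace D = ⊥ := by
  obtain ⟨W, hW, -, hRR⟩ := Curve.exists_canonical_riemann_roch K F
  obtain ⟨N, hN⟩ := Curve.exists_finrank_riemannRochSpace_eq K F
  obtain ⟨Q⟩ := hF.nonempty_place
  have hg : genusFF K F = g := by
    set E : Divisor K F := Finsupp.single Q (max N (2 * (g : ℤ)))
    have hdeg : Divisor.degree E = max N (2 * (g : ℤ)) := by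
      rw [Divisor.degree_single, hF.deg_one, Nat.cast_one, mul_one]
    have h1 := hN E (by omega)
    have h2 := hF.finrank_space E (by omega)
    omega
  refine ⟨W, by rw [hW, hg], fun D hD h => ?_⟩
  have h1 := hRR D
  rw [h, finrank_bot, hD, hg] at h1
  have := hF.finite_space D
  exact Submodule.finrank_eq_zero.mp (by omega)

end Generic

local notation "Qbar" => AlgebraicClosure ℚ
local notation "Γℚ" => (AlgebraicClosure ℚ ≃ₐ[ℚ] AlgebraicClosure ℚ)

variable {ℓ : ℕ} {hℓ : ℓ.Prime} {A₀ : ValuationSubring (AlgebraicClosure ℚ)}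
  {hA₀ : A₀.LiesOverPrime ℓ}

set_option quotPrecheck false in
local notation "O" => ↥(GaloisRep.ratLocalizedAt ℓ)

set_option quotPrecheck false in
local notation "k₀" => IsLocalRing.ResidueField A₀

theorem IsTrivialResidue.mono {N N' : Subgroup Γℚ} (h : N ≤ N') {σ : Γℚ}
    (hσ : IsTrivialResidue ℓ A₀ N σ) : IsTrivialResidue ℓ A₀ N' σ :=
  fun x hx hfix => hσ x hx fun τ hτ => hfix τ (h hτ)

namespace SpecData

variable {F Fb : Type} [Field F] [Algebra Qbar F] [Field Fb]
  [Algebra (IsLocalRing.ResidueField A₀) Fb] {S : SpecData hℓ A₀ hA₀ F Fb}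
  {M : Type} [AddCommGroup M] [Finite M] [DistribMulAction Γℚ M]

/-- Successive choice of unramified points. -/
theorem exists_general_sum [IsAlgClosed k₀] [Curve.IsFunctionField k₀ Fb] {ι : Type} [Finite ι]
    (W : ι → Divisor k₀ Fb) (hW : ∀ i, Module.finrank k₀ (riemannRochSpace (W i)) ≤ S.g) (j : ℕ) :
    ∃ (C : Divisor Qbar F) (N : Subgroup Γℚ), Divisor.degree C = j ∧ N.Normal ∧ N.FiniteIndex ∧
      (∀ σ ∈ N, S.act σ • C = C) ∧ (∀ σ, IsTrivialResidue ℓ A₀ N σ → σ ∈ N) ∧
      ∀ (σ : Γℚ) (i : ι),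
        Module.finrank k₀ (riemannRochSpace (W i - S.red (S.act σ • C))) ≤ S.g - j := by
  classical
  induction j with
  | zero =>
    refine ⟨0, ⊤, by simp, inferInstance, inferInstance, fun σ _ => smul_zero _,
      fun σ _ => Subgroup.mem_top σ, fun σ i => ?_⟩
    rw [smul_zero, show S.red 0 = 0 from Finsupp.mapDomain_zero, sub_zero, Nat.sub_zero]
    exact hW i
  | succ j ih =>
    obtain ⟨C, N, hC, hNn, hNf, hfix, hunr, hdim⟩ := ih
    have := hNf
    have : Fintype (Γℚ ⧸ N) := Fintype.ofFinite _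
    choose s hs hdrop using fun p : ι × (Γℚ ⧸ N) =>
      exists_finite_drop S.hB (W p.1 - S.red (S.act p.2.out • C))
    obtain ⟨P, N', hN'n, hN'f, havoid, hfix', hunr'⟩ :=
      S.exists_point (⋃ p, s p) (Set.finite_iUnion hs)
    have := hN'n
    have := hN'f
    have := hNn
    refine ⟨C + Finsupp.single P 1, N ⊓ N', ?_, inferInstance, inferInstance, fun σ hσ => ?_,
      fun σ hσ => ⟨hunr σ (hσ.mono inf_le_left), hunr' σ (hσ.mono inf_le_right)⟩, fun σ i => ?_⟩
    · rw [map_add, hC, Divisor.degree_single, S.hF.deg_one]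
      push_cast
      ring
    · rw [smul_add, SemilinearAut.smul_single, hfix σ hσ.1, hfix' σ hσ.2]
    · have hrep : S.act σ • C = S.act (Quotient.out (σ : Γℚ ⧸ N)) • C := by
        have h : (Quotient.out (σ : Γℚ ⧸ N))⁻¹ * σ ∈ N :=
          QuotientGroup.eq.mp (Quotient.out_eq' _)
        conv_lhs => rw [show σ = Quotient.out (σ : Γℚ ⧸ N) *
          ((Quotient.out (σ : Γℚ ⧸ N))⁻¹ * σ) by group, map_mul, mul_smul, hfix _ h]
      have hQ : S.r (S.act σ • P) ∉ s (i, (σ : Γℚ ⧸ N)) := fun h =>
        havoid σ (Set.mem_iUnion.mpr ⟨_, h⟩)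
      have h1 := hdrop (i, (σ : Γℚ ⧸ N)) _ hQ
      have h2 := hdim σ i
      simp only at h1
      rw [← hrep] at h1
      rw [smul_add, SemilinearAut.smul_single, S.red_add,
        show S.red (Finsupp.single (S.act σ • P) 1) = Finsupp.single (S.r (S.act σ • P)) 1 from
          Finsupp.mapDomain_single, ← sub_sub]
      omega

/-- **Good translations exist.** -/
theorem exists_translation [IsAlgClosed k₀] [Curve.IsFunctionField k₀ Fb]
    (Φ : S.ClassFamily M) : Nonempty (Translation Φ) := by
  classical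
  obtain ⟨K₀, hK₀, hflip⟩ := exists_flip S.hB
  let Y : M → Divisor k₀ Fb := fun m => S.red (Translation.lift Φ m : Divisor Qbar F)
  have hY : ∀ m, Divisor.degree (Y m) = 0 := fun m => by
    rw [S.red_degree]; exact Divisor.mem_degZero.mp (Translation.lift Φ m).2
  let W : M × Bool → Divisor k₀ Fb := fun p =>
    if p.2 then atBase S.Pb (2 * S.g - 1) - Y p.1 else K₀ + atBase S.Pb 1 - Y p.1
  have hW : ∀ p, Module.finrank k₀ (riemannRochSpace (W p)) ≤ S.g := by
    rintro ⟨m, b⟩
    have hdeg : Divisor.degree (W (m, b)) = 2 * (S.g : ℤ) - 1 := by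
      cases b
      · show Divisor.degree (K₀ + atBase S.Pb 1 - Y m) = _
        rw [map_sub, map_add, Divisor.degree_single, S.hB.deg_one, hY, hK₀]
        omega
      · show Divisor.degree (atBase S.Pb (2 * S.g - 1) - Y m) = _
        rw [map_sub, Divisor.degree_single, S.hB.deg_one, hY]
        omega
    have := S.hB.finrank_space _ hdeg.ge
    rw [hdeg] at this
    omega
  obtain ⟨C, N, hC, hNn, hNf, hfix, hunr, hdim⟩ := exists_general_sum (S := S) W hW S.g
  refine ⟨⟨C, hC, N, hNn, hNf, hfix, hunr, fun σ X E ⟨m, hm⟩ hE hp => ?_⟩⟩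
  have hbot : ∀ p, riemannRochSpace (W p - S.red (S.act σ • C)) = ⊥ := fun p => by
    have := S.hB.finite_space (W p - S.red (S.act σ • C))
    exact Submodule.finrank_eq_zero.mp (by have := hdim σ p; omega)
  have hp' : E - ((Translation.lift Φ m : Divisor Qbar F) + S.act σ • C) ∈
      Divisor.principal (K := Qbar) (F := F) := by
    have h1 := QuotientAddGroup.eq_iff_sub_mem.mp (hm.symm.trans (Translation.mk_lift Φ m).symm)
    rw [AddSubgroup.mem_addSubgroupOf, AddSubgroupClass.coe_sub] at h1
    have h2 := add_mem hp h1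
    have e : E - ((X : Divisor Qbar F) + S.act σ • C) + ((X : Divisor Qbar F) -
        Translation.lift Φ m) = E - ((Translation.lift Φ m : Divisor Qbar F) + S.act σ • C) := by
      abel
    rwa [e] at h2
  obtain ⟨f, hf, hfd⟩ := S.red_principal hp'
  rw [S.red_sub, S.red_add] at hfd
  have hred : S.red E - (Y m + S.red (S.act σ • C)) ∈ Divisor.principal (K := k₀) (F := Fb) :=
    ⟨f, hf, hfd⟩
  have hdegE : Divisor.degree (S.red E) = S.g := by
    have h3 := S.hB.degree_div hf hfd
    rw [map_sub, map_add, hY, S.red_degree (S.act σ • C), SemilinearAut.degree_smul, hC] at h3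
    omega
  refine ⟨Finsupp.le_def.mpr fun v => ?_, hdegE, ?_, ?_⟩
  · have := Finsupp.le_def.mp (mapDomain_mono S.r hE) v
    rwa [Finsupp.mapDomain_zero] at this
  · refine (space_eq_bot_iff_of_equiv (D' := Y m + S.red (S.act σ • C) - atBase S.Pb 1) ?_).mpr
      (hflip _ ?_ ?_)
    · rwa [sub_sub_sub_cancel_right]
    · rw [map_sub, map_add, hY, S.red_degree (S.act σ • C), SemilinearAut.degree_smul, hC,
        Divisor.degree_single, S.hB.deg_one]
      omega
    · rw [show K₀ - (Y m + S.red (S.act σ • C) - atBase S.Pb 1) =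
        W (m, false) - S.red (S.act σ • C) by simp [W]; abel]
      exact hbot _
  · refine (space_eq_bot_iff_of_equiv
      (D' := atBase S.Pb (2 * S.g - 1) - (Y m + S.red (S.act σ • C))) ?_).mpr ?_
    · rw [sub_sub_sub_cancel_left, ← neg_sub]
      exact neg_mem hred
    · rw [show atBase S.Pb (2 * S.g - 1) - (Y m + S.red (S.act σ • C)) =
        W (m, true) - S.red (S.act σ • C) by simp [W]; abel]
      exact hbot _

end SpecData

end FermatLib.Igusa.TorsionModel
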