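import Fermat.Agent.Igusa.TorsionModel.Assembly
import Fermat.Agent.Igusa.TorsionModel.TranslationExists
import Fermat.Agent.Igusa.ReductionInputs
import Fermat.Agent.Modular.Kummer.KummerBar
import Fermat.Agent.Mazur.DescentDatum
import Fermat.Agent.Mazur.FlatModelFunctions
import Fermat.Prelude.Def_GaloisRep_Flat

/-!
# The finite flat model of the torsion of `J₀(N)`, given the spectral data of `X₀(N)`
-/

set_option autoImplicit false
set_option linter.unusedSectionVars false
set_option linter.style.haveILetI false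
set_option synthInstance.maxHeartbeats 400000

noncomputable section

open AlgebraicCurve ModularCurve
open scoped TensorProduct

namespace FermatLib.Igusa.TorsionModel

local notation "Qbar" => AlgebraicClosure ℚ
local notation "Γℚ" => (AlgebraicClosure ℚ ≃ₐ[ℚ] AlgebraicClosure ℚ)

variable {ℓ : ℕ}

set_option quotPrecheck false in
local notation "O" => ↥(GaloisRep.ratLocalizedAt ℓ)

section Torsion

variable (N : ℕ) [NeZero N] (n : ℕ) [NeZero n]

/-- The `n`-torsion of `J₀(N)` is finite. -/
theorem finite_torsionPts_jZero : Finite (Mazur.torsionPts (JZero N) n) := by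
  have := Modular.Kummer.finite_torsion_JZero N n
  refine Finite.of_injective
    (fun x => (⟨(x : JZero N), Pic0.mem_torsion.mpr ?_⟩ :
      Pic0.torsion Qbar (modularFunctionFieldBar N) n)) fun x y h => ?_
  · rw [natCast_zsmul]
    exact x.2
  · have h' := congrArg Subtype.val h
    exact Subtype.ext h'

end Torsion

variable {N : ℕ} {hℓ : ℓ.Prime} {A₀ : ValuationSubring (AlgebraicClosure ℚ)}
  {hA₀ : A₀.LiesOverPrime ℓ}

/-- The torsion as an equivariant family of divisor classes. -/
def torsionFamily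
    (S : SpecData hℓ A₀ hA₀ (modularFunctionFieldBar N)
      (modularFunctionFieldFullC (IsLocalRing.ResidueField A₀) N))
    (hact : ∀ σ : Γℚ, S.act σ = arithmeticGalois (modularFunctionFieldFull N) σ) (n : ℕ) :
    S.ClassFamily (Mazur.torsionPts (JZero N) n) where
  map := (Mazur.torsionPts (JZero N) n).subtype
  injective := Subtype.val_injective
  map_smul σ m := by
    rw [hact]
    rfl

variable [NeZero N]

/-- **The model of the torsion by functions, linked to the reduction.** -/
theorem exists_model_jZero (hℓN : ¬ ℓ ∣ N)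
    (S : SpecData hℓ A₀ hA₀ (modularFunctionFieldBar N)
      (modularFunctionFieldFullC (IsLocalRing.ResidueField A₀) N))
    (hact : ∀ σ : Γℚ, S.act σ = arithmeticGalois (modularFunctionFieldFull N) σ)
    (n : ℕ) [NeZero n] :
    ∃ H : Subalgebra O (Mazur.torsionPts (JZero N) n → Qbar), Module.Finite O H ∧
      (∀ (f : H) (g : Γℚ) (z : Mazur.torsionPts (JZero N) n),
        (f : Mazur.torsionPts (JZero N) n → Qbar) (g • z) =
          g • (f : Mazur.torsionPts (JZero N) n → Qbar) z) ∧
      Submodule.span Qbar (H : Set (Mazur.torsionPts (JZero N) n → Qbar)) = ⊤ ∧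
      (∀ f : H, ∃ x : H ⊗[O] H, ∀ q,
        eval₂ H x q = (f : Mazur.torsionPts (JZero N) n → Qbar) (q.1 + q.2)) ∧
      ∀ h : ReductionInputsModL A₀ N, S.r = placeReductionModL h →
        ∀ z : Mazur.torsionPts (JZero N) n, reductionModL A₀ N (z : JZero N) = 0 →
          ∀ f ∈ H, f z - f 0 ∈ A₀.nonunits := by
  haveI : Fact ℓ.Prime := ⟨hℓ⟩
  haveI := finite_torsionPts_jZero N n
  haveI := isAlgClosed_residueField A₀
  haveI := isFunctionField_fullC (degreeInput_modL N hℓN A₀ hA₀)
  obtain ⟨T⟩ := SpecData.exists_translation (torsionFamily S hact n)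
  obtain ⟨H, hfin, heq, hspan, hcomul, hred⟩ := T.exists_model
  refine ⟨H, hfin, heq, hspan, hcomul, fun h hr z hz => ?_⟩
  obtain ⟨X, hX⟩ := Pic0.mk_surjective (z : JZero N)
  refine hred z X hX ?_
  have h0 : reductionModL A₀ N (Pic0.mk X) = 0 := by rw [hX]; exact hz
  rw [reductionModL_mk h] at h0
  have h1 := (QuotientAddGroup.eq_zero_iff _).mp h0
  rw [AddSubgroup.mem_addSubgroupOf] at h1
  show Finsupp.mapDomain S.r (X : Divisor Qbar (modularFunctionFieldBar N)) ∈ _
  rw [hr]
  exact h1

/-- **The integral model of the torsion in the sense of `IsFlatModel`.** -/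
theorem exists_isFlatModel_jZero (hℓN : ¬ ℓ ∣ N) (h : ReductionInputsModL A₀ N)
    (S : SpecData hℓ A₀ hA₀ (modularFunctionFieldBar N)
      (modularFunctionFieldFullC (IsLocalRing.ResidueField A₀) N))
    (hact : ∀ σ : Γℚ, S.act σ = arithmeticGalois (modularFunctionFieldFull N) σ)
    (hr : S.r = placeReductionModL h) (n : ℕ) [NeZero n] :
    ∃ H : Subring (Mazur.torsionPts (JZero N) n → Qbar), Mazur.IsFlatModel A₀ H ∧
      ∀ z : Mazur.torsionPts (JZero N) n, reductionModL A₀ N (z : JZero N) = 0 →
        Mazur.IsConnectedPoint A₀ H z := by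
  haveI := finite_torsionPts_jZero N n
  obtain ⟨H, hfin, heq, hspan, hcomul, hred⟩ := exists_model_jZero hℓN S hact n
  exact ⟨H.toSubring,
    Mazur.isFlatModel_of_functions hℓ hA₀ H hfin (fun f hf g z => heq ⟨f, hf⟩ g z) hspan hcomul,
    hred h hr⟩

/-- **The finite flat Hopf algebra model of the torsion.** -/
theorem exists_hopfModel_jZero (hℓN : ¬ ℓ ∣ N)
    (S : SpecData hℓ A₀ hA₀ (modularFunctionFieldBar N)
      (modularFunctionFieldFullC (IsLocalRing.ResidueField A₀) N))
    (hact : ∀ σ : Γℚ, S.act σ = arithmeticGalois (modularFunctionFieldFull N) σ)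
    (n : ℕ) [NeZero n] :
    ∃ (H : Type) (_ : CommRing H) (_ : HopfAlgebra O H),
      Module.Finite O H ∧ Module.Flat O H ∧ Coalgebra.IsCocomm O H ∧
      ∃ e : WithConv (H →ₐ[O] Qbar) ≃ ↥(Submodule.torsionBy ℤ (JZero N) (n : ℤ)),
        (∀ f g, e (f * g) = e f + e g) ∧
        ∀ (σ : Γℚ) (f g : WithConv (H →ₐ[O] Qbar)),
          (∀ h : H, g h = σ (f h)) → ((e g : JZero N)) = σ • (e f : JZero N) := by
  haveI := finite_torsionPts_jZero N n
  haveI := faithfulSMul_localBase ℓ
  obtain ⟨H, hfin, heq, hspan, hcomul, -⟩ := exists_model_jZero hℓN S hact n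
  obtain ⟨A, iA, iH, hA1, hA2, hA3, e, headd, heσ⟩ :=
    exists_hopfModel_of_functions isFixedBase_galois H hfin (fun g => smul_zero g) heq hspan
      hcomul
  let c : Mazur.torsionPts (JZero N) n ≃ ↥(Submodule.torsionBy ℤ (JZero N) (n : ℤ)) :=
    Equiv.subtypeEquivRight fun x => by
      rw [Submodule.mem_torsionBy_iff, natCast_zsmul]
      exact Iff.rfl
  refine ⟨A, iA, iH, hA1, hA2, hA3, e.trans c, fun f g => Subtype.ext ?_, fun σ f g hfg => ?_⟩
  · show ((e (f * g) : Mazur.torsionPts (JZero N) n) : JZero N) = _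
    rw [headd]
    rfl
  · show ((e g : Mazur.torsionPts (JZero N) n) : JZero N) = σ • ((e f : Mazur.torsionPts (JZero N) n) : JZero N)
    rw [heσ σ f g hfg]
    rfl

end FermatLib.Igusa.TorsionModel
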