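import Fermat.Agent.Igusa.TorsionModel.X0Series

/-!
# The specialisation data of `X₀(N)` at a prime not dividing the level
-/

set_option autoImplicit false
set_option synthInstance.maxHeartbeats 400000

noncomputable section

open AlgebraicCurve ModularCurve HahnSeries

namespace FermatLib.Igusa.TorsionModel

local notation "Qbar" => AlgebraicClosure ℚ
local notation "Γℚ" => (AlgebraicClosure ℚ ≃ₐ[ℚ] AlgebraicClosure ℚ)

variable {ℓ : ℕ} {N : ℕ} [NeZero N] {A₀ : ValuationSubring (AlgebraicClosure ℚ)}
  {hℓ : ℓ.Prime} {hA₀ : A₀.LiesOverPrime ℓ}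

set_option quotPrecheck false in
local notation "O" => ↥(GaloisRep.ratLocalizedAt ℓ)
set_option quotPrecheck false in
local notation "k₀" => IsLocalRing.ResidueField A₀
set_option quotPrecheck false in
local notation "FN" => ↥(modularFunctionFieldBar N)
set_option quotPrecheck false in
local notation "FbN" => ↥(modularFunctionFieldFullC (IsLocalRing.ResidueField A₀) N)

/-- Shortcut instance. -/
local instance (priority := high) x0AlgebraBar : Algebra Qbar FN := inferInstance

/-- Shortcut instance. -/
local instance (priority := high) x0ModuleBar : Module Qbar FN := inferInstance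

/-- Shortcut instance. -/
local instance (priority := high) x0AlgebraRed : Algebra k₀ FbN := inferInstance

/-- Shortcut instance. -/
local instance (priority := high) x0ModuleRed : Module k₀ FbN := inferInstance

omit [NeZero N] in
theorem coe_smul_series_red (c : k₀) (f : FbN) :
    ((c • f : FbN) : LaurentSeries k₀) = c • (f : LaurentSeries k₀) := by
  rw [Algebra.smul_def, IntermediateField.coe_mul, laurent_smul_eq,
    ← algebraMap_laurentSeries_eq_single]
  rfl

variable (N A₀) in
/-- The expansion of reduced functions as a linear map. -/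
def seriesMapRed : FbN →ₗ[k₀] LaurentSeries k₀ where
  toFun f := (f : LaurentSeries k₀)
  map_add' _ _ := rfl
  map_smul' c f := coe_smul_series_red c f

namespace IsIntegralIn

variable {n : ℤ} {z : LaurentSeries ↥(GaloisRep.ratLocalizedAt ℓ)}
  (h : IsIntegralIn N A₀ hℓ hA₀ n z)

/-- The integral series. -/
def int : integralSeries A₀ (IsLocalRing.residue A₀) N :=
  ⟨coeffMap (baseInA A₀ hℓ hA₀) z, h.integral⟩

/-- The function. -/
def gen : FN := genericFun A₀ (IsLocalRing.residue A₀) N h.int

/-- The reduced function. -/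
def spec : FbN := specialFun A₀ (IsLocalRing.residue A₀) N h.int

omit [NeZero N] in
theorem coe_gen : (h.gen : LaurentSeries Qbar) = coeffMap (algebraMap O Qbar) z := by
  rw [gen, coe_genericFun]
  exact latVal_baseInA (A₀ := A₀) (hA₀ := hA₀) hℓ z

omit [NeZero N] in
theorem coe_spec : (h.spec : LaurentSeries k₀) = coeffMap (baseRes hℓ A₀ hA₀) z := by
  rw [spec, coe_specialFun]
  exact latRed_baseInA (A₀ := A₀) (hA₀ := hA₀) hℓ z

omit [NeZero N] in
theorem gen_mem : h.gen ∈ riemannRochSpace (atBase (cuspInf Qbar N) n) := by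
  obtain ⟨f, hf, he⟩ := (mem_seriesSpace N).mp h.mem
  rwa [show h.gen = f from Subtype.ext (h.coe_gen.trans he.symm)]

end IsIntegralIn

section Data

variable {g M : ℕ} (hd : DegreeInput A₀ (IsLocalRing.residue A₀) N M)

/-- The Gauss reduction at `A₀`. -/
def x0Reduction : ConstantReduction A₀ (IsLocalRing.residue A₀) FN FbN :=
  gaussReduction (residue_eq_zero_of_not_isUnit A₀) (isUnit_of_residue_ne_zero A₀)
    IsLocalRing.residue_surjective hd

omit [NeZero N] in
theorem IsIntegralIn.exists_red {n : ℤ} {z : LaurentSeries O}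
    (h : IsIntegralIn N A₀ hℓ hA₀ n z) :
    ∃ hm : h.gen ∈ (x0Reduction hd).ring, (x0Reduction hd).red ⟨h.gen, hm⟩ = h.spec :=
  ⟨genericFun_mem_gaussRing A₀ _ N h.int, gaussRed_genericFun A₀ _ N h.int⟩

include hd in
omit [NeZero N] in
theorem linearIndependent_gen {ι : Type} {n : ℤ} {z : ι → LaurentSeries O}
    (h : ∀ l, IsIntegralIn N A₀ hℓ hA₀ n (z l))
    (hk : LinearIndependent k₀ fun l => (h l).spec) :
    LinearIndependent Qbar fun l => (h l).gen := by
  choose hm hred using fun l => (h l).exists_red hd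
  refine ConstantReduction.linearIndependent_of_red (x0Reduction hd)
    (v := fun l => (⟨(h l).gen, hm l⟩ : (x0Reduction hd).ring)) ?_
  have e : (fun l => (x0Reduction hd).red ⟨(h l).gen, hm l⟩) = fun l => (h l).spec := funext hred
  rw [e]
  exact hk

variable (hF : RRField (AlgebraicClosure ℚ) (modularFunctionFieldBar N) g)
  {r : Place (AlgebraicClosure ℚ) (modularFunctionFieldBar N) →
    Place (IsLocalRing.ResidueField A₀)
      (modularFunctionFieldFullC (IsLocalRing.ResidueField A₀) N)}
  (hr : (x0Reduction hd).IsReduction r)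
  (hr0 : r (cuspInf (AlgebraicClosure ℚ) N) = cuspInfRed (IsLocalRing.ResidueField A₀) N)

include hF hr hr0 in
omit [NeZero N] in
theorem IsIntegralIn.spec_mem {n : ℤ} {z : LaurentSeries O}
    (h : IsIntegralIn N A₀ hℓ hA₀ n z) :
    h.spec ∈ riemannRochSpace (atBase (cuspInfRed k₀ N) n) := by
  obtain ⟨hm, hred⟩ := h.exists_red hd
  have h1 := ConstantReduction.IsReduction.redSpace_le (x0Reduction hd) hF hr
    (atBase (cuspInf Qbar N) n)
    ((x0Reduction hd).red_mem_redSpace (f := ⟨h.gen, hm⟩) h.gen_mem)
  rw [Finsupp.mapDomain_single, hr0, hred] at h1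
  exact h1

variable [Fact ℓ.Prime] (hℓN : ¬ ℓ ∣ N) (hB : RRField (IsLocalRing.ResidueField A₀)
  (modularFunctionFieldFullC (IsLocalRing.ResidueField A₀) N) g)

include hF hr hr0 hℓN hB in
/-- A function of exact pole order `2g + t` with unit leading coefficient. -/
theorem exists_exact (t : ℕ) :
    ∃ z : LaurentSeries O, IsIntegralIn N A₀ hℓ hA₀ (2 * g + t) z ∧
      baseRes hℓ A₀ hA₀ (z.coeff (-(2 * (g : ℤ) + t))) ≠ 0 := by
  obtain ⟨z, hz, hind⟩ := exists_integralIn_basis N A₀ hF (2 * g + t) (by omega) (g + t + 1)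
    (by push_cast; ring) hℓ hℓN hA₀
  by_contra hcon
  push Not at hcon
  have hmem : ∀ i, (hz i).spec ∈ riemannRochSpace (atBase (cuspInfRed k₀ N) (2 * g + t - 1)) := by
    intro i
    have hne : (hz i).spec ≠ 0 := fun h0 => hind.ne_zero i (by rw [← (hz i).coe_spec, h0]; rfl)
    refine mem_space_iff.mpr (Or.inr fun v => ?_)
    have h1 := (mem_space_iff.mp ((hz i).spec_mem hd hF hr hr0)).resolve_left hne v
    rcases eq_or_ne v (cuspInfRed k₀ N) with rfl | hv
    · rw [Finsupp.single_eq_same] at h1 ⊢
      rw [isOrderPlace_cuspInfRed] at h1 ⊢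
      have hs : ((hz i).spec : LaurentSeries k₀) ≠ 0 := fun h0 => hne (Subtype.ext h0)
      have h2 := HahnSeries.coeff_order_eq_zero.not.mpr hs
      have h3 : (((hz i).spec : FbN) : LaurentSeries k₀).order ≠ -(2 * (g : ℤ) + t) := fun he =>
        h2 (by rw [he, (hz i).coe_spec, coeffMap_coeff]; exact hcon _ (hz i))
      omega
    · rw [Finsupp.single_eq_of_ne hv] at h1 ⊢
      exact h1
  have := hB.finite_space (atBase (cuspInfRed k₀ N) (2 * g + t - 1))
  let w : Fin (g + t + 1) → riemannRochSpace (atBase (cuspInfRed k₀ N) (2 * g + t - 1)) :=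
    fun i => ⟨(hz i).spec, hmem i⟩
  have hw : LinearIndependent k₀ w := by
    refine LinearIndependent.of_comp ((seriesMapRed N A₀).comp (Submodule.subtype _)) ?_
    have e : ((seriesMapRed N A₀).comp (Submodule.subtype _)) ∘ w =
        fun i => coeffMap (baseRes hℓ A₀ hA₀) (z i) := funext fun i => (hz i).coe_spec
    rw [e]
    exact hind
  have hcard := hw.fintype_card_le_finrank
  have hdim := hB.finrank_space (atBase (cuspInfRed k₀ N) (2 * g + t - 1))
    (by rw [Divisor.degree_single, hB.deg_one]; omega)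
  rw [Divisor.degree_single, hB.deg_one] at hdim
  rw [Fintype.card_fin] at hcard
  omega

end Data

/-- **Specialisation data for `X₀(N)`** at a place over `ℓ ∤ N`. -/
theorem exists_x0SpecData [Fact ℓ.Prime] (hℓ : ℓ.Prime) (hA₀ : A₀.LiesOverPrime ℓ)
    (hℓN : ¬ ℓ ∣ N) (h : ReductionInputsModL A₀ N) :
    ∃ S : SpecData hℓ A₀ hA₀ FN FbN,
      S.act = arithmeticGalois (modularFunctionFieldFull N) ∧ S.r = placeReductionModL h := by
  have := infinite_residueField A₀
  obtain ⟨g, hF, hB⟩ := exists_rrField_modL N hℓN A₀ hA₀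
  have hd := degreeInput_modL N hℓN A₀ hA₀
  have hr : (x0Reduction hd).IsReduction (placeReductionModL h) :=
    (isPlaceReductionAlong_iff (residue_eq_zero_of_not_isUnit A₀) (isUnit_of_residue_ne_zero A₀)
      IsLocalRing.residue_surjective hd hF hB).mp (isPlaceReductionModL_placeReductionModL h)
  have hr0 : placeReductionModL h (cuspInf Qbar N) = cuspInfRed k₀ N :=
    map_cuspInf (residue_eq_zero_of_not_isUnit A₀) (isUnit_of_residue_ne_zero A₀)
      IsLocalRing.residue_surjective hd (fun d _ _ => nonempty_modularPolynomialData d) hF hB hr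
  obtain ⟨zC, hC, hCind⟩ := exists_integralIn_basis N A₀ hF (2 * g - 1) le_rfl g (by ring)
    hℓ hℓN hA₀
  choose zE hE hEu using exists_exact (hℓ := hℓ) (hA₀ := hA₀) hd hF hr hr0 hℓN hB
  have hCk : LinearIndependent k₀ fun l => (hC l).spec := by
    refine LinearIndependent.of_comp (seriesMapRed N A₀) ?_
    have e : seriesMapRed N A₀ ∘ (fun l => (hC l).spec) =
        fun i => coeffMap (baseRes hℓ A₀ hA₀) (zC i) := funext fun i => (hC i).coe_spec
    rw [e]
    exact hCind
  have hCL : LinearIndependent Qbar fun l => (hC l).gen :=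
    linearIndependent_gen hd (fun l => hC l) hCk
  have hElow : ∀ t, (coeffMap (algebraMap O Qbar) (zE t)).coeff (-(2 * (g : ℤ) + t)) ≠ 0 := by
    intro t h0
    rw [coeffMap_coeff, algebraMap_localBase] at h0
    refine hEu t ?_
    rw [show (zE t).coeff (-(2 * (g : ℤ) + t)) = 0 from
      Subtype.ext ((algebraMap ℚ Qbar).injective (by simpa using h0)), map_zero]
  have hEord : ∀ t, (cuspInf Qbar N).ord (hE t).gen = -(2 * (g : ℤ) + t) := by
    intro t
    have hne : (hE t).gen ≠ 0 := fun h0 => hElow t (by rw [← (hE t).coe_gen, h0]; rfl)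
    have h1 := (mem_space_iff.mp (hE t).gen_mem).resolve_left hne (cuspInf Qbar N)
    rw [Finsupp.single_eq_same] at h1
    rw [isOrderPlace_cuspInf] at h1 ⊢
    have h2 : (((hE t).gen : FN) : LaurentSeries Qbar).order ≤ -(2 * (g : ℤ) + t) :=
      HahnSeries.order_le_of_coeff_ne_zero (by rw [(hE t).coe_gen]; exact hElow t)
    omega
  have hEordk : ∀ t, (cuspInfRed k₀ N).ord (hE t).spec = -(2 * (g : ℤ) + t) := by
    intro t
    have hlow : (((hE t).spec : FbN) : LaurentSeries k₀).coeff (-(2 * (g : ℤ) + t)) ≠ 0 := by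
      rw [(hE t).coe_spec, coeffMap_coeff]; exact hEu t
    have hne : (hE t).spec ≠ 0 := fun h0 => hlow (by rw [h0]; rfl)
    have h1 := (mem_space_iff.mp ((hE t).spec_mem hd hF hr hr0)).resolve_left hne
      (cuspInfRed k₀ N)
    rw [Finsupp.single_eq_same] at h1
    rw [isOrderPlace_cuspInfRed] at h1 ⊢
    have h2 := HahnSeries.order_le_of_coeff_ne_zero hlow
    omega
  refine ⟨{
    g := g
    P₀ := cuspInf Qbar N
    Pb := cuspInfRed k₀ N
    BL :=
      { C := fun l => (hC l).gen
        E := fun t => (hE t).gen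
        C_mem := fun l => (hC l).gen_mem
        C_indep := hCL
        E_mem := fun t => (hE t).gen_mem
        E_ne := fun t h0 => hElow t (by rw [← (hE t).coe_gen, h0]; rfl)
        E_ord := hEord }
    Bk :=
      { C := fun l => (hC l).spec
        E := fun t => (hE t).spec
        C_mem := fun l => (hC l).spec_mem hd hF hr hr0
        C_indep := hCk
        E_mem := fun t => (hE t).spec_mem hd hF hr hr0
        E_ne := fun t h0 => hEu t (by rw [← coeffMap_coeff, ← (hE t).coe_spec, h0]; rfl)
        E_ord := hEordk }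
    Z := ⟨zC, zE⟩
    ι := (modularFunctionFieldBar N).val.toRingHom
    ιb := (modularFunctionFieldFullC k₀ N).val.toRingHom
    repL := ⟨fun c f => coe_smul_series N c f, fun l => (hC l).coe_gen, fun t => (hE t).coe_gen⟩
    repk := ⟨coe_smul_series_red, fun l => (hC l).coe_spec, fun t => (hE t).coe_spec⟩
    hF := hF
    hB := hB
    R := x0Reduction hd
    r := placeReductionModL h
    hr := hr
    r_base := hr0
    C_ring := fun l => (hC l).exists_red hd
    E_ring := fun t => (hE t).exists_red hd
    act := arithmeticGalois (modularFunctionFieldFull N)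
    act_base := fun σ a => rfl
    act_P₀ := act_smul_cuspInf N
    act_series := fun σ f => rfl }, rfl, rfl⟩

end FermatLib.Igusa.TorsionModel
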