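import Fermat.Agent.Igusa.TorsionModel.SpecData

/-!
# The integral group law

If the coordinates of three families of divisors lie in a finite ring `B` of functions, so do the
coordinates of the fourth one.
-/

set_option autoImplicit false
set_option linter.unusedSectionVars false

noncomputable section

open AlgebraicCurve ModularCurve

namespace FermatLib.Igusa.TorsionModel

namespace SeriesBasis

variable {O R : Type*} [CommRing O] [CommRing R] {g : ℕ} (Z : SeriesBasis O g)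

theorem row₁_congr (j : O →+* R) {c₁ c₂ cc c₁' c₂' cc' : ℕ → Fin g → R}
    (h₁ : ∀ t, t ≤ g → c₁ t = c₁' t) (h₂ : ∀ t, t ≤ g → c₂ t = c₂' t)
    (hc : ∀ t, t ≤ 5 * g → cc t = cc' t) (st : Fin (g + 1) × Fin (g + 1)) (u : Unknown₁ g) :
    Z.row₁ j c₁ c₂ cc st u = Z.row₁ j c₁' c₂' cc' st u := by
  rcases u with i | p
  · simp only [row₁, Sum.elim_inl, h₁ _ (Nat.le_of_lt_succ st.1.2),
      h₂ _ (Nat.le_of_lt_succ st.2.2)]
  · simp only [row₁, Sum.elim_inr, phi, h₁ _ le_rfl, h₂ _ le_rfl,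
      hc _ (Nat.le_of_lt_succ p.2.2)]

theorem rhs₁_congr (j : O →+* R) {c₁ c₂ c₁' c₂' : ℕ → Fin g → R}
    (h₁ : ∀ t, t ≤ g → c₁ t = c₁' t) (h₂ : ∀ t, t ≤ g → c₂ t = c₂' t) (k : ℕ)
    (st : Fin (g + 1) × Fin (g + 1)) :
    Z.rhs₁ j c₁ c₂ k st = Z.rhs₁ j c₁' c₂' k st := by
  simp only [rhs₁, h₁ _ (Nat.le_of_lt_succ st.1.2), h₂ _ (Nat.le_of_lt_succ st.2.2)]

end SeriesBasis

local notation "Qbar" => AlgebraicClosure ℚ
local notation "Γℚ" => (AlgebraicClosure ℚ ≃ₐ[ℚ] AlgebraicClosure ℚ)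

variable {ℓ : ℕ} {hℓ : ℓ.Prime} {A₀ : ValuationSubring (AlgebraicClosure ℚ)}
  {hA₀ : A₀.LiesOverPrime ℓ}

set_option quotPrecheck false in
local notation "O" => ↥(GaloisRep.ratLocalizedAt ℓ)

namespace SpecData

variable {F Fb : Type} [Field F] [Algebra Qbar F] [Field Fb]
  [Algebra (IsLocalRing.ResidueField A₀) Fb] (S : SpecData hℓ A₀ hA₀ F Fb)

/-- The data of the group law at one point, in characteristic zero. -/
def lawL {D₁ D₂ D₃ Dc : Divisor Qbar F} {c₁ c₂ cc : ℕ → Fin S.g → Qbar}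
    (g₁ : S.IsEverywhereGood D₁) (g₂ : S.IsEverywhereGood D₂) (g₃ : S.IsEverywhereGood D₃)
    (gc : S.IsEverywhereGood Dc) (h₁ : S.BL.IsCoord D₁ c₁) (h₂ : S.BL.IsCoord D₂ c₂)
    (hc : S.BL.IsCoord Dc cc) (hp : D₁ + D₂ - D₃ - Dc ∈ Divisor.principal (K := Qbar) (F := F)) :
    LawData S.g S.BL where
  D₁ := D₁
  D₂ := D₂
  D₃ := D₃
  Dc := Dc
  c₁ := c₁
  c₂ := c₂
  cc := cc
  good₁ := g₁.good
  good₂ := g₂.good
  good₃ := g₃.good
  goodc := gc.good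
  coord₁ := h₁
  coord₂ := h₂
  coordc := hc
  f₀ := hp.choose
  f₀_ne := hp.choose_spec.1
  div_f₀ := hp.choose_spec.2
  rr := S.hF

theorem series_ext {T : Type} (B : Subalgebra O (T → Qbar)) {x y : LaurentSeries B}
    (h : ∀ t, coeffMap (evalT B t) x = coeffMap (evalT B t) y) : x = y := by
  ext i t
  have := congrArg (fun z : LaurentSeries Qbar => z.coeff i) (h t)
  simpa using this

theorem smul_principal (σ : Γℚ) {D : Divisor Qbar F}
    (hD : D ∈ Divisor.principal (K := Qbar) (F := F)) :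
    S.act σ • D ∈ Divisor.principal (K := Qbar) (F := F) :=
  SemilinearAut.smul_mem_principal _ hD

/-- The data of the group law at one point, reduced after conjugation. -/
theorem exists_lawK (σ : Γℚ) {D₁ D₂ D₃ Dc : Divisor Qbar F} {c₁ c₂ cc : ℕ → Fin S.g → Qbar}
    (g₁ : S.IsEverywhereGood D₁) (g₂ : S.IsEverywhereGood D₂) (g₃ : S.IsEverywhereGood D₃)
    (gc : S.IsEverywhereGood Dc) (h₁ : S.BL.IsCoord D₁ c₁) (h₂ : S.BL.IsCoord D₂ c₂)
    (hc : S.BL.IsCoord Dc cc) (hp : D₁ + D₂ - D₃ - Dc ∈ Divisor.principal (K := Qbar) (F := F)) :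
    ∃ (i₁ : ∀ t l, σ (c₁ t l) ∈ A₀) (i₂ : ∀ t l, σ (c₂ t l) ∈ A₀)
      (ic : ∀ t l, σ (cc t l) ∈ A₀) (Q : LawData S.g S.Bk),
      Q.c₁ = (fun t l => IsLocalRing.residue A₀ ⟨_, i₁ t l⟩) ∧
      Q.c₂ = (fun t l => IsLocalRing.residue A₀ ⟨_, i₂ t l⟩) ∧
      Q.cc = (fun t l => IsLocalRing.residue A₀ ⟨_, ic t l⟩) := by
  obtain ⟨i₁, j₁⟩ := S.coord_integral (g₁.2 σ) (S.coord_smul σ h₁)
  obtain ⟨i₂, j₂⟩ := S.coord_integral (g₂.2 σ) (S.coord_smul σ h₂)
  obtain ⟨ic, jc⟩ := S.coord_integral (gc.2 σ) (S.coord_smul σ hc)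
  have hp' := S.smul_principal σ hp
  rw [smul_sub, smul_sub, smul_add] at hp'
  obtain ⟨f, hf, hdiv⟩ := S.red_principal hp'
  rw [S.red_sub, S.red_sub, S.red_add] at hdiv
  exact ⟨i₁, i₂, ic,
    { D₁ := _, D₂ := _, D₃ := _, Dc := _, c₁ := _, c₂ := _, cc := _
      good₁ := g₁.2 σ, good₂ := g₂.2 σ, good₃ := g₃.2 σ, goodc := gc.2 σ
      coord₁ := j₁, coord₂ := j₂, coordc := jc
      f₀ := f, f₀_ne := hf, div_f₀ := hdiv, rr := S.hB }, rfl, rfl, rfl⟩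

theorem reduceT_algebraMap {T : Type} (B : Subalgebra O (T → Qbar)) (hB : Module.Finite O B)
    (σ : Γℚ) (t : T) :
    (reduceT hℓ A₀ hA₀ B hB σ t).comp (algebraMap O B) = baseRes hℓ A₀ hA₀ := by
  refine RingHom.ext fun r => ?_
  refine congrArg (IsLocalRing.residue A₀) (Subtype.ext ?_)
  exact isFixedBase_galois.fixed σ r

theorem reduceT_eq {T : Type} (B : Subalgebra O (T → Qbar)) (hB : Module.Finite O B)
    (σ : Γℚ) (t : T) (b : B) {x : Qbar} (hbx : (b : T → Qbar) t = x) (hx : σ x ∈ A₀) :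
    reduceT hℓ A₀ hA₀ B hB σ t b = IsLocalRing.residue A₀ ⟨σ x, hx⟩ := by
  refine congrArg (IsLocalRing.residue A₀) (Subtype.ext ?_)
  show σ ((b : T → Qbar) t) = σ x
  rw [hbx]

/-- **The group law is integral.** -/
theorem integral_law {T : Type} [Finite T] (B : Subalgebra O (T → Qbar))
    (hB : Module.Finite O B) (D₁ D₂ D₃ Dc : T → Divisor Qbar F)
    (c₁ c₂ cc c₃ : T → ℕ → Fin S.g → Qbar)
    (g₁ : ∀ t, S.IsEverywhereGood (D₁ t)) (g₂ : ∀ t, S.IsEverywhereGood (D₂ t))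
    (g₃ : ∀ t, S.IsEverywhereGood (D₃ t)) (gc : ∀ t, S.IsEverywhereGood (Dc t))
    (h₁ : ∀ t, S.BL.IsCoord (D₁ t) (c₁ t)) (h₂ : ∀ t, S.BL.IsCoord (D₂ t) (c₂ t))
    (hc : ∀ t, S.BL.IsCoord (Dc t) (cc t)) (h₃ : ∀ t, S.BL.IsCoord (D₃ t) (c₃ t))
    (hp : ∀ t, D₁ t + D₂ t - D₃ t - Dc t ∈ Divisor.principal (K := Qbar) (F := F))
    (m₁ : ∀ i, i ≤ S.g → ∀ l, (fun t => c₁ t i l) ∈ B)
    (m₂ : ∀ i, i ≤ S.g → ∀ l, (fun t => c₂ t i l) ∈ B)
    (mc : ∀ i, i ≤ 5 * S.g → ∀ l, (fun t => cc t i l) ∈ B) :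
    ∀ i, i ≤ 5 * S.g → ∀ l, (fun t => c₃ t i l) ∈ B := by
  classical
  let b₁ : ℕ → Fin S.g → B := fun i l => if h : i ≤ S.g then ⟨_, m₁ i h l⟩ else 0
  let b₂ : ℕ → Fin S.g → B := fun i l => if h : i ≤ S.g then ⟨_, m₂ i h l⟩ else 0
  let bc : ℕ → Fin S.g → B := fun i l => if h : i ≤ 5 * S.g then ⟨_, mc i h l⟩ else 0
  have e₁ : ∀ t i, i ≤ S.g → ∀ l, (b₁ i l : T → Qbar) t = c₁ t i l := fun t i hi l => by
    simp [b₁, hi]
  have e₂ : ∀ t i, i ≤ S.g → ∀ l, (b₂ i l : T → Qbar) t = c₂ t i l := fun t i hi l => by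
    simp [b₂, hi]
  have ec : ∀ t i, i ≤ 5 * S.g → ∀ l, (bc i l : T → Qbar) t = cc t i l := fun t i hi l => by
    simp [bc, hi]
  have eL₁ : ∀ t i, i ≤ S.g → (fun l => evalT B t (b₁ i l)) = c₁ t i := fun t i hi =>
    funext (e₁ t i hi)
  have eL₂ : ∀ t i, i ≤ S.g → (fun l => evalT B t (b₂ i l)) = c₂ t i := fun t i hi =>
    funext (e₂ t i hi)
  have eLc : ∀ t i, i ≤ 5 * S.g → (fun l => evalT B t (bc i l)) = cc t i := fun t i hi =>
    funext (ec t i hi)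
  have hev : ∀ t, (evalT B t).comp (algebraMap O B) = algebraMap O Qbar := fun t => rfl
  -- the first system
  have stage1 : ∀ k, k ≤ S.g → ∃ x : SeriesBasis.Unknown₁ S.g → B, ∀ st,
      ∑ w, x w • S.Z.row₁ (algebraMap O B) b₁ b₂ bc st w =
        S.Z.rhs₁ (algebraMap O B) b₁ b₂ k st := by
    intro k hk
    let Q := fun t => S.lawL (g₁ t) (g₂ t) (g₃ t) (gc t) (h₁ t) (h₂ t) (hc t) (hp t)
    choose a ha using fun t => (Q t).exists_xVec k
    choose u hu using fun t => (Q t).exists_stageOne hk (ha t)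
    let ξ : T → SeriesBasis.Unknown₁ S.g → Qbar := fun t =>
      Sum.elim (a t) fun p => u t p.1.1 p.1.2 p.2
    have hsol := exists_solution_of_injective_series hℓ A₀ hA₀ B hB
      (fun st => S.Z.row₁ (algebraMap O B) b₁ b₂ bc st)
      (fun st => S.Z.rhs₁ (algebraMap O B) b₁ b₂ k st) ξ ?_ ?_
    · choose x hx using hsol
      refine ⟨x, fun st => ?_⟩
      refine series_ext B fun t => ?_
      rw [map_sum, S.Z.coeffMap_rhs₁, hev,
        S.Z.rhs₁_congr _ (eL₁ t) (eL₂ t),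
        ← ((S.repL.stageOne_iff (c₁ t) (c₂ t) (cc t) k (ξ t)).mpr (hu t)) st]
      refine Finset.sum_congr rfl fun v _ => ?_
      rw [SeriesBasis.coeffMap_smul, S.Z.coeffMap_row₁, hev, evalT_apply, hx,
        S.Z.row₁_congr _ (eL₁ t) (eL₂ t) (eLc t)]
    · intro t st
      have h := ((S.repL.stageOne_iff (c₁ t) (c₂ t) (cc t) k (ξ t)).mpr (hu t)) st
      rw [S.Z.coeffMap_rhs₁, hev,
        S.Z.rhs₁_congr _ (eL₁ t) (eL₂ t), ← h]
      refine Finset.sum_congr rfl fun v _ => ?_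
      rw [S.Z.coeffMap_row₁, hev, S.Z.row₁_congr _ (eL₁ t) (eL₂ t) (eLc t)]
    · intro σ t v hv
      obtain ⟨i₁, i₂, ic, QK, q₁, q₂, qc⟩ :=
        S.exists_lawK σ (g₁ t) (g₂ t) (g₃ t) (gc t) (h₁ t) (h₂ t) (hc t) (hp t)
      have h := (S.repk.stageOneZero_iff QK.c₁ QK.c₂ QK.cc v).mp fun st => ?_
      · obtain ⟨ha0, hu0⟩ := QK.stageOne_injective h
        funext w
        rcases w with i | ⟨⟨s, s'⟩, l⟩
        · exact congr_fun ha0 i
        · exact congr_fun (congr_fun (congr_fun hu0 s) s') l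
      rw [← hv st]
      refine Finset.sum_congr rfl fun w _ => ?_
      have k₁ : ∀ i, i ≤ S.g → (fun l => reduceT hℓ A₀ hA₀ B hB σ t (b₁ i l)) = QK.c₁ i :=
        fun i hi => funext fun l => by rw [q₁, reduceT_eq B hB σ t _ (e₁ t i hi l) (i₁ i l)]
      have k₂ : ∀ i, i ≤ S.g → (fun l => reduceT hℓ A₀ hA₀ B hB σ t (b₂ i l)) = QK.c₂ i :=
        fun i hi => funext fun l => by rw [q₂, reduceT_eq B hB σ t _ (e₂ t i hi l) (i₂ i l)]
      have kc : ∀ i, i ≤ 5 * S.g → (fun l => reduceT hℓ A₀ hA₀ B hB σ t (bc i l)) = QK.cc i :=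
        fun i hi => funext fun l => by rw [qc, reduceT_eq B hB σ t _ (ec t i hi l) (ic i l)]
      rw [S.Z.coeffMap_row₁, reduceT_algebraMap, S.Z.row₁_congr _ k₁ k₂ kc]
  choose x hx using stage1
  let A : ℕ → Fin S.g ⊕ Fin (4 * S.g) → B := fun k i =>
    if h : k ≤ S.g then x k h (Sum.inl i) else 0
  have hA : ∀ k (hk : k ≤ S.g), A k = fun w => x k hk (Sum.inl w) :=
    fun k hk => funext fun w => by simp [A, hk]
  -- the second system
  intro i hi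
  have hmem : ∀ t k, k ≤ S.g → S.BL.xVec k (fun w => (A k w : T → Qbar) t) ∈ riemannRochSpace
      ((S.lawL (g₁ t) (g₂ t) (g₃ t) (gc t) (h₁ t) (h₂ t) (hc t) (hp t)).DX +
        atBase S.P₀ k) := by
    intro t k hk
    refine LawData.stageOne_mem _ (u := fun s s' l => (x k hk (Sum.inr ((s, s'), l)) : T → Qbar) t)
      ?_
    simp only [hA k hk]
    refine (S.repL.stageOne_iff (c₁ t) (c₂ t) (cc t) k fun w => (x k hk w : T → Qbar) t).mp
      fun st => ?_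
    have h := congrArg (coeffMap (evalT B t)) (hx k hk st)
    rw [map_sum, S.Z.coeffMap_rhs₁, hev,
      S.Z.rhs₁_congr _ (eL₁ t) (eL₂ t)] at h
    refine Eq.trans (Finset.sum_congr rfl fun v _ => ?_) h
    rw [SeriesBasis.coeffMap_smul, S.Z.coeffMap_row₁, hev, evalT_apply,
      S.Z.row₁_congr _ (eL₁ t) (eL₂ t) (eLc t)]
  let Q := fun t => S.lawL (g₁ t) (g₂ t) (g₃ t) (gc t) (h₁ t) (h₂ t) (hc t) (hp t)
  choose u hu using fun t => (Q t).exists_stageTwo (h₃ t) (hmem t) hi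
  let ξ : T → SeriesBasis.Unknown₂ S.g → Qbar := fun t =>
    Sum.elim (c₃ t i) fun p => u t p.1 p.2
  have hsol := exists_solution_of_injective_series hℓ A₀ hA₀ B hB
    (fun k => S.Z.row₂ (algebraMap O B) A k)
    (fun k => S.Z.rhs₂ (algebraMap O B) A i k) ξ ?_ ?_
  · intro l
    obtain ⟨y, hy⟩ := hsol (Sum.inl l)
    have : (fun t => c₃ t i l) = (y : T → Qbar) := funext fun t => (hy t).symm
    rw [this]
    exact y.2
  · intro t k
    have h := ((S.repL.stageTwo_iff (fun k w => (A k w : T → Qbar) t) i (ξ t)).mpr (hu t)) k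
    rw [S.Z.coeffMap_rhs₂, hev]
    refine Eq.trans ?_ h
    refine Finset.sum_congr rfl fun v _ => ?_
    rw [S.Z.coeffMap_row₂, hev]
    rfl
  · intro σ t v hv
    obtain ⟨i₁, i₂, ic, QK, q₁, q₂, qc⟩ :=
      S.exists_lawK σ (g₁ t) (g₂ t) (g₃ t) (gc t) (h₁ t) (h₂ t) (hc t) (hp t)
    have k₁ : ∀ i, i ≤ S.g → (fun l => reduceT hℓ A₀ hA₀ B hB σ t (b₁ i l)) = QK.c₁ i :=
      fun i hi => funext fun l => by rw [q₁, reduceT_eq B hB σ t _ (e₁ t i hi l) (i₁ i l)]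
    have k₂ : ∀ i, i ≤ S.g → (fun l => reduceT hℓ A₀ hA₀ B hB σ t (b₂ i l)) = QK.c₂ i :=
      fun i hi => funext fun l => by rw [q₂, reduceT_eq B hB σ t _ (e₂ t i hi l) (i₂ i l)]
    have kc : ∀ i, i ≤ 5 * S.g → (fun l => reduceT hℓ A₀ hA₀ B hB σ t (bc i l)) = QK.cc i :=
      fun i hi => funext fun l => by rw [qc, reduceT_eq B hB σ t _ (ec t i hi l) (ic i l)]
    set ak : ℕ → Fin S.g ⊕ Fin (4 * S.g) → IsLocalRing.ResidueField A₀ := fun k w =>
      reduceT hℓ A₀ hA₀ B hB σ t (A k w) with hak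
    -- the reduced solutions of the first system lie in the reduced spaces
    have hamem : ∀ k, k ≤ S.g →
        S.Bk.xVec k (ak k) ∈ riemannRochSpace (QK.DX + atBase S.Pb k) := by
      intro k hk
      refine QK.stageOne_mem (u := fun s s' l =>
        reduceT hℓ A₀ hA₀ B hB σ t (x k hk (Sum.inr ((s, s'), l)))) ?_
      simp only [hak, hA k hk]
      refine (S.repk.stageOne_iff QK.c₁ QK.c₂ QK.cc k fun w =>
        reduceT hℓ A₀ hA₀ B hB σ t (x k hk w)).mp fun st => ?_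
      have h := congrArg (coeffMap (reduceT hℓ A₀ hA₀ B hB σ t)) (hx k hk st)
      rw [map_sum, S.Z.coeffMap_rhs₁, reduceT_algebraMap,
        S.Z.rhs₁_congr _ (c₁' := QK.c₁) (c₂' := QK.c₂) k₁ k₂] at h
      refine Eq.trans (Finset.sum_congr rfl fun v _ => ?_) h
      rw [SeriesBasis.coeffMap_smul, S.Z.coeffMap_row₁, reduceT_algebraMap,
        S.Z.row₁_congr _ (c₁' := QK.c₁) (c₂' := QK.c₂) (cc' := QK.cc) k₁ k₂ kc]
    have h := (S.repk.stageTwoZero_iff ak v).mp fun k => ?_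
    · obtain ⟨hy, hu0⟩ := QK.stageTwo_injective hamem h
      funext w
      rcases w with l | ⟨k, l⟩
      · exact congr_fun hy l
      · simpa using congr_fun (congr_fun hu0 k) l
    rw [← hv k]
    refine Finset.sum_congr rfl fun w _ => ?_
    rw [S.Z.coeffMap_row₂, reduceT_algebraMap]

end SpecData

end FermatLib.Igusa.TorsionModel
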