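import Fermat.Agent.Igusa.TorsionModel.EquivariantHopf
import Mathlib.GroupTheory.Index
import Mathlib.RingTheory.Adjoin.Basic

/-!
# Descent along an unramified finite quotient

A finite ring `H'` of functions on `M`, stable under the twisted action of `G`, fixed by a finite
index normal subgroup `N`, and containing constants which form a dual pair for `G ⧸ N`, descends
to a Hopf ring of equivariant functions.
-/

set_option autoImplicit false
set_option linter.unusedSectionVars false

noncomputable section

open scoped TensorProduct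

namespace FermatLib.Igusa.TorsionModel

/-- A subalgebra of functions on a finite set separating points is everything. -/
theorem subalgebra_eq_top_of_separates {L M : Type*} [Field L] [Finite M]
    (A : Subalgebra L (M → L)) (h : ∀ z w, (∀ f ∈ A, f z = f w) → z = w) : A = ⊤ := by
  classical
  haveI := Fintype.ofFinite M
  have key : ∀ z : M, (Pi.single z 1 : M → L) ∈ A := by
    intro z
    have hw : ∀ w : M, w ≠ z → ∃ f ∈ A, f z ≠ f w := by
      intro w hw
      by_contra hall
      push Not at hall
      exact hw (h z w hall).symm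
    choose! f hfA hf using hw
    have : (Pi.single z 1 : M → L) = ∏ w ∈ Finset.univ.erase z,
        (f w z - f w w)⁻¹ • (f w - algebraMap L (M → L) (f w w)) := by
      funext x
      rw [Finset.prod_apply]
      by_cases hx : x = z
      · subst hx
        rw [Pi.single_eq_same]
        refine (Finset.prod_eq_one fun w hw => ?_).symm
        simp [sub_ne_zero.mpr (hf w (Finset.ne_of_mem_erase hw))]
      · rw [Pi.single_eq_of_ne hx]
        exact (Finset.prod_eq_zero (Finset.mem_erase.mpr ⟨hx, Finset.mem_univ x⟩) (by simp)).symm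
    rw [this]
    exact prod_mem fun w hw => A.smul_mem
      (sub_mem (hfA w (Finset.ne_of_mem_erase hw)) (A.algebraMap_mem _)) _
  refine eq_top_iff.mpr fun f _ => ?_
  rw [← Finset.univ_sum_single f]
  refine sum_mem fun z _ => ?_
  have : (Pi.single z (f z) : M → L) = f z • Pi.single z 1 := by
    rw [← Pi.single_smul, smul_eq_mul, mul_one]
  rw [this]
  exact A.smul_mem (key z) _

variable {O L M G : Type} [CommRing O] [IsDomain O] [IsPrincipalIdealRing O]
  [Field L] [Algebra O L] [FaithfulSMul O L] [AddCommGroup M] [Finite M]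
  [Group G] [MulSemiringAction G L] [DistribMulAction G M]

/-- The twisted action on functions. -/
def twist (g : G) (f : M → L) : M → L := fun z => g • f (g⁻¹ • z)

theorem twist_apply (g : G) (f : M → L) (z : M) : twist g f z = g • f (g⁻¹ • z) := rfl

theorem twist_mul (g g' : G) (f : M → L) : twist (g * g') f = twist g (twist g' f) := by
  funext z
  simp [twist_apply, mul_smul]

/-- The equivariant functions, as a subalgebra. -/
def equivariantFunctions (hb : IsFixedBase O L G) : Subalgebra O (M → L) where
  carrier := {f | ∀ (g : G) (z : M), f (g • z) = g • f z}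
  mul_mem' {a b} ha hb' g z := by simp [ha g z, hb' g z, smul_mul']
  add_mem' {a b} ha hb' g z := by simp [ha g z, hb' g z, smul_add]
  algebraMap_mem' r g z := (hb.fixed g r).symm

/-- **Descent to a ring of equivariant functions.** -/
theorem exists_equivariantModel_of_descent (hb : IsFixedBase O L G)
    (H' : Subalgebra O (M → L)) (hfin : Module.Finite O H')
    (N : Subgroup G) [N.Normal] [N.FiniteIndex]
    (hstab : ∀ (g : G), ∀ f ∈ H', twist g f ∈ H')
    (hN : ∀ g ∈ N, ∀ f ∈ H', twist g f = f)
    {κ : Type} [Fintype κ] (ω ω' : κ → L)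
    (hω : ∀ j, (fun _ => ω j : M → L) ∈ H') (hω' : ∀ j, (fun _ => ω' j : M → L) ∈ H')
    (hdual₁ : ∀ g ∈ N, ∑ j, (g • ω j) * ω' j = 1)
    (hdual₀ : ∀ g ∉ N, ∑ j, (g • ω j) * ω' j = 0)
    (hsep : ∀ z w : M, (∀ f ∈ H', f z = f w) → z = w)
    (hadd : ∀ f : H', ∃ x : H' ⊗[O] H', ∀ q, eval₂ H' x q = (f : M → L) (q.1 + q.2)) :
    ∃ H : Subalgebra O (M → L), H ≤ H' ∧ Module.Finite O H ∧
      (∀ (f : H) (g : G) (z : M), (f : M → L) (g • z) = g • (f : M → L) z) ∧
      Submodule.span L (H : Set (M → L)) = ⊤ ∧
      ∀ f : H, ∃ x : H ⊗[O] H, ∀ q, eval₂ H x q = (f : M → L) (q.1 + q.2) := by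
  classical
  haveI : Fintype (G ⧸ N) := Fintype.ofFinite _
  set H : Subalgebra O (M → L) := H' ⊓ equivariantFunctions hb with hH
  haveI : Module.Finite O H' := hfin
  have hfinH : Module.Finite O H := by
    haveI : IsNoetherian O H' := isNoetherian_of_isNoetherianRing_of_finite O H'
    have hle : H ≤ H' := inf_le_left
    exact Module.Finite.of_injective (Subalgebra.inclusion hle).toLinearMap
      (Subalgebra.inclusion_injective hle)
  haveI := hfinH
  have heq : ∀ (f : H) (g : G) (z : M), (f : M → L) (g • z) = g • (f : M → L) z :=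
    fun f g z => f.2.2 g z
  -- the trace
  let rep : G ⧸ N → G := Quotient.out
  let tr : (M → L) → (M → L) := fun f => ∑ q : G ⧸ N, twist (rep q) f
  have tr_mem : ∀ f ∈ H', tr f ∈ H := by
    intro f hf
    refine ⟨sum_mem fun q _ => hstab _ f hf, fun g z => ?_⟩
    have h1 : ∀ q : G ⧸ N, twist (g * rep q) f = twist (rep (g • q)) f := by
      intro q
      have hmem : (rep (g • q))⁻¹ * (g * rep q) ∈ N := by
        rw [← QuotientGroup.eq]
        rw [show ((g * rep q : G) : G ⧸ N) = g • ((rep q : G) : G ⧸ N) from rfl]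
        exact (Quotient.out_eq' _).trans (congrArg (g • ·) (Quotient.out_eq' q).symm)
      calc twist (g * rep q) f = twist (rep (g • q) * ((rep (g • q))⁻¹ * (g * rep q))) f := by
            rw [mul_inv_cancel_left]
        _ = twist (rep (g • q)) f := by rw [twist_mul, hN _ hmem f hf]
    have h2 : g • tr f z = ∑ q : G ⧸ N, twist (g * rep q) f (g • z) := by
      simp only [tr, Finset.sum_apply, Finset.smul_sum]
      refine Finset.sum_congr rfl fun q _ => ?_
      simp [twist_apply, mul_smul]
    rw [h2]
    simp only [h1, tr, Finset.sum_apply]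
    exact (Fintype.sum_equiv (MulAction.toPerm g) (fun q => twist (rep (g • q)) f (g • z))
      (fun q => twist (rep q) f (g • z)) fun q => rfl).symm
  let cst : L → (M → L) := fun c _ => c
  have trc : ∀ c : L, cst c ∈ H' → ∃ t : O, ∑ q : G ⧸ N, rep q • c = algebraMap O L t := by
    intro c hc
    obtain ⟨t, ht⟩ := exists_algebraMap_eq_eval_zero hb (fun g => smul_zero g) heq
      ⟨_, tr_mem _ hc⟩
    exact ⟨t, by simpa [tr, twist_apply, cst] using ht.symm⟩
  have rep_one : ∀ q : G ⧸ N, rep q ∈ N ↔ q = ((1 : G) : G ⧸ N) := by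
    intro q
    conv_rhs => rw [← Quotient.out_eq' q]
    rw [show (Quotient.mk'' (Quotient.out q) : G ⧸ N) = ((rep q : G) : G ⧸ N) from rfl,
      eq_comm, QuotientGroup.eq, inv_one, one_mul]
  have decomp : ∀ f ∈ H', f = ∑ j, cst (ω' j) * tr (cst (ω j) * f) := by
    intro f hf
    funext z
    simp only [Finset.sum_apply, Pi.mul_apply, tr, twist_apply, smul_mul', Finset.mul_sum, cst]
    rw [Finset.sum_comm, Finset.sum_eq_single ((1 : G) : G ⧸ N)]
    · have h1 : rep ((1 : G) : G ⧸ N) ∈ N := (rep_one _).mpr rfl
      simp only [← mul_assoc, ← Finset.sum_mul]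
      rw [Finset.sum_congr rfl fun j _ => mul_comm (ω' j) _, hdual₁ _ h1, one_mul]
      exact (congr_fun (hN _ h1 f hf) z).symm
    · intro q _ hq
      simp only [← mul_assoc, ← Finset.sum_mul]
      rw [Finset.sum_congr rfl fun j _ => mul_comm (ω' j) _,
        hdual₀ _ (fun h => hq ((rep_one q).mp h)), zero_mul]
    · simp
  -- an element of trace one
  obtain ⟨θ, hθ, htrθ⟩ : ∃ θ : L, cst θ ∈ H' ∧ ∑ q : G ⧸ N, rep q • θ = 1 := by
    choose t ht using fun j => trc (ω j) (hω j)
    obtain ⟨d, hd⟩ := (IsPrincipalIdealRing.principal (Ideal.span (Set.range t))).principal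
    have hdt : ∀ j, ∃ u, t j = d * u := fun j => by
      have : t j ∈ Ideal.span {d} := by
        rw [← Ideal.submodule_span_eq, ← hd]
        exact Ideal.subset_span ⟨j, rfl⟩
      obtain ⟨u, hu⟩ := Ideal.mem_span_singleton'.mp this
      exact ⟨u, by rw [← hu, mul_comm]⟩
    choose u hu using hdt
    have h1 : (1 : L) = algebraMap O L d * ∑ j, algebraMap O L (u j) * ω' j := by
      have := congr_fun (decomp 1 H'.one_mem) 0
      simp only [Finset.sum_apply, Pi.mul_apply, Pi.one_apply, tr, twist_apply, cst,
        mul_one] at this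
      rw [this, Finset.mul_sum]
      refine Finset.sum_congr rfl fun j _ => ?_
      rw [ht j, hu j, map_mul]
      ring
    set v : L := ∑ j, algebraMap O L (u j) * ω' j with hv
    have hvH : cst v ∈ H' := by
      have : cst v = ∑ j, algebraMap O (M → L) (u j) * cst (ω' j) := by funext z; simp [cst, hv]
      rw [this]
      exact sum_mem fun j _ => H'.mul_mem (H'.algebraMap_mem _) (hω' j)
    have hfix : ∀ g : G, g • v = v := by
      intro g
      have hd0 : algebraMap O L d ≠ 0 := fun h => by rw [h, zero_mul] at h1; exact one_ne_zero h1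
      refine mul_left_cancel₀ hd0 ?_
      calc algebraMap O L d * g • v = g • (algebraMap O L d * v) := by rw [smul_mul', hb.fixed]
        _ = algebraMap O L d * v := by rw [← h1, smul_one]
    obtain ⟨r, hr⟩ := exists_algebraMap_eq_eval_zero hb (fun g => smul_zero g) heq
      ⟨cst v, hvH, fun g z => (hfix g).symm⟩
    have hru : d * r = 1 := by
      apply FaithfulSMul.algebraMap_injective O L
      rw [map_mul, map_one, show algebraMap O L r = v from hr, ← h1]
    have h1mem : (1 : O) ∈ Ideal.span (Set.range t) := by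
      rw [hd, Ideal.submodule_span_eq]
      exact Ideal.mem_span_singleton'.mpr ⟨r, by rw [mul_comm]; exact hru⟩
    obtain ⟨c, hc⟩ := Ideal.mem_span_range_iff_exists_fun.mp h1mem
    refine ⟨∑ j, algebraMap O L (c j) * ω j, ?_, ?_⟩
    · have : cst (∑ j, algebraMap O L (c j) * ω j)
          = ∑ j, algebraMap O (M → L) (c j) * cst (ω j) := by funext z; simp [cst]
      rw [this]
      exact sum_mem fun j _ => H'.mul_mem (H'.algebraMap_mem _) (hω j)
    · simp only [Finset.smul_sum, smul_mul', hb.fixed]
      rw [Finset.sum_comm]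
      simp only [← Finset.mul_sum, ht, ← map_mul, ← map_sum]
      rw [hc, map_one]
  -- the averaging of a tensor
  have average : ∀ x' : H' ⊗[O] H', ∀ c : L, cst c ∈ H' → ∃ x : H ⊗[O] H, ∀ q : M × M,
      eval₂ H x q = ∑ p : G ⧸ N, rep p • (c * eval₂ H' x' ((rep p)⁻¹ • q)) := by
    intro x'
    induction x' using TensorProduct.induction_on with
    | zero => exact fun c _ => ⟨0, fun q => by simp⟩
    | add a b iha ihb =>
      intro c hc
      obtain ⟨xa, hxa⟩ := iha c hc
      obtain ⟨xb, hxb⟩ := ihb c hc
      exact ⟨xa + xb, fun q => by simp [hxa, hxb, mul_add, smul_add, Finset.sum_add_distrib]⟩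
    | tmul a b =>
      intro c hc
      let A : κ → H := fun j => ⟨_, tr_mem _ (H'.mul_mem (hω j) a.2)⟩
      let B : κ → H := fun j => ⟨_, tr_mem _ (H'.mul_mem (hω j) b.2)⟩
      have hc' : ∀ j k, cst (c * ω' j * ω' k) ∈ H' := fun j k =>
        H'.mul_mem (H'.mul_mem hc (hω' j)) (hω' k)
      choose t ht using fun j k => trc _ (hc' j k)
      refine ⟨∑ j, ∑ k, t j k • (A j ⊗ₜ[O] B k), fun q => ?_⟩
      simp only [map_sum, map_smul, Finset.sum_apply, eval₂_tmul,
        Algebra.smul_def]
      calc ∑ j, ∑ k, algebraMap O L (t j k) * ((A j : M → L) q.1 * (B k : M → L) q.2)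
          = ∑ j, ∑ k, ∑ p : G ⧸ N,
              rep p • (c * ω' j * ω' k) * ((A j : M → L) q.1 * (B k : M → L) q.2) := by
            simp only [← ht, Finset.sum_mul]
        _ = ∑ p : G ⧸ N, ∑ j, ∑ k,
              rep p • (c * ω' j * ω' k) * ((A j : M → L) q.1 * (B k : M → L) q.2) := by
            exact (Finset.sum_congr rfl fun j _ => Finset.sum_comm).trans Finset.sum_comm
        _ = _ := by
            refine Finset.sum_congr rfl fun p _ => ?_
            have ha := congr_fun (decomp _ a.2) ((rep p)⁻¹ • q.1)
            have hb' := congr_fun (decomp _ b.2) ((rep p)⁻¹ • q.2)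
            have hA : ∀ j, (A j : M → L) q.1 = rep p • (A j : M → L) ((rep p)⁻¹ • q.1) :=
              fun j => by rw [← heq, smul_inv_smul]
            have hB : ∀ j, (B j : M → L) q.2 = rep p • (B j : M → L) ((rep p)⁻¹ • q.2) :=
              fun j => by rw [← heq, smul_inv_smul]
            simp only [Prod.smul_fst, Prod.smul_snd]
            rw [ha, hb']
            simp only [Finset.sum_apply, Pi.mul_apply, Finset.mul_sum, Finset.sum_mul,
              Finset.smul_sum]
            rw [Finset.sum_comm]
            refine Finset.sum_congr rfl fun j _ => Finset.sum_congr rfl fun k _ => ?_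
            simp only [smul_mul']
            rw [hA, hB]
            simp only [cst, A, B]
            ring
  have hspan : Submodule.span L (H : Set (M → L)) = ⊤ := by
    have hA : Algebra.adjoin L (H : Set (M → L)) = ⊤ := by
      refine subalgebra_eq_top_of_separates _ fun z w h => hsep z w fun f hf => ?_
      rw [decomp f hf]
      simp only [Finset.sum_apply, Pi.mul_apply, cst]
      exact Finset.sum_congr rfl fun j _ => by
        rw [h _ (Algebra.subset_adjoin (tr_mem _ (H'.mul_mem (hω j) hf)))]
    have h2 := congrArg Subalgebra.toSubmodule hA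
    rw [Algebra.adjoin_eq_span, Algebra.top_toSubmodule] at h2
    rw [← h2]
    congr 1
    exact (Submonoid.closure_eq H.toSubsemiring.toSubmonoid).symm ▸ rfl
  refine ⟨H, inf_le_left, hfinH, heq, hspan, fun f => ?_⟩
  obtain ⟨x', hx'⟩ := hadd ⟨_, f.2.1⟩
  obtain ⟨x, hx⟩ := average x' θ hθ
  refine ⟨x, fun q => ?_⟩
  rw [hx]
  simp only [hx', Prod.smul_fst, Prod.smul_snd, smul_mul', ← smul_add, heq, smul_inv_smul]
  rw [← Finset.sum_mul, htrθ, one_mul]

end FermatLib.Igusa.TorsionModel
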