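import Fermat.Agent.Igusa.TorsionModel.Translation
import Fermat.Agent.Igusa.TorsionModel.IntegralLaw
import Fermat.Agent.Igusa.TorsionModel.UnramifiedDescent

/-!
# The ring of coordinate functions and the finite flat model
-/

set_option autoImplicit false
set_option linter.unusedSectionVars false

noncomputable section

open AlgebraicCurve ModularCurve
open scoped TensorProduct

namespace FermatLib.Igusa.TorsionModel

local notation "Qbar" => AlgebraicClosure ℚ
local notation "Γℚ" => (AlgebraicClosure ℚ ≃ₐ[ℚ] AlgebraicClosure ℚ)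

variable {ℓ : ℕ} {hℓ : ℓ.Prime} {A₀ : ValuationSubring (AlgebraicClosure ℚ)}
  {hA₀ : A₀.LiesOverPrime ℓ}

set_option quotPrecheck false in
local notation "O" => ↥(GaloisRep.ratLocalizedAt ℓ)

/-- Functions with integral values on a finite set are integral. -/
theorem isIntegral_pi {X : Type} [Finite X] {f : X → Qbar} (hf : ∀ x, IsIntegral O (f x)) :
    IsIntegral O f := by
  classical
  have : Fintype X := Fintype.ofFinite X
  choose p hp hpx using hf
  refine ⟨∏ x, p x, Polynomial.monic_prod_of_monic _ _ fun x _ => hp x, funext fun x => ?_⟩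
  rw [← Polynomial.aeval_def, Polynomial.aeval_pi_apply]
  simp only [Pi.zero_apply, map_prod]
  exact Finset.prod_eq_zero (Finset.mem_univ x) (hpx x)

theorem faithfulSMul_localBase (ℓ : ℕ) :
    FaithfulSMul (GaloisRep.ratLocalizedAt ℓ) Qbar :=
  (faithfulSMul_iff_algebraMap_injective _ _).mpr fun _ _ h =>
    Subtype.ext ((algebraMap ℚ Qbar).injective h)

/-- The image of `eval₂`. -/
theorem finite_range_eval₂ {T : Type} (H : Subalgebra O (T → Qbar)) (hH : Module.Finite O H) :
    Module.Finite O (eval₂ H).range := by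
  have := hH
  exact Module.Finite.of_surjective (eval₂ H).rangeRestrict.toLinearMap
    (AlgHom.rangeRestrict_surjective (eval₂ H))

namespace SpecData

variable {F Fb : Type} [Field F] [Algebra Qbar F] [Field Fb]
  [Algebra (IsLocalRing.ResidueField A₀) Fb] {S : SpecData hℓ A₀ hA₀ F Fb}
  {M : Type} [AddCommGroup M] [Finite M] [DistribMulAction Γℚ M]

namespace Translation

variable {Φ : S.ClassFamily M} (T : Translation Φ)

/-- A coordinate function. -/
def coordFun (σ : Γℚ) (t : ℕ) (l : Fin S.g) : M → Qbar := fun m => T.coord m σ t l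

/-- The constants to adjoin. -/
def cst {κ : Type} (ω : κ → Qbar) :
    (Γℚ ⧸ T.N) × (κ ⊕ Fin (5 * S.g + 1) × Fin S.g) → Qbar :=
  fun p => p.1.out • Sum.elim ω (fun q => T.coord 0 1 q.1 q.2) p.2

/-- The coordinate ring with constants adjoined. -/
def coordRing {κ : Type} (ω : κ → Qbar) : Subalgebra O (M → Qbar) :=
  Algebra.adjoin O (Set.range (fun p : (Γℚ ⧸ T.N) × Fin (5 * S.g + 1) × Fin S.g =>
    T.coordFun p.1.out p.2.1 p.2.2) ∪ Set.range fun p => (fun _ : M => T.cst ω p))

theorem isIntegralFixed_coord_zero (σ : Γℚ) (t : ℕ) (l : Fin S.g) :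
    IsIntegralFixed ℓ T.N (T.coord 0 σ t l) := by
  refine ⟨T.isIntegral_coord 0 σ t l, fun τ hτ => ?_⟩
  rw [T.smul_coord, smul_zero]
  have h : σ⁻¹ * (τ * σ) ∈ T.N := by
    simpa [mul_assoc] using T.normal.conj_mem τ hτ σ⁻¹
  rw [T.coord_congr 0 h]

theorem isIntegralFixed_cst {κ : Type} {ω : κ → Qbar} (hω : ∀ j, IsIntegralFixed ℓ T.N (ω j))
    (p) : IsIntegralFixed ℓ T.N (T.cst ω p) := by
  have := T.normal
  refine IsIntegralFixed.smul ?_ _
  rcases p.2 with j | q
  · exact hω j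
  · exact T.isIntegralFixed_coord_zero 1 _ _

theorem coordFun_mem {κ : Type} (ω : κ → Qbar) (σ : Γℚ) {t : ℕ} (ht : t ≤ 5 * S.g)
    (l : Fin S.g) : T.coordFun σ t l ∈ T.coordRing ω := by
  refine Algebra.subset_adjoin (Or.inl ⟨((σ : Γℚ ⧸ T.N), ⟨t, by omega⟩, l), ?_⟩)
  funext m
  show T.coord m (Quotient.out (σ : Γℚ ⧸ T.N)) t l = T.coord m σ t l
  have h : (Quotient.out (σ : Γℚ ⧸ T.N))⁻¹ * σ ∈ T.N := QuotientGroup.eq.mp (Quotient.out_eq' _)
  exact congr_fun (congr_fun (T.coord_congr m h) t).symm l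

theorem const_mem {κ : Type} {ω : κ → Qbar} (hω : ∀ j, IsIntegralFixed ℓ T.N (ω j)) (g : Γℚ)
    (j : κ ⊕ Fin (5 * S.g + 1) × Fin S.g) :
    (fun _ : M => g • Sum.elim ω (fun q => T.coord 0 1 q.1 q.2) j) ∈ T.coordRing ω := by
  refine Algebra.subset_adjoin (Or.inr ⟨((g : Γℚ ⧸ T.N), j), ?_⟩)
  have h : (Quotient.out (g : Γℚ ⧸ T.N))⁻¹ * g ∈ T.N := QuotientGroup.eq.mp (Quotient.out_eq' _)
  funext m
  refine (IsIntegralFixed.smul_eq (N := T.N) (ℓ := ℓ) ?_ h).symm
  rcases j with j | q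
  · exact hω j
  · exact T.isIntegralFixed_coord_zero 1 _ _

theorem omega_mem {κ : Type} {ω : κ → Qbar} (hω : ∀ j, IsIntegralFixed ℓ T.N (ω j)) (j : κ) :
    (fun _ : M => ω j) ∈ T.coordRing ω := by
  simpa using T.const_mem hω 1 (Sum.inl j)

theorem twist_coordFun (g σ : Γℚ) (t : ℕ) (l : Fin S.g) :
    twist g (T.coordFun σ t l) = T.coordFun (g * σ) t l := by
  funext m
  rw [twist_apply, coordFun, coordFun, T.smul_coord, smul_inv_smul]

theorem finite_coordRing {κ : Type} [Fintype κ] (ω : κ → Qbar)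
    (hω : ∀ j, IsIntegralFixed ℓ T.N (ω j)) : Module.Finite O (T.coordRing ω) := by
  have := T.finiteIndex
  have : Fintype (Γℚ ⧸ T.N) := Fintype.ofFinite _
  refine Module.Finite.iff_fg.mpr (fg_adjoin_of_finite
    ((Set.finite_range _).union (Set.finite_range _)) ?_)
  intro f hf
  have hf' : ∀ m, IsIntegral O (f m) := by
    rcases hf with ⟨p, rfl⟩ | ⟨j, rfl⟩
    · exact fun m => T.isIntegral_coord m _ _ _
    · exact fun _ => (T.isIntegralFixed_cst hω j).1
  exact isIntegral_pi hf'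

theorem twist_mem {κ : Type} (ω : κ → Qbar) (hω : ∀ j, IsIntegralFixed ℓ T.N (ω j))
    (g : Γℚ) {f : M → Qbar} (hf : f ∈ T.coordRing ω) : twist g f ∈ T.coordRing ω := by
  induction hf using Algebra.adjoin_induction with
  | mem f hf =>
    rcases hf with ⟨p, rfl⟩ | ⟨j, rfl⟩
    · rw [T.twist_coordFun]; exact T.coordFun_mem ω _ (by have := p.2.1.2; omega) _
    · rw [show twist g (fun _ : M => T.cst ω j) =
        fun _ : M => (g * j.1.out) • Sum.elim ω (fun q => T.coord 0 1 q.1 q.2) j.2 from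
        funext fun m => (mul_smul _ _ _).symm]
      exact T.const_mem hω _ _
  | algebraMap r =>
    rw [show twist g (algebraMap O (M → Qbar) r) = algebraMap O (M → Qbar) r from
      funext fun m => isFixedBase_galois.fixed g r]
    exact Subalgebra.algebraMap_mem _ r
  | add a b _ _ ha hb =>
    rw [show twist g (a + b) = twist g a + twist g b from funext fun m => smul_add _ _ _]
    exact add_mem ha hb
  | mul a b _ _ ha hb =>
    rw [show twist g (a * b) = twist g a * twist g b from funext fun m => smul_mul' _ _ _]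
    exact mul_mem ha hb

theorem twist_eq {κ : Type} (ω : κ → Qbar) (hω : ∀ j, IsIntegralFixed ℓ T.N (ω j))
    {g : Γℚ} (hg : g ∈ T.N) {f : M → Qbar} (hf : f ∈ T.coordRing ω) : twist g f = f := by
  induction hf using Algebra.adjoin_induction with
  | mem f hf =>
    rcases hf with ⟨p, rfl⟩ | ⟨j, rfl⟩
    · rw [T.twist_coordFun]
      have h : (p.1.out)⁻¹ * (g * p.1.out) ∈ T.N := by
        simpa [mul_assoc] using T.normal.conj_mem g hg (p.1.out)⁻¹
      exact funext fun m => congr_fun (congr_fun (T.coord_congr m h) _) _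
    · exact funext fun m => (T.isIntegralFixed_cst hω j).2 g hg
  | algebraMap r => exact funext fun m => isFixedBase_galois.fixed g r
  | add a b _ _ ha hb =>
    rw [show twist g (a + b) = twist g a + twist g b from funext fun m => smul_add _ _ _, ha, hb]
  | mul a b _ _ ha hb =>
    rw [show twist g (a * b) = twist g a * twist g b from funext fun m => smul_mul' _ _ _, ha, hb]

theorem exists_comul_coordFun {κ : Type} [Fintype κ] (ω : κ → Qbar)
    (hω : ∀ j, IsIntegralFixed ℓ T.N (ω j)) (σ : Γℚ) :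
    ∀ t, t ≤ 5 * S.g → ∀ l, (fun q : M × M => T.coord (q.1 + q.2) σ t l) ∈
      (eval₂ (T.coordRing ω)).range := by
  have hfin := T.finite_coordRing ω hω
  refine S.integral_law (T := M × M) (eval₂ (T.coordRing ω)).range (finite_range_eval₂ _ hfin)
    (fun q => T.div q.1 σ) (fun q => T.div q.2 σ) (fun q => T.div (q.1 + q.2) σ)
    (fun _ => T.div 0 σ) (fun q => T.coord q.1 σ) (fun q => T.coord q.2 σ)
    (fun _ => T.coord 0 σ) (fun q => T.coord (q.1 + q.2) σ)
    (fun q => T.everywhereGood _ _) (fun q => T.everywhereGood _ _) (fun q => T.everywhereGood _ _)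
    (fun q => T.everywhereGood _ _) (fun q => T.isCoord _ _) (fun q => T.isCoord _ _)
    (fun q => T.isCoord _ _) (fun q => T.isCoord _ _) ?_ ?_ ?_ ?_
  · intro q
    have h1 : ((lift Φ q.1 : Divisor Qbar F) + lift Φ q.2 - lift Φ (q.1 + q.2) - lift Φ 0) ∈
        Divisor.principal (K := Qbar) (F := F) := by
      have e : Pic0.mk (lift Φ q.1 + lift Φ q.2) = Pic0.mk (lift Φ (q.1 + q.2) + lift Φ 0) := by
        rw [Pic0.mk_add, Pic0.mk_add, mk_lift, mk_lift, mk_lift, mk_lift, map_add, map_zero,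
          add_zero]
      have := QuotientAddGroup.eq_iff_sub_mem.mp e
      rw [AddSubgroup.mem_addSubgroupOf, AddSubgroupClass.coe_sub, AddSubgroup.coe_add,
        AddSubgroup.coe_add, ← sub_sub] at this
      exact this
    have h2 := sub_mem (sub_mem (add_mem (T.div_spec q.1 σ) (T.div_spec q.2 σ))
      (T.div_spec (q.1 + q.2) σ)) (T.div_spec 0 σ)
    have h3 := add_mem h1 h2
    have e : ((lift Φ q.1 : Divisor Qbar F) + lift Φ q.2 - lift Φ (q.1 + q.2) - lift Φ 0) +
        ((T.div q.1 σ - ((lift Φ q.1 : Divisor Qbar F) + S.act σ • T.C)) +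
          (T.div q.2 σ - ((lift Φ q.2 : Divisor Qbar F) + S.act σ • T.C)) -
          (T.div (q.1 + q.2) σ - ((lift Φ (q.1 + q.2) : Divisor Qbar F) + S.act σ • T.C)) -
          (T.div 0 σ - ((lift Φ 0 : Divisor Qbar F) + S.act σ • T.C))) =
        T.div q.1 σ + T.div q.2 σ - T.div (q.1 + q.2) σ - T.div 0 σ := by abel
    rw [e] at h3
    exact h3
  · intro i hi l
    exact ⟨⟨_, T.coordFun_mem ω σ (show i ≤ 5 * S.g by omega) l⟩ ⊗ₜ[O] 1, funext fun q => by
      simp [eval₂_tmul, coordFun]⟩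
  · intro i hi l
    exact ⟨1 ⊗ₜ[O] ⟨_, T.coordFun_mem ω σ (show i ≤ 5 * S.g by omega) l⟩, funext fun q => by
      simp [eval₂_tmul, coordFun]⟩
  · intro i hi l
    refine ⟨⟨fun _ => T.coord 0 σ i l, ?_⟩ ⊗ₜ[O] 1, funext fun q => by simp [eval₂_tmul]⟩
    have h := T.const_mem hω σ (Sum.inr (⟨i, by omega⟩, l))
    simpa [T.smul_coord] using h

theorem exists_comul {κ : Type} [Fintype κ] (ω : κ → Qbar)
    (hω : ∀ j, IsIntegralFixed ℓ T.N (ω j)) {f : M → Qbar} (hf : f ∈ T.coordRing ω) :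
    ∃ x : T.coordRing ω ⊗[O] T.coordRing ω, ∀ q, eval₂ (T.coordRing ω) x q = f (q.1 + q.2) := by
  induction hf using Algebra.adjoin_induction with
  | mem f hf =>
    rcases hf with ⟨p, rfl⟩ | ⟨j, rfl⟩
    · obtain ⟨x, hx⟩ := T.exists_comul_coordFun ω hω p.1.out p.2.1 (by
        have := p.2.1.2; omega) p.2.2
      exact ⟨x, fun q => congr_fun hx q⟩
    · exact ⟨⟨fun _ => T.cst ω j, Algebra.subset_adjoin (Or.inr ⟨j, rfl⟩)⟩ ⊗ₜ[O] 1, fun q => by simp [eval₂_tmul]⟩
  | algebraMap r => exact ⟨algebraMap O _ r, fun q => by rw [AlgHom.commutes]; rfl⟩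
  | add a b _ _ ha hb =>
    obtain ⟨x, hx⟩ := ha
    obtain ⟨y, hy⟩ := hb
    exact ⟨x + y, fun q => by simp [hx, hy]⟩
  | mul a b _ _ ha hb =>
    obtain ⟨x, hx⟩ := ha
    obtain ⟨y, hy⟩ := hb
    exact ⟨x * y, fun q => by simp [hx, hy]⟩

theorem separates {κ : Type} (ω : κ → Qbar) {z w : M}
    (h : ∀ f ∈ T.coordRing ω, f z = f w) : z = w := by
  refine T.div_injective 1 (S.BL.eq_of_coord_eq S.hF (T.isGood z 1) (T.isGood w 1)
    (T.isCoord z 1) (T.isCoord w 1) fun t ht => funext fun l => ?_)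
  exact h _ (T.coordFun_mem ω 1 (show t ≤ 5 * S.g by omega) l)

theorem value_mem (hℓ : ℓ.Prime) (hA₀ : A₀.LiesOverPrime ℓ) {H : Subalgebra O (M → Qbar)} (hH : Module.Finite O H) {f : M → Qbar}
    (hf : f ∈ H) (m : M) : f m ∈ A₀ := by
  have : Module.Finite O H := hH
  refine mem_of_isIntegral_localBase hℓ A₀ hA₀ ?_
  exact (IsIntegral.of_finite O (⟨f, hf⟩ : H)).map
    ((Pi.evalAlgHom O (fun _ : M => Qbar) m).comp H.val)

/-- Classes with principal reduction have the coordinates of the origin modulo the place. -/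
theorem coord_sub_mem_nonunits {m : M} {X : Divisor.degZero (K := Qbar) (F := F)}
    (hX : Pic0.mk X = Φ.map m)
    (hred : S.red X ∈
      Divisor.principal (K := IsLocalRing.ResidueField A₀) (F := Fb))
    (σ : Γℚ) (t : ℕ) (l : Fin S.g) :
    T.coord m σ t l - T.coord 0 σ t l ∈ A₀.nonunits := by
  obtain ⟨i₁, j₁⟩ := S.coord_integral (T.everywhereGood m σ).good_red (T.isCoord m σ)
  obtain ⟨i₀, j₀⟩ := S.coord_integral (T.everywhereGood 0 σ).good_red (T.isCoord 0 σ)
  have hd : S.red (T.div m σ) = S.red (T.div 0 σ) := by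
    refine (T.everywhereGood 0 σ).good_red.eq_of_principal S.hB
      (T.everywhereGood m σ).good_red.nonneg ?_
    have hm : T.div m σ - ((X : Divisor Qbar F) + S.act σ • T.C) ∈
        Divisor.principal (K := Qbar) (F := F) := by
      have h1 := QuotientAddGroup.eq_iff_sub_mem.mp ((mk_lift Φ m).trans hX.symm)
      rw [AddSubgroup.mem_addSubgroupOf, AddSubgroupClass.coe_sub] at h1
      have h2 := add_mem (T.div_spec m σ) h1
      have e : T.div m σ - ((lift Φ m : Divisor Qbar F) + S.act σ • T.C) +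
          ((lift Φ m : Divisor Qbar F) - X) =
          T.div m σ - ((X : Divisor Qbar F) + S.act σ • T.C) := by abel
      rwa [e] at h2
    have h0 : T.div 0 σ - S.act σ • T.C ∈ Divisor.principal (K := Qbar) (F := F) := by
      have h1 : (lift Φ 0 : Divisor Qbar F) ∈ Divisor.principal (K := Qbar) (F := F) := by
        have := (QuotientAddGroup.eq_zero_iff _).mp ((mk_lift Φ 0).trans (map_zero Φ.map))
        rwa [AddSubgroup.mem_addSubgroupOf] at this
      have h2 := add_mem (T.div_spec 0 σ) h1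
      have e : T.div 0 σ - ((lift Φ 0 : Divisor Qbar F) + S.act σ • T.C) + (lift Φ 0 : Divisor Qbar F)
          = T.div 0 σ - S.act σ • T.C := by abel
      rwa [e] at h2
    have e1 : T.div m σ - T.div 0 σ - (X : Divisor Qbar F) =
        (T.div m σ - ((X : Divisor Qbar F) + S.act σ • T.C)) -
          (T.div 0 σ - S.act σ • T.C) := by abel
    obtain ⟨f, hf, hfd⟩ := S.red_principal (e1 ▸ sub_mem hm h0)
    have h3 : S.red (T.div m σ - T.div 0 σ - (X : Divisor Qbar F)) ∈
        Divisor.principal (K := IsLocalRing.ResidueField A₀) (F := Fb) := ⟨f, hf, hfd⟩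
    have h4 := add_mem h3 hred
    rwa [S.red_sub, S.red_sub, sub_add_cancel] at h4
  rw [hd] at j₁
  have h5 := congr_fun (congr_fun (S.Bk.coord_unique (T.everywhereGood 0 σ).good_red j₁ j₀) t) l
  have h6 := sub_eq_zero.mpr h5
  rw [← map_sub, IsLocalRing.residue_eq_zero_iff] at h6
  exact (ValuationSubring.coe_mem_nonunits_iff (a := (⟨_, i₁ t l⟩ - ⟨_, i₀ t l⟩ : A₀))).mpr h6

theorem sub_mem_nonunits_of_red {κ : Type} [Fintype κ] (ω : κ → Qbar)
    (hω : ∀ j, IsIntegralFixed ℓ T.N (ω j)) {m : M} {X : Divisor.degZero (K := Qbar) (F := F)}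
    (hX : Pic0.mk X = Φ.map m)
    (hred : S.red X ∈
      Divisor.principal (K := IsLocalRing.ResidueField A₀) (F := Fb))
    {f : M → Qbar} (hf : f ∈ T.coordRing ω) : f m - f 0 ∈ A₀.nonunits := by
  have h0 : (0 : Qbar) ∈ A₀.nonunits :=
    (ValuationSubring.coe_mem_nonunits_iff (a := (0 : A₀))).mpr (zero_mem _)
  induction hf using Algebra.adjoin_induction with
  | mem f hf =>
    rcases hf with ⟨p, rfl⟩ | ⟨p, rfl⟩
    · exact T.coord_sub_mem_nonunits hX hred _ _ _
    · rwa [sub_self]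
  | algebraMap r =>
    rw [show algebraMap O (M → Qbar) r m - algebraMap O (M → Qbar) r 0 = 0 from sub_self _]
    exact h0
  | add a b _ _ ha hb =>
    have h := add_mem
      (ValuationSubring.coe_mem_nonunits_iff (a := ⟨_, A₀.nonunits_subset ha⟩).mp ha)
      (ValuationSubring.coe_mem_nonunits_iff (a := ⟨_, A₀.nonunits_subset hb⟩).mp hb)
    rw [show (a + b) m - (a + b) 0 = (a m - a 0) + (b m - b 0) from add_sub_add_comm _ _ _ _]
    exact ValuationSubring.coe_mem_nonunits_iff.mpr h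
  | mul a b hma hmb ha hb =>
    have hfin := T.finite_coordRing ω hω
    have h := add_mem
      (Ideal.mul_mem_left _ ⟨b m, value_mem hℓ hA₀ hfin hmb m⟩
        (ValuationSubring.coe_mem_nonunits_iff (a := ⟨_, A₀.nonunits_subset ha⟩).mp ha))
      (Ideal.mul_mem_left _ ⟨a 0, value_mem hℓ hA₀ hfin hma 0⟩
        (ValuationSubring.coe_mem_nonunits_iff (a := ⟨_, A₀.nonunits_subset hb⟩).mp hb))
    rw [show (a * b) m - (a * b) 0 = b m * (a m - a 0) + a 0 * (b m - b 0) by
      simp only [Pi.mul_apply]; ring]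
    exact ValuationSubring.coe_mem_nonunits_iff.mpr h

/-- **The integral model of the module.** -/
theorem exists_model (T : Translation Φ) :
    ∃ H : Subalgebra O (M → Qbar), Module.Finite O H ∧
      (∀ (f : H) (g : Γℚ) (z : M), (f : M → Qbar) (g • z) = g • (f : M → Qbar) z) ∧
      Submodule.span Qbar (H : Set (M → Qbar)) = ⊤ ∧
      (∀ f : H, ∃ x : H ⊗[O] H, ∀ q, eval₂ H x q = (f : M → Qbar) (q.1 + q.2)) ∧
      ∀ (m : M) (X : Divisor.degZero (K := Qbar) (F := F)), Pic0.mk X = Φ.map m →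
        S.red X ∈ Divisor.principal (K := IsLocalRing.ResidueField A₀) (F := Fb) →
        ∀ f ∈ H, f m - f 0 ∈ A₀.nonunits := by
  have := faithfulSMul_localBase ℓ
  have := T.normal
  have := T.finiteIndex
  obtain ⟨κ, hκ, ω, ω', hω, hω', h1, h0⟩ :=
    exists_dual_pair hℓ A₀ hA₀ T.N T.unramified
  let c : κ ⊕ κ → Qbar := Sum.elim ω ω'
  have hc : ∀ j, IsIntegralFixed ℓ T.N (c j) := Sum.forall.mpr ⟨hω, hω'⟩
  obtain ⟨H, hle, hfin, heq, hspan, hcomul⟩ :=
    exists_equivariantModel_of_descent (isFixedBase_galois (ℓ := ℓ)) (T.coordRing c)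
      (T.finite_coordRing c hc) T.N (fun g f hf => T.twist_mem c hc g hf)
      (fun g hg f hf => T.twist_eq c hc hg hf) ω ω'
      (fun j => T.omega_mem hc (Sum.inl j)) (fun j => T.omega_mem hc (Sum.inr j)) h1 h0
      (fun z w h => T.separates c h) (fun f => T.exists_comul c hc f.2)
  exact ⟨H, hfin, heq, hspan, hcomul,
    fun m X hX hred f hf => T.sub_mem_nonunits_of_red c hc hX hred (hle hf)⟩

end Translation

end SpecData

end FermatLib.Igusa.TorsionModel
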