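import Fermat.Agent.Igusa.TorsionModel.IntegralLaw

/-!
# Effective representatives of divisor classes
-/

set_option autoImplicit false
set_option linter.unusedSectionVars false

noncomputable section

open AlgebraicCurve

namespace FermatLib.Igusa.TorsionModel

variable {K F : Type*} [Field K] [Field F] [Algebra K F] {g : ℕ}

theorem IsGood.exists_eq_algebraMap (hF : RRField K F g) {P₀ : Place K F} {D : Divisor K F}
    (h : IsGood g P₀ D) {f : F} (hf : f ∈ riemannRochSpace D) :
    ∃ c, f = algebraMap K F c := by
  rcases eq_or_ne f 0 with rfl | hf0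
  · exact ⟨0, (map_zero _).symm⟩
  obtain ⟨c, hc⟩ := exists_hasValueAt (hF.deg_one P₀) (f := f) (by
    right
    have := (mem_space_iff.mp hf).resolve_left hf0 P₀
    rw [h.apply_base] at this
    omega)
  refine ⟨c, ?_⟩
  rcases hc with hc | hc
  · exact hc
  exfalso
  have hmem : f - algebraMap K F c ∈ riemannRochSpace D := by
    refine Submodule.sub_mem _ hf ?_
    rw [← mul_one (algebraMap K F c), ← Algebra.smul_def]
    exact Submodule.smul_mem _ _ (one_mem_riemannRochSpace h.nonneg)
  have hne : f - algebraMap K F c ≠ 0 := fun e => by simp [e] at hc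
  have : f - algebraMap K F c ∈ riemannRochSpace (D - atBase P₀ 1) := by
    refine mem_space_iff.mpr (Or.inr fun v => ?_)
    have h3 := (mem_space_iff.mp hmem).resolve_left hne v
    rw [Finsupp.sub_apply]
    rcases eq_or_ne v P₀ with rfl | hv
    · rw [Finsupp.single_eq_same, h.apply_base]; omega
    · rw [Finsupp.single_eq_of_ne hv]; omega
  rw [h.nonspecial, Submodule.mem_bot] at this
  exact hne this

/-- A good divisor is the only effective divisor in its class. -/
theorem IsGood.eq_of_principal (hF : RRField K F g) {P₀ : Place K F} {D E : Divisor K F}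
    (h : IsGood g P₀ D) (hE : 0 ≤ E) (hp : E - D ∈ Divisor.principal (K := K) (F := F)) :
    E = D := by
  obtain ⟨f, hf, hdiv⟩ := hp
  have hmem : f ∈ riemannRochSpace D := by
    refine mem_space_iff.mpr (Or.inr fun v => ?_)
    have h1 := Finsupp.le_def.mp hE v
    have h2 := hdiv v
    rw [Finsupp.sub_apply] at h2
    simp only [Finsupp.coe_zero, Pi.zero_apply] at h1
    omega
  obtain ⟨c, rfl⟩ := h.exists_eq_algebraMap hF hmem
  refine sub_eq_zero.mp (Finsupp.ext fun v => ?_)
  rw [hdiv, ord_algebraMap]
  rfl

/-- Every class of degree at least `g` has an effective member. -/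
theorem exists_effective_equiv (hF : RRField K F g) {X : Divisor K F}
    (hX : (g : ℤ) ≤ Divisor.degree X) :
    ∃ E : Divisor K F, 0 ≤ E ∧ E - X ∈ Divisor.principal (K := K) (F := F) := by
  haveI := hF.finite_space X
  have h := le_finrank_space hF X
  have hne : riemannRochSpace X ≠ ⊥ := fun e => by
    rw [e, finrank_bot] at h
    omega
  obtain ⟨f, hf, hf0⟩ := Submodule.exists_mem_ne_zero_of_ne_bot hne
  obtain ⟨Df, hDf, -⟩ := hF.exists_div hf0
  refine ⟨X + Df, Finsupp.le_def.mpr fun v => ?_, f, hf0, fun v => ?_⟩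
  · have h1 := (mem_space_iff.mp hf).resolve_left hf0 v
    rw [Finsupp.add_apply, hDf, Finsupp.coe_zero, Pi.zero_apply]
    omega
  · rw [add_sub_cancel_left, hDf]

/-- Good divisors with the same first coordinates are equal. -/
theorem NormalBasis.eq_of_coord_eq (hF : RRField K F g) {P₀ : Place K F}
    (B : NormalBasis K F g P₀) {D D' : Divisor K F} (hD : IsGood g P₀ D) (hD' : IsGood g P₀ D')
    {c c' : ℕ → Fin g → K} (hc : B.IsCoord D c) (hc' : B.IsCoord D' c')
    (h : ∀ t, t ≤ g → c t = c' t) : D = D' := by
  have key : ∀ (E E' : Divisor K F) (e e' : ℕ → Fin g → K), IsGood g P₀ E → IsGood g P₀ E' →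
      B.IsCoord E e → B.IsCoord E' e' → (∀ t, t ≤ g → e t = e' t) → ∀ v, v ≠ P₀ → E' v ≤ E v := by
    intro E E' e e' hE hE' he he' heq v hv
    obtain ⟨d, hd, hdv⟩ := LawData.exists_exact_reduced hF hE he hv
    have hmem : ∑ t, d t • B.reduced (e t) t ∈
        riemannRochSpace (atBase P₀ (3 * g) - E') := by
      refine Submodule.sum_mem _ fun t _ => Submodule.smul_mem _ _ ?_
      rw [heq t (Nat.le_of_lt_succ t.2)]
      exact riemannRochSpace_mono
        (sub_le_sub_right (Finsupp.single_mono (by have := t.2; omega)) _) (he' t)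
    have h1 := (mem_space_iff.mp hmem).resolve_left hd v
    rw [Finsupp.sub_apply, Finsupp.single_eq_of_ne hv, hdv] at h1
    omega
  refine Finsupp.ext fun v => ?_
  rcases eq_or_ne v P₀ with rfl | hv
  · rw [hD.apply_base, hD'.apply_base]
  · exact le_antisymm (key D' D c' c hD' hD hc' hc (fun t ht => (h t ht).symm) v hv)
      (key D D' c c' hD hD' hc hc' h v hv)

end FermatLib.Igusa.TorsionModel
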