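import Fermat.Agent.Igusa.TorsionModel.FunctionHopf
import Mathlib.RingTheory.IntegralClosure.IntegrallyClosed
import Mathlib.RingTheory.PrincipalIdealDomain
import Mathlib.GroupTheory.OrderOfElement
import Mathlib.RingTheory.Polynomial.RationalRoot

/-!
# Hopf algebras of equivariant functions
-/

set_option autoImplicit false
set_option linter.unusedSectionVars false

noncomputable section

open scoped TensorProduct
open WithConv

namespace FermatLib.Igusa.TorsionModel

variable {O L M G : Type*} [CommRing O] [IsDomain O] [IsPrincipalIdealRing O]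
  [Field L] [Algebra O L] [FaithfulSMul O L] [AddCommGroup M] [Finite M]
  [Group G] [MulSemiringAction G L] [MulAction G M]

/-- The standing hypotheses on the coefficient group: it fixes `O` and its fixed elements are
fractions of `O`. -/
structure IsFixedBase (O L G : Type*) [CommRing O] [Field L] [Algebra O L] [Group G]
    [MulSemiringAction G L] : Prop where
  fixed : ∀ (g : G) (r : O), g • algebraMap O L r = algebraMap O L r
  exists_frac : ∀ x : L, (∀ g : G, g • x = x) →
    ∃ r s : O, s ≠ 0 ∧ algebraMap O L s * x = algebraMap O L r

/-- Independence over `O` of equivariant functions implies independence over `L`. -/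
theorem linearIndependent_of_equivariant (hb : IsFixedBase O L G) {ι : Type*} (v : ι → M → L)
    (heq : ∀ i (g : G) (z : M), v i (g • z) = g • v i z) (hv : LinearIndependent O v) :
    LinearIndependent L v := by
  classical
  rw [linearIndependent_iff']
  intro s
  induction s using Finset.induction_on with
  | empty => simp
  | insert a s has ih =>
    intro c hc
    by_cases hca : c a = 0
    · rw [Finset.sum_insert has, hca, zero_smul, zero_add] at hc
      intro i hi
      rcases Finset.mem_insert.mp hi with rfl | hi
      · exact hca
      · exact ih c hc i hi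
    exfalso
    set d : ι → L := fun i => (c a)⁻¹ * c i with hd
    have hda : d a = 1 := by simp [hd, hca]
    have hd0 : ∀ z : M, ∑ i ∈ insert a s, d i * v i z = 0 := by
      intro z
      have h1 := congr_fun hc z
      simp only [Finset.sum_apply, Pi.smul_apply, smul_eq_mul, Pi.zero_apply] at h1
      simp only [hd, mul_assoc, ← Finset.mul_sum, h1, mul_zero]
    have hfix : ∀ (g : G), ∀ i ∈ s, g • d i = d i := by
      intro g i hi
      have h2 : ∑ j ∈ s, (g • d j - d j) • v j = 0 := by
        funext z
        simp only [Finset.sum_apply, Pi.smul_apply, smul_eq_mul, Pi.zero_apply]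
        have h3 : ∑ j ∈ insert a s, (g • d j) * v j z = 0 := by
          have h4 := congrArg (g • ·) (hd0 (g⁻¹ • z))
          simp only [Finset.smul_sum, smul_mul', smul_zero] at h4
          rw [← h4]
          refine Finset.sum_congr rfl fun j _ => ?_
          rw [← heq, smul_inv_smul]
        have h5 := congrArg₂ (· - ·) h3 (hd0 z)
        simp only [sub_zero, ← Finset.sum_sub_distrib, ← sub_mul] at h5
        rw [Finset.sum_insert has, hda, smul_one, sub_self, zero_mul, zero_add] at h5
        exact h5
      exact sub_eq_zero.mp (ih _ h2 i hi)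
    have hfrac : ∀ i ∈ insert a s, ∃ r t : O, t ≠ 0 ∧
        algebraMap O L t * d i = algebraMap O L r := by
      intro i hi
      refine hb.exists_frac _ fun g => ?_
      rcases Finset.mem_insert.mp hi with rfl | hi
      · simp [hda]
      · exact hfix g i hi
    choose! r t ht hrt using hfrac
    set P := ∏ i ∈ insert a s, t i with hP
    have hP0 : P ≠ 0 := Finset.prod_ne_zero_iff.mpr ht
    set e : ι → O := fun i => (∏ j ∈ (insert a s).erase i, t j) * r i with he
    have hed : ∀ i ∈ insert a s, algebraMap O L (e i) = algebraMap O L P * d i := by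
      intro i hi
      rw [hP, ← Finset.prod_erase_mul _ _ hi, he, map_mul, map_mul, mul_assoc, hrt i hi]
    have hrel : ∑ i ∈ insert a s, e i • v i = 0 := by
      funext z
      simp only [Finset.sum_apply, Pi.smul_apply, Pi.zero_apply]
      calc ∑ i ∈ insert a s, e i • v i z
          = ∑ i ∈ insert a s, algebraMap O L P * (d i * v i z) :=
            Finset.sum_congr rfl fun i hi => by rw [Algebra.smul_def, hed i hi, mul_assoc]
        _ = 0 := by rw [← Finset.mul_sum, hd0, mul_zero]
    have hea := linearIndependent_iff'.mp hv _ e hrel a (Finset.mem_insert_self a s)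
    have h6 := hed a (Finset.mem_insert_self a s)
    rw [hea, map_zero, hda, mul_one] at h6
    exact hP0 (FaithfulSMul.algebraMap_injective O L (by rw [map_zero]; exact h6.symm))

variable {H : Subalgebra O (M → L)}

/-- The value at zero of an equivariant integral function lies in the base. -/
theorem exists_algebraMap_eq_eval_zero (hb : IsFixedBase O L G) [Module.Finite O H]
    (h0 : ∀ g : G, g • (0 : M) = 0)
    (heq : ∀ (f : H) (g : G) (z : M), (f : M → L) (g • z) = g • (f : M → L) z) (f : H) :
    ∃ a : O, algebraMap O L a = (f : M → L) 0 := by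
  have hfix : ∀ g : G, g • (f : M → L) 0 = (f : M → L) 0 := fun g => by rw [← heq, h0]
  obtain ⟨r, s, hs, hrs⟩ := hb.exists_frac _ hfix
  have hint : IsIntegral O ((f : M → L) 0) := (IsIntegral.of_finite O f).map (evalPt H 0)
  let K := FractionRing O
  let _ : Algebra K L := FractionRing.liftAlgebra O L
  have : IsScalarTower O K L := FractionRing.isScalarTower_liftAlgebra O L
  set y : K := algebraMap O K r / algebraMap O K s with hy
  have hs' : algebraMap O L s ≠ 0 := fun h =>
    hs (FaithfulSMul.algebraMap_injective O L (by rw [map_zero]; exact h))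
  have hxy : algebraMap K L y = (f : M → L) 0 := by
    rw [hy, map_div₀, ← IsScalarTower.algebraMap_apply, ← IsScalarTower.algebraMap_apply,
      div_eq_iff hs', mul_comm, hrs]
  have hyint : IsIntegral O y := by
    rw [← isIntegral_algHom_iff (IsScalarTower.toAlgHom O K L) (algebraMap K L).injective]
    simpa [hxy] using hint
  obtain ⟨a, ha⟩ := IsIntegrallyClosed.isIntegral_iff.mp hyint
  exact ⟨a, by rw [IsScalarTower.algebraMap_apply O K L, ha, hxy]⟩

/-- A finite ring of equivariant functions, closed under comultiplication, is a Hopf ring. -/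
theorem isHopfFunctions_of_equivariant (hb : IsFixedBase O L G) (hfin : Module.Finite O H)
    (h0 : ∀ g : G, g • (0 : M) = 0)
    (heq : ∀ (f : H) (g : G) (z : M), (f : M → L) (g • z) = g • (f : M → L) z)
    (hadd : ∀ f : H, ∃ x : H ⊗[O] H, ∀ q, eval₂ H x q = (f : M → L) (q.1 + q.2)) :
    IsHopfFunctions H := by
  have htf : Module.IsTorsionFree O H := by
    have : Module.IsTorsionFree O (M → L) := inferInstance
    exact Function.Injective.moduleIsTorsionFree (H.val : H → (M → L)) Subtype.val_injective
      fun r x => rfl
  haveI := htf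
  haveI := hfin
  obtain ⟨n, b⟩ := Module.basisOfFiniteTypeTorsionFree' (R := O) (M := H)
  refine ⟨‹_›, ⟨n, b, ?_⟩, hadd, ?_, ?_⟩
  · refine linearIndependent_of_equivariant hb _ (fun i => heq (b i)) ?_
    exact b.linearIndependent.map' H.val.toLinearMap
      (LinearMap.ker_eq_bot.mpr Subtype.val_injective)
  · exact fun f => exists_algebraMap_eq_eval_zero hb h0 heq f
  · intro f
    have key : ∀ k : ℕ, ∀ f : H, (fun z => (f : M → L) (k • z)) ∈ H := by
      intro k
      induction k with
      | zero =>
        intro f
        obtain ⟨r, hr⟩ := exists_algebraMap_eq_eval_zero hb h0 heq f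
        have : (fun z : M => (f : M → L) (0 • z)) = algebraMap O (M → L) r := by
          funext z; simp [hr]
        rw [this]
        exact H.algebraMap_mem r
      | succ k ih =>
        intro f
        obtain ⟨x, hx⟩ := hadd f
        have : ∀ x : H ⊗[O] H, (fun z : M => eval₂ H x (k • z, z)) ∈ H := by
          intro x
          induction x using TensorProduct.induction_on with
          | zero => simp only [map_zero]; exact H.zero_mem
          | tmul u v =>
            have h1 : (fun z : M => eval₂ H (u ⊗ₜ v) (k • z, z))
                = (fun z => (u : M → L) (k • z)) * (v : M → L) := by funext z; simp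
            rw [h1]
            exact H.mul_mem (ih u) v.2
          | add u v hu hv =>
            have h1 : (fun z : M => eval₂ H (u + v) (k • z, z))
                = (fun z => eval₂ H u (k • z, z)) + fun z => eval₂ H v (k • z, z) := by
              funext z; simp
            rw [h1]
            exact H.add_mem hu hv
        have h1 := this x
        simp only [hx, ← succ_nsmul] at h1
        exact h1
    obtain ⟨k, hk⟩ : ∃ k : ℕ, ∀ z : M, k • z = -z := by
      refine ⟨Nat.card M - 1, fun z => ?_⟩
      have h1 : (Nat.card M - 1 + 1) • z = 0 := by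
        rw [Nat.sub_add_cancel Nat.card_pos, card_nsmul_eq_zero']
      rw [succ_nsmul] at h1
      exact eq_neg_of_add_eq_zero_left h1
    simpa only [hk] using key k f

/-- **The Hopf algebra model attached to a ring of equivariant functions.** -/
theorem exists_hopfModel_of_functions {O L M G : Type} [CommRing O] [IsDomain O]
    [IsPrincipalIdealRing O] [Field L] [Algebra O L] [FaithfulSMul O L] [AddCommGroup M]
    [Finite M] [Group G] [MulSemiringAction G L] [MulAction G M]
    (hb : IsFixedBase O L G) (H : Subalgebra O (M → L)) (hfin : Module.Finite O H)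
    (h0 : ∀ g : G, g • (0 : M) = 0)
    (heq : ∀ (f : H) (g : G) (z : M), (f : M → L) (g • z) = g • (f : M → L) z)
    (hspan : Submodule.span L (H : Set (M → L)) = ⊤)
    (hadd : ∀ f : H, ∃ x : H ⊗[O] H, ∀ q, eval₂ H x q = (f : M → L) (q.1 + q.2)) :
    ∃ (A : Type) (_ : CommRing A) (_ : HopfAlgebra O A),
      Module.Finite O A ∧ Module.Flat O A ∧ Coalgebra.IsCocomm O A ∧
      ∃ e : WithConv (A →ₐ[O] L) ≃ M,
        (∀ f g, e (f * g) = e f + e g) ∧
        ∀ (σ : G) (f g : WithConv (A →ₐ[O] L)),
          (∀ a : A, g a = σ • f a) → e g = σ • e f := by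
  have hH := isHopfFunctions_of_equivariant hb hfin h0 heq hadd
  letI := hH.bialgebra
  let e : WithConv (H →ₐ[O] L) ≃ M := (WithConv.equiv _).trans
    (Equiv.ofBijective _ ⟨hH.evalPt_injective hspan, hH.evalPt_surjective hspan⟩).symm
  have he : ∀ z : M, e (toConv (evalPt H z)) = z := fun z =>
    (Equiv.ofBijective _ ⟨hH.evalPt_injective hspan, hH.evalPt_surjective hspan⟩).symm_apply_apply z
  have hsurj : ∀ f : WithConv (H →ₐ[O] L), ∃ z : M, f = toConv (evalPt H z) := fun f => by
    obtain ⟨z, hz⟩ := hH.evalPt_surjective hspan f.ofConv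
    exact ⟨z, WithConv.ext hz.symm⟩
  obtain ⟨n, b, _⟩ := hH.exists_basis
  haveI : Module.Free O H := Module.Free.of_basis b
  refine ⟨H, inferInstance, hH.hopfAlgebra, hfin, inferInstance, hH.isCocomm, e, ?_, ?_⟩
  · intro f g
    obtain ⟨z, rfl⟩ := hsurj f
    obtain ⟨w, rfl⟩ := hsurj g
    rw [he, he]
    exact (congrArg e (hH.evalPt_add z w)).trans (he _)
  · intro σ f g hfg
    obtain ⟨z, rfl⟩ := hsurj f
    obtain ⟨w, rfl⟩ := hsurj g
    rw [he, he]
    refine hH.evalPt_injective hspan (AlgHom.ext fun a => ?_)
    rw [evalPt_apply, evalPt_apply, heq]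
    exact hfg a

end FermatLib.Igusa.TorsionModel
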