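import Mathlib.RingTheory.HopfAlgebra.Basic
import Mathlib.RingTheory.Bialgebra.Convolution
import Mathlib.RingTheory.Flat.Basic
import Mathlib.LinearAlgebra.FreeModule.PID
import Mathlib.LinearAlgebra.Basis.VectorSpace
import Mathlib.LinearAlgebra.TensorProduct.Basis

/-!
# Hopf algebras of functions on a finite group

`H` is a finite `O`-algebra of `L`-valued functions on a finite abelian group `M` such that an
`O`-basis of `H` is an `L`-basis of all functions, and `f (z + w)` lies in the image of `H ⊗ H`.
Then `H` is a commutative cocommutative Hopf algebra whose `L`-points are `M`.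
-/

set_option autoImplicit false

noncomputable section

set_option linter.unusedSectionVars false

open scoped TensorProduct
open WithConv

namespace FermatLib.Igusa.TorsionModel

/-- The products of two independent families of functions are independent on the product. -/
theorem linearIndependent_mul_prod {L X Y ι κ : Type*} [Field L]
    {f : ι → X → L} {g : κ → Y → L} (hf : LinearIndependent L f) (hg : LinearIndependent L g) :
    LinearIndependent L (fun p : ι × κ => fun q : X × Y => f p.1 q.1 * g p.2 q.2) := by
  classical
  rw [linearIndependent_iff']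
  intro s c hc
  have key : ∀ i : ι, ∀ j : κ, (i, j) ∈ s → c (i, j) = 0 := by
    intro i₀ j₀ hij
    set t : Finset ι := s.image Prod.fst with ht
    set u : Finset κ := s.image Prod.snd with hu
    let c' : ι × κ → L := fun p => if p ∈ s then c p else 0
    have hsub : s ⊆ t ×ˢ u := fun p hp => Finset.mem_product.mpr
      ⟨Finset.mem_image_of_mem _ hp, Finset.mem_image_of_mem _ hp⟩
    have hc' : ∀ x y, ∑ i ∈ t, ∑ j ∈ u, c' (i, j) * (f i x * g j y) = 0 := by
      intro x y
      rw [← Finset.sum_product', ← Finset.sum_subset hsub]
      · have := congr_fun hc (x, y)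
        simp only [Finset.sum_apply, Pi.smul_apply, smul_eq_mul, Pi.zero_apply] at this
        rw [← this]
        exact Finset.sum_congr rfl fun p hp => by simp only [c', if_pos hp, Prod.eta]
      · intro p _ hp
        simp only [c', if_neg hp, Prod.eta, zero_mul]
    have h1 : ∀ y, ∑ i ∈ t, (∑ j ∈ u, c' (i, j) * g j y) • f i = 0 := by
      intro y
      funext x
      simp only [Finset.sum_apply, Pi.smul_apply, smul_eq_mul, Pi.zero_apply]
      rw [← hc' x y]
      refine Finset.sum_congr rfl fun i _ => ?_
      rw [Finset.sum_mul]
      exact Finset.sum_congr rfl fun j _ => by ring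
    have h2 : ∑ j ∈ u, c' (i₀, j) • g j = 0 := by
      funext y
      simp only [Finset.sum_apply, Pi.smul_apply, smul_eq_mul, Pi.zero_apply]
      exact linearIndependent_iff'.mp hf t _ (h1 y) i₀ (Finset.mem_image.mpr ⟨_, hij, rfl⟩)
    have := linearIndependent_iff'.mp hg u _ h2 j₀ (Finset.mem_image.mpr ⟨_, hij, rfl⟩)
    simpa [c', hij] using this
  rintro ⟨i, j⟩ hij
  exact key i j hij

/-- A linear map sending a basis to an independent family is injective. -/
theorem injective_of_linearIndependent_basis {R V W ι : Type*} [CommRing R] [CommRing V]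
    [Algebra R V] [CommRing W] [Algebra R W] (b : Module.Basis ι R V) (φ : V →ₐ[R] W)
    (h : LinearIndependent R (φ ∘ b)) : Function.Injective φ := by
  rw [injective_iff_map_eq_zero]
  intro x hx
  have h1 : Finsupp.linearCombination R (φ ∘ b) (b.repr x) = 0 := by
    have := Finsupp.apply_linearCombination R φ.toLinearMap b (b.repr x)
    rw [b.linearCombination_repr] at this
    simpa [hx] using this.symm
  have h2 := linearIndependent_iff.mp h _ h1
  exact b.repr.injective (by rw [h2, map_zero])

section Model

variable {O L M : Type*} [CommRing O] [Field L] [Algebra O L] [AddCommGroup M] [Finite M]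

variable (H : Subalgebra O (M → L))

/-- Evaluation at a point of the group. -/
def evalPt (z : M) : H →ₐ[O] L := (Pi.evalAlgHom O (fun _ : M => L) z).comp H.val

@[simp]
theorem evalPt_apply (z : M) (f : H) : evalPt H z f = (f : M → L) z := rfl

/-- The function on `M × M` attached to an element of `H ⊗ H`. -/
def eval₂ : H ⊗[O] H →ₐ[O] (M × M → L) :=
  Algebra.TensorProduct.lift (AlgHom.pi (R := O) fun q => evalPt H q.1)
    (AlgHom.pi (R := O) fun q => evalPt H q.2) fun _ _ => Commute.all _ _

@[simp]
theorem eval₂_tmul (f g : H) (q : M × M) :
    eval₂ H (f ⊗ₜ g) q = (f : M → L) q.1 * (g : M → L) q.2 := by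
  simp [eval₂]

/-- The function on `M × M × M` attached to an element of `H ⊗ (H ⊗ H)`. -/
def eval₃ : H ⊗[O] (H ⊗[O] H) →ₐ[O] (M × (M × M) → L) :=
  Algebra.TensorProduct.lift (AlgHom.pi (R := O) fun q => evalPt H q.1)
    (AlgHom.pi (R := O) fun q => ((Pi.evalAlgHom O (fun _ : M × M => L) q.2).comp (eval₂ H)))
    fun _ _ => Commute.all _ _

@[simp]
theorem eval₃_tmul (f : H) (g : H ⊗[O] H) (q : M × (M × M)) :
    eval₃ H (f ⊗ₜ g) q = (f : M → L) q.1 * eval₂ H g q.2 := by
  simp [eval₃]

variable {ι : Type*} (b : Module.Basis ι O H)

theorem eval₂_injective [FaithfulSMul O L]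
    (hb : LinearIndependent L (fun i => (b i : M → L))) :
    Function.Injective (eval₂ H) := by
  refine injective_of_linearIndependent_basis (R := O) (V := H ⊗[O] H) (W := M × M → L)
    (b.tensorProduct b) (eval₂ H) ?_
  refine LinearIndependent.restrict_scalars ?_ (?_ : LinearIndependent L _)
  · intro x y h
    exact FaithfulSMul.algebraMap_injective O L (by simpa [Algebra.smul_def] using h)
  · have h := linearIndependent_mul_prod (f := fun i => (b i : M → L))
      (g := fun i => (b i : M → L)) hb hb
    have e : (eval₂ H ∘ (b.tensorProduct b)) = fun p : ι × ι => fun q : M × M =>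
        (b p.1 : M → L) q.1 * (b p.2 : M → L) q.2 := by
      funext p q
      simp [Module.Basis.tensorProduct_apply']
    rw [e]
    exact h

theorem eval₃_injective [FaithfulSMul O L]
    (hb : LinearIndependent L (fun i => (b i : M → L))) :
    Function.Injective (eval₃ H) := by
  refine injective_of_linearIndependent_basis (R := O) (V := H ⊗[O] (H ⊗[O] H))
    (W := M × (M × M) → L) (b.tensorProduct (b.tensorProduct b)) (eval₃ H) ?_
  refine LinearIndependent.restrict_scalars ?_ (?_ : LinearIndependent L _)
  · intro x y h
    exact FaithfulSMul.algebraMap_injective O L (by simpa [Algebra.smul_def] using h)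
  · have h₂ := linearIndependent_mul_prod (X := M) (Y := M) (f := fun i => (b i : M → L))
      (g := fun i => (b i : M → L)) hb hb
    have h := linearIndependent_mul_prod (X := M) (Y := M × M) hb h₂
    have e : (eval₃ H ∘ (b.tensorProduct (b.tensorProduct b))) = fun p : ι × (ι × ι) =>
        fun q : M × (M × M) =>
          (b p.1 : M → L) q.1 * ((b p.2.1 : M → L) q.2.1 * (b p.2.2 : M → L) q.2.2) := by
      funext ⟨i, j, k⟩ q
      rw [Function.comp_apply, Module.Basis.tensorProduct_apply,
        Module.Basis.tensorProduct_apply, eval₃_tmul, eval₂_tmul]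
    rw [e]
    exact h

/-- The hypotheses making a ring of functions into a Hopf algebra. -/
structure IsHopfFunctions : Prop where
  faithful : FaithfulSMul O L
  exists_basis : ∃ (n : ℕ) (b : Module.Basis (Fin n) O H),
    LinearIndependent L (fun i => (b i : M → L))
  add_mem : ∀ f : H, ∃ x : H ⊗[O] H, ∀ q, eval₂ H x q = (f : M → L) (q.1 + q.2)
  zero_mem : ∀ f : H, ∃ a : O, algebraMap O L a = (f : M → L) 0
  neg_mem : ∀ f : H, (fun z => (f : M → L) (-z)) ∈ H

namespace IsHopfFunctions

variable {H} (h : IsHopfFunctions H)
include h

theorem inj₂ : Function.Injective (eval₂ H) := by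
  haveI := h.faithful
  obtain ⟨n, b, hb⟩ := h.exists_basis
  exact eval₂_injective H b hb

theorem inj₃ : Function.Injective (eval₃ H) := by
  haveI := h.faithful
  obtain ⟨n, b, hb⟩ := h.exists_basis
  exact eval₃_injective H b hb

/-- The comultiplication, dual to addition. -/
def comul : H →ₐ[O] H ⊗[O] H :=
  haveI spec : ∀ (f : H) (q : M × M),
      eval₂ H (h.add_mem f).choose q = (f : M → L) (q.1 + q.2) := fun f =>
    (h.add_mem f).choose_spec
  { toFun := fun f => (h.add_mem f).choose
    map_one' := h.inj₂ (by funext q; rw [spec, map_one]; rfl)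
    map_mul' := fun f g => h.inj₂ (by
      funext q; rw [spec, map_mul, Pi.mul_apply, spec, spec]; rfl)
    map_zero' := h.inj₂ (by funext q; rw [spec, map_zero]; rfl)
    map_add' := fun f g => h.inj₂ (by
      funext q; rw [spec, map_add, Pi.add_apply, spec, spec]; rfl)
    commutes' := fun a => h.inj₂ (by funext q; rw [spec, AlgHom.commutes]; rfl) }

@[simp]
theorem eval₂_comul (f : H) (q : M × M) :
    eval₂ H (h.comul f) q = (f : M → L) (q.1 + q.2) :=
  (h.add_mem f).choose_spec q

/-- The counit, dual to the zero element. -/
def counit : H →ₐ[O] O :=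
  haveI spec : ∀ f : H, algebraMap O L (h.zero_mem f).choose = (f : M → L) 0 := fun f =>
    (h.zero_mem f).choose_spec
  haveI inj : Function.Injective (algebraMap O L) :=
    haveI := h.faithful; FaithfulSMul.algebraMap_injective O L
  { toFun := fun f => (h.zero_mem f).choose
    map_one' := inj (by rw [spec, map_one]; rfl)
    map_mul' := fun f g => inj (by rw [spec, map_mul, spec, spec]; rfl)
    map_zero' := inj (by rw [spec, map_zero]; rfl)
    map_add' := fun f g => inj (by rw [spec, map_add, spec, spec]; rfl)
    commutes' := fun a => inj (by rw [spec]; rfl) }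

@[simp]
theorem algebraMap_counit (f : H) : algebraMap O L (h.counit f) = (f : M → L) 0 :=
  (h.zero_mem f).choose_spec

/-- The antipode, dual to negation. -/
def antipode : H →ₐ[O] H where
  toFun f := ⟨fun z => (f : M → L) (-z), h.neg_mem f⟩
  map_one' := rfl
  map_mul' _ _ := rfl
  map_zero' := rfl
  map_add' _ _ := rfl
  commutes' _ := rfl

@[simp]
theorem antipode_apply (f : H) (z : M) : ((h.antipode f : H) : M → L) z = (f : M → L) (-z) := rfl

theorem coassoc : (Algebra.TensorProduct.assoc O O O H H H).toAlgHom.comp
      ((Algebra.TensorProduct.map h.comul (.id O H)).comp h.comul)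
      = (Algebra.TensorProduct.map (.id O H) h.comul).comp h.comul := by
  apply AlgHom.ext
  intro f
  apply h.inj₃
  funext ⟨a, bb, c⟩
  have assoc' : ∀ (y : H ⊗[O] H) (v : H),
      eval₃ H (Algebra.TensorProduct.assoc O O O H H H (y ⊗ₜ v)) (a, bb, c)
        = eval₂ H y (a, bb) * (v : M → L) c := by
    intro y v
    induction y using TensorProduct.induction_on with
    | zero => simp
    | tmul s t => simp [mul_assoc]
    | add y y' hy hy' => simp [TensorProduct.add_tmul, hy, hy', add_mul]
  have left : ∀ x : H ⊗[O] H,
      eval₃ H (Algebra.TensorProduct.assoc O O O H H H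
        (Algebra.TensorProduct.map h.comul (.id O H) x)) (a, bb, c) = eval₂ H x (a + bb, c) := by
    intro x
    induction x using TensorProduct.induction_on with
    | zero => simp
    | tmul s t => simp [assoc']
    | add y y' hy hy' => simp [hy, hy']
  have right : ∀ x : H ⊗[O] H,
      eval₃ H (Algebra.TensorProduct.map (.id O H) h.comul x) (a, bb, c)
        = eval₂ H x (a, bb + c) := by
    intro x
    induction x using TensorProduct.induction_on with
    | zero => simp
    | tmul s t => simp
    | add y y' hy hy' => simp [hy, hy']
  simp [left, right, add_assoc]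

theorem rTensor_counit : (Algebra.TensorProduct.map h.counit (.id O H)).comp h.comul
      = ((Algebra.TensorProduct.lid O H).symm : H →ₐ[O] O ⊗[O] H) := by
  apply AlgHom.ext
  intro f
  apply (Algebra.TensorProduct.lid O H).injective
  apply Subtype.ext
  funext z
  have key : ∀ x : H ⊗[O] H,
      ((Algebra.TensorProduct.lid O H (Algebra.TensorProduct.map h.counit (.id O H) x) : H) :
        M → L) z = eval₂ H x (0, z) := by
    intro x
    induction x using TensorProduct.induction_on with
    | zero => simp
    | tmul s t => simp [Algebra.smul_def]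
    | add y y' hy hy' => simp [hy, hy']
  simp [key]

theorem lTensor_counit : (Algebra.TensorProduct.map (.id O H) h.counit).comp h.comul
      = ((Algebra.TensorProduct.rid O O H).symm : H →ₐ[O] H ⊗[O] O) := by
  apply AlgHom.ext
  intro f
  apply (Algebra.TensorProduct.rid O O H).injective
  apply Subtype.ext
  funext z
  have key : ∀ x : H ⊗[O] H,
      ((Algebra.TensorProduct.rid O O H (Algebra.TensorProduct.map (.id O H) h.counit x) : H) :
        M → L) z = eval₂ H x (z, 0) := by
    intro x
    induction x using TensorProduct.induction_on with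
    | zero => simp
    | tmul s t => simp [Algebra.smul_def, mul_comm]
    | add y y' hy hy' => simp [hy, hy']
  simp [key]

/-- The bialgebra structure. -/
@[reducible]
def bialgebra : Bialgebra O H :=
  Bialgebra.ofAlgHom h.comul h.counit h.coassoc h.rTensor_counit h.lTensor_counit

/-- The Hopf algebra structure. -/
@[reducible]
def hopfAlgebra : HopfAlgebra O H :=
  letI := h.bialgebra
  HopfAlgebra.ofAlgHom h.antipode
    (by
      apply AlgHom.ext
      intro f
      apply Subtype.ext
      funext z
      have key : ∀ x : H ⊗[O] H,
          ((Algebra.TensorProduct.lift h.antipode (.id O H) (fun _ _ => Commute.all _ _) x : H) :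
            M → L) z = eval₂ H x (-z, z) := by
        intro x
        induction x using TensorProduct.induction_on with
        | zero => simp
        | tmul s t => simp
        | add y y' hy hy' => simp [hy, hy']
      refine (key (h.comul f)).trans ?_
      rw [h.eval₂_comul]
      simp only [neg_add_cancel]
      exact (h.algebraMap_counit f).symm)
    (by
      apply AlgHom.ext
      intro f
      apply Subtype.ext
      funext z
      have key : ∀ x : H ⊗[O] H,
          ((Algebra.TensorProduct.lift (.id O H) h.antipode (fun _ _ => Commute.all _ _) x : H) :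
            M → L) z = eval₂ H x (z, -z) := by
        intro x
        induction x using TensorProduct.induction_on with
        | zero => simp
        | tmul s t => simp
        | add y y' hy hy' => simp [hy, hy']
      refine (key (h.comul f)).trans ?_
      rw [h.eval₂_comul]
      simp only [add_neg_cancel]
      exact (h.algebraMap_counit f).symm)

theorem isCocomm : letI := h.bialgebra; Coalgebra.IsCocomm O H := by
  letI := h.bialgebra
  refine ⟨LinearMap.ext fun f => ?_⟩
  apply h.inj₂
  funext ⟨a, bb⟩
  have key : ∀ x : H ⊗[O] H,
      eval₂ H (TensorProduct.comm O H H x) (a, bb) = eval₂ H x (bb, a) := by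
    intro x
    induction x using TensorProduct.induction_on with
    | zero => simp
    | tmul s t => simp [mul_comm]
    | add y y' hy hy' => simp [hy, hy']
  show eval₂ H (TensorProduct.comm O H H (h.comul f)) (a, bb) = eval₂ H (h.comul f) (a, bb)
  rw [key, h.eval₂_comul, h.eval₂_comul, add_comm]

variable (hspan : Submodule.span L (H : Set (M → L)) = ⊤)

theorem evalPt_injective (hspan : Submodule.span L (H : Set (M → L)) = ⊤) :
    Function.Injective (evalPt H : M → (H →ₐ[O] L)) := by
  classical
  intro z w hzw
  by_contra hne
  have : ∀ f ∈ Submodule.span L (H : Set (M → L)), f z = f w := by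
    intro f hf
    induction hf using Submodule.span_induction with
    | mem x hx => exact DFunLike.congr_fun hzw (⟨x, hx⟩ : H)
    | zero => rfl
    | add x y _ _ hx hy => simp [hx, hy]
    | smul a x _ hx => simp [hx]
  have h1 := this (Pi.single z 1) (hspan ▸ Submodule.mem_top)
  simp [Pi.single_eq_of_ne (Ne.symm hne)] at h1

theorem evalPt_surjective (hspan : Submodule.span L (H : Set (M → L)) = ⊤) :
    Function.Surjective (evalPt H : M → (H →ₐ[O] L)) := by
  classical
  intro χ
  haveI := Fintype.ofFinite M
  obtain ⟨n, bO, hbO⟩ := h.exists_basis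
  have hsp : ⊤ ≤ Submodule.span L (Set.range fun i => (bO i : M → L)) := by
    rw [← hspan, Submodule.span_le]
    intro f hf
    have hmem : (⟨f, hf⟩ : H) ∈ Submodule.span O (Set.range bO) := bO.mem_span _
    have h2 := Submodule.apply_mem_span_image_of_mem_span H.val.toLinearMap hmem
    rw [← Set.range_comp] at h2
    exact Submodule.span_subset_span O L _ h2
  let bL := Module.Basis.mk hbO hsp
  let χ' : (M → L) →ₗ[L] L := bL.constr L fun i => χ (bO i)
  have hχ : ∀ f : H, χ' (f : M → L) = χ f := by
    have h3 : (χ'.restrictScalars O).comp H.val.toLinearMap = χ.toLinearMap :=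
      bO.ext fun i => by
        have : bL i = (bO i : M → L) := by simp [bL]
        show χ' (bO i : M → L) = χ (bO i)
        rw [← this]
        exact bL.constr_basis L _ i
    exact fun f => LinearMap.congr_fun h3 f
  have hmul : ∀ f g : M → L, χ' (f * g) = χ' f * χ' g := by
    intro f g
    have hf : f ∈ Submodule.span L (H : Set (M → L)) := hspan ▸ Submodule.mem_top
    have hg : g ∈ Submodule.span L (H : Set (M → L)) := hspan ▸ Submodule.mem_top
    induction hf using Submodule.span_induction with
    | mem x hx =>
      induction hg using Submodule.span_induction with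
      | mem y hy =>
        have := map_mul χ (⟨x, hx⟩ : H) ⟨y, hy⟩
        rw [← hχ, ← hχ, ← hχ] at this
        exact this
      | zero => simp
      | add y y' _ _ hy hy' => simp [mul_add, hy, hy']
      | smul a y _ hy => simp [hy, mul_left_comm]
    | zero => simp
    | add x x' _ _ hx hx' => simp [add_mul, hx, hx']
    | smul a x _ hx => simp [hx, mul_assoc]
  have hone : χ' 1 = 1 := by
    have := hχ 1
    simpa using this
  obtain ⟨z, hz⟩ : ∃ z : M, χ' (Pi.single z 1) ≠ 0 := by
    by_contra hall
    push Not at hall
    have : χ' (1 : M → L) = 0 := by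
      rw [← Finset.univ_sum_single (1 : M → L), map_sum]
      exact Finset.sum_eq_zero fun i _ => hall i
    exact one_ne_zero (hone.symm.trans this)
  refine ⟨z, AlgHom.ext fun f => ?_⟩
  have h4 : (f : M → L) * Pi.single z 1 = (f : M → L) z • Pi.single z 1 := by
    funext x
    by_cases hx : x = z
    · subst hx; simp
    · simp [Pi.single_eq_of_ne hx]
  have h5 := hmul (f : M → L) (Pi.single z 1)
  rw [h4, map_smul, smul_eq_mul] at h5
  rw [← hχ f]
  exact mul_right_cancel₀ hz h5

omit hspan in
theorem evalPt_add (z w : M) :
    letI := h.bialgebra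
    toConv (evalPt H z) * toConv (evalPt H w) = toConv (evalPt H (z + w)) := by
  letI := h.bialgebra
  apply WithConv.ext
  apply AlgHom.ext
  intro f
  show (toConv (evalPt H z) * toConv (evalPt H w)) f = _
  rw [AlgHom.convMul_apply]
  have key : ∀ x : H ⊗[O] H,
      Algebra.TensorProduct.lift (evalPt H z) (evalPt H w) (fun _ _ => Commute.all _ _) x
        = eval₂ H x (z, w) := by
    intro x
    induction x using TensorProduct.induction_on with
    | zero => simp
    | tmul s t => simp
    | add y y' hy hy' => simp [hy, hy']
  refine (key (h.comul f)).trans ?_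
  simp

end IsHopfFunctions

end Model

end FermatLib.Igusa.TorsionModel
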