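import Fermat.Agent.Basic.FrobeniusExists
import Fermat.Agent.Galois.FlatModelRat
import Fermat.Agent.Igusa.TorsionModel.EquivariantHopf
import Mathlib.FieldTheory.Galois.Infinite
import Mathlib.RingTheory.Invariant.Profinite

/-!
# The base `ℤ_(ℓ) ⊆ ℚ̄`: fixed field, places over `ℓ`, conjugacy of places
-/

set_option autoImplicit false
set_option linter.unusedSectionVars false

noncomputable section

open scoped Pointwise

namespace FermatLib.Igusa.TorsionModel

local notation "Qbar" => AlgebraicClosure ℚ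
local notation "Γℚ" => (AlgebraicClosure ℚ ≃ₐ[ℚ] AlgebraicClosure ℚ)
local notation "Zbar" => integralClosure ℤ (AlgebraicClosure ℚ)

variable {ℓ : ℕ}

set_option quotPrecheck false in
local notation "O" => ↥(GaloisRep.ratLocalizedAt ℓ)

theorem algebraMap_localBase (r : GaloisRep.ratLocalizedAt ℓ) :
    algebraMap (GaloisRep.ratLocalizedAt ℓ) Qbar r = algebraMap ℚ Qbar (r : ℚ) := rfl

theorem isFixedBase_galois :
    IsFixedBase (GaloisRep.ratLocalizedAt ℓ) Qbar Γℚ where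
  fixed g r := by rw [algebraMap_localBase, AlgEquiv.smul_def, AlgEquiv.commutes]
  exists_frac x hx := by
    obtain ⟨q, rfl⟩ := (InfiniteGalois.mem_range_algebraMap_iff_fixed (k := ℚ) x).mpr hx
    obtain ⟨r, s, hs, hq⟩ := IsFractionRing.div_surjective (GaloisRep.ratLocalizedAt ℓ) q
    refine ⟨r, s, nonZeroDivisors.ne_zero hs, ?_⟩
    have hs0 : (s : ℚ) ≠ 0 := fun h => nonZeroDivisors.ne_zero hs (Subtype.ext h)
    rw [algebraMap_localBase, algebraMap_localBase, ← map_mul, ← hq]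
    exact congrArg _ (mul_div_cancel₀ _ hs0)

theorem intCast_not_mem_nonunits (hℓ : ℓ.Prime) (A : ValuationSubring Qbar) (hA : A.LiesOverPrime ℓ)
    {d : ℕ} (hd : d.Coprime ℓ) : (d : Qbar) ∉ A.nonunits := by
  intro h
  have hdA : (⟨d, natCast_mem A d⟩ : A) ∈ IsLocalRing.maximalIdeal A :=
    ValuationSubring.coe_mem_nonunits_iff.mp h
  have hlA : (⟨ℓ, natCast_mem A ℓ⟩ : A) ∈ IsLocalRing.maximalIdeal A :=
    ValuationSubring.coe_mem_nonunits_iff.mp hA
  obtain ⟨a, b, hab⟩ := (Int.isCoprime_iff_gcd_eq_one.mpr (by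
    rw [Int.gcd_natCast_natCast]; exact hd) : IsCoprime (d : ℤ) (ℓ : ℤ))
  have h1 : (1 : A) ∈ IsLocalRing.maximalIdeal A := by
    have e : (1 : A) = (a : A) * ⟨d, natCast_mem A d⟩ + (b : A) * ⟨ℓ, natCast_mem A ℓ⟩ := by
      apply Subtype.ext
      push_cast
      exact_mod_cast hab.symm
    rw [e]
    exact add_mem (Ideal.mul_mem_left _ _ hdA) (Ideal.mul_mem_left _ _ hlA)
  exact (IsLocalRing.maximalIdeal.isMaximal A).ne_top ((Ideal.eq_top_iff_one _).mpr h1)

theorem algebraMap_localBase_mem (hℓ : ℓ.Prime) (A : ValuationSubring Qbar)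
    (hA : A.LiesOverPrime ℓ) (r : GaloisRep.ratLocalizedAt ℓ) :
    algebraMap (GaloisRep.ratLocalizedAt ℓ) Qbar r ∈ A := by
  rw [algebraMap_localBase, ← Rat.num_div_den (r : ℚ), map_div₀, map_intCast, map_natCast,
    div_eq_mul_inv]
  refine mul_mem (intCast_mem A _) ?_
  have hd := intCast_not_mem_nonunits hℓ A hA r.2
  rcases A.mem_or_inv_mem (((r : ℚ).den : ℕ) : Qbar)⁻¹ with h | h
  · exact h
  · rw [inv_inv] at h
    have hu : IsUnit (⟨_, h⟩ : A) := by
      by_contra hnu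
      exact hd ((ValuationSubring.coe_mem_nonunits_iff (a := ⟨_, h⟩)).mpr
        ((IsLocalRing.mem_maximalIdeal _).mpr hnu))
    obtain ⟨w, hw⟩ := hu.exists_left_inv
    have hw' : (w : Qbar) * ((r : ℚ).den : ℕ) = 1 := congrArg Subtype.val hw
    rw [← eq_inv_of_mul_eq_one_left hw']
    exact w.2

theorem mem_of_isIntegral_localBase (hℓ : ℓ.Prime) (A : ValuationSubring Qbar)
    (hA : A.LiesOverPrime ℓ) {x : Qbar} (hx : IsIntegral (GaloisRep.ratLocalizedAt ℓ) x) :
    x ∈ A := by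
  obtain ⟨p, hp, hpx⟩ := hx
  let φ : GaloisRep.ratLocalizedAt ℓ →+* A :=
    (algebraMap (GaloisRep.ratLocalizedAt ℓ) Qbar).codRestrict A.toSubring
      (algebraMap_localBase_mem hℓ A hA)
  have : IsIntegral A x := ⟨p.map φ, hp.map φ, by
    rw [Polynomial.eval₂_map]
    exact hpx⟩
  obtain ⟨y, hy⟩ := IsIntegrallyClosed.isIntegral_iff.mp this
  exact hy ▸ y.2

theorem smul_integral (g : Γℚ) {x : Qbar} (hx : IsIntegral (GaloisRep.ratLocalizedAt ℓ) x) :
    IsIntegral (GaloisRep.ratLocalizedAt ℓ) (g • x) :=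
  hx.map (g.toAlgHom.restrictScalars (GaloisRep.ratLocalizedAt ℓ))

/-- Any two places over `ℓ` are conjugate. -/
theorem exists_smul_mem_of_liesOverPrime (hℓ : ℓ.Prime) (A A₀ : ValuationSubring Qbar)
    (hA : A.LiesOverPrime ℓ) (hA₀ : A₀.LiesOverPrime ℓ) :
    ∃ σ : Γℚ, (∀ x ∈ A, σ • x ∈ A₀) ∧ ∀ x ∈ A.nonunits, σ • x ∈ A₀.nonunits := by
  classical
  let _ : TopologicalSpace Zbar := ⊥
  haveI : DiscreteTopology Zbar := ⟨rfl⟩
  haveI : ContinuousSMul Γℚ Zbar := continuousSMul_iff_stabilizer_isOpen.mpr fun x => by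
    have heq : (MulAction.stabilizer Γℚ x : Set Γℚ) = MulAction.stabilizer Γℚ (x : Qbar) := by
      ext g
      exact Subtype.ext_iff
    rw [heq]
    exact stabilizer_isOpen_of_isIntegral (K := ℚ) (x : Qbar)
  have hunder : ∀ B : ValuationSubring Qbar, B.LiesOverPrime ℓ →
      (Basic.centerIdeal B).under ℤ = Ideal.span {(ℓ : ℤ)} := by
    intro B hB
    have hPmax : (Ideal.span {(ℓ : ℤ)}).IsMaximal :=
      PrincipalIdealRing.isMaximal_of_irreducible (Nat.prime_iff_prime_int.mp hℓ).irreducible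
    refine (hPmax.eq_of_le (Ideal.comap_ne_top _ ((Basic.centerIdeal_isPrime B).ne_top)) ?_).symm
    rw [Ideal.span_singleton_le_iff_mem, Ideal.mem_comap, Basic.mem_centerIdeal_iff]
    simpa [ValuationSubring.LiesOverPrime] using hB
  obtain ⟨σ, hσ⟩ := Algebra.IsInvariant.exists_smul_of_under_eq_of_profinite
    (A := ℤ) (G := Γℚ) (Basic.centerIdeal A) (Basic.centerIdeal A₀)
    ((hunder A hA).trans (hunder A₀ hA₀).symm)
  have key : ∀ x ∈ A, σ • x ∈ A₀ ∧ (x ∈ A.nonunits → σ • x ∈ A₀.nonunits) := by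
    intro x hx
    obtain ⟨b, c, hb, hc, hbu, hbc⟩ := Basic.exists_isIntegral_div A hx
    have hσb : IsIntegral ℤ (σ • b) := hb.map (σ.toAlgHom.restrictScalars ℤ)
    have hσc : IsIntegral ℤ (σ • c) := hc.map (σ.toAlgHom.restrictScalars ℤ)
    have hσbA := Basic.valuationSubring_mem_of_isIntegral A₀ hσb
    have hσcA := Basic.valuationSubring_mem_of_isIntegral A₀ hσc
    have hmem : ∀ z : Zbar, z ∈ Basic.centerIdeal A ↔ σ • z ∈ Basic.centerIdeal A₀ := fun z => by
      rw [hσ, Ideal.smul_mem_pointwise_smul_iff]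
    have hσbu : σ • b ∉ A₀.nonunits := fun h =>
      hbu (Basic.mem_centerIdeal_iff.mp
        ((hmem ⟨b, hb⟩).mpr (Basic.mem_centerIdeal_iff.mpr h)))
    have hu : IsUnit (⟨σ • b, hσbA⟩ : A₀) := by
      by_contra hnu
      exact hσbu ((ValuationSubring.coe_mem_nonunits_iff (a := ⟨σ • b, hσbA⟩)).mpr
        ((IsLocalRing.mem_maximalIdeal _).mpr hnu))
    obtain ⟨w, hw⟩ := hu.exists_left_inv
    have hw' : (w : Qbar) * (σ • b) = 1 := congrArg Subtype.val hw
    have e : σ • x = (w : Qbar) * σ • c := by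
      rw [← hbc, smul_mul', ← mul_assoc, hw', one_mul]
    refine ⟨e ▸ mul_mem w.2 hσcA, fun hxn => ?_⟩
    have hcn : c ∈ A.nonunits := by
      have h1 : (⟨x, hx⟩ : A) ∈ IsLocalRing.maximalIdeal A :=
        ValuationSubring.coe_mem_nonunits_iff.mp hxn
      have h2 := Ideal.mul_mem_left (IsLocalRing.maximalIdeal A)
        ⟨b, Basic.valuationSubring_mem_of_isIntegral A hb⟩ h1
      have h3 := (ValuationSubring.coe_mem_nonunits_iff
        (a := (⟨b, Basic.valuationSubring_mem_of_isIntegral A hb⟩ : A) * ⟨x, hx⟩)).mpr h2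
      rwa [show ((((⟨b, Basic.valuationSubring_mem_of_isIntegral A hb⟩ : A) * ⟨x, hx⟩ : A)) :
        Qbar) = c from hbc] at h3
    have h4 : σ • c ∈ A₀.nonunits :=
      Basic.mem_centerIdeal_iff.mp ((hmem ⟨c, hc⟩).mp (Basic.mem_centerIdeal_iff.mpr hcn))
    rw [e]
    have h5 := Ideal.mul_mem_left (IsLocalRing.maximalIdeal A₀) w
      ((ValuationSubring.coe_mem_nonunits_iff (a := ⟨σ • c, hσcA⟩)).mp h4)
    exact (ValuationSubring.coe_mem_nonunits_iff (a := w * ⟨σ • c, hσcA⟩)).mpr h5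
  exact ⟨σ, fun x hx => (key x hx).1, fun x hx => (key x (A.nonunits_subset hx)).2 hx⟩

/-- Maximal ideals of a finite ring of functions come from conjugates of a fixed place. -/
theorem exists_mem_iff_of_isMaximal (hℓ : ℓ.Prime) (A₀ : ValuationSubring Qbar)
    (hA₀ : A₀.LiesOverPrime ℓ) {T : Type} [Finite T]
    (B : Subalgebra (GaloisRep.ratLocalizedAt ℓ) (T → Qbar))
    (hB : Module.Finite (GaloisRep.ratLocalizedAt ℓ) B) (m : Ideal B) (hm : m.IsMaximal) :
    ∃ (σ : Γℚ) (t : T), ∀ b : B, b ∈ m ↔ σ • (b : T → Qbar) t ∈ A₀.nonunits := by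
  classical
  haveI := Fintype.ofFinite T
  let ev : T → (B →+* Qbar) := fun t =>
    (Pi.evalRingHom (fun _ : T => Qbar) t).comp B.val.toRingHom
  obtain ⟨t, -, ht⟩ : ∃ t ∈ (Finset.univ : Finset T), RingHom.ker (ev t) ≤ m := by
    refine hm.isPrime.prod_le.mp ?_
    intro x hx
    have hx0 : x = 0 := by
      apply Subtype.ext
      funext t
      exact (Ideal.prod_le_inf.trans (Finset.inf_le (Finset.mem_univ t))) hx
    rw [hx0]
    exact m.zero_mem
  -- `ℓ` lies in `m`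
  let lO : O := ⟨(ℓ : ℚ), by show (ℓ : ℚ).den.Coprime ℓ; simp⟩
  have hlm : algebraMap O B lO ∈ m := by
    haveI : Module.Finite O B := hB
    have hmax : (m.comap (algebraMap O B)).IsMaximal :=
      Ideal.isMaximal_comap_of_isIntegral_of_isMaximal m
    by_contra hl
    set J := m.comap (algebraMap O B) with hJ
    obtain ⟨y, i, hi, hyi⟩ := hmax.exists_inv hl
    have hlinv : ∀ w : O, w * lO ≠ 1 := by
      intro w hw
      have h1 : (w : ℚ) * ℓ = 1 := congrArg Subtype.val hw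
      have h2 : (w : ℚ) = (ℓ : ℚ)⁻¹ := eq_inv_of_mul_eq_one_left h1
      have h3 := w.2
      change (w : ℚ).den.Coprime ℓ at h3
      rw [h2, Rat.inv_natCast_den, if_neg hℓ.ne_zero] at h3
      exact hℓ.ne_one (Nat.coprime_self ℓ |>.mp h3)
    have hi0 : i ≠ 0 := by
      intro h
      rw [h, add_zero] at hyi
      exact hlinv y hyi
    have hn : (((i : ℚ).num.natAbs : ℕ) : O) ∈ J := by
      have h1 : (((i : ℚ).num : ℤ) : O) = i * ((i : ℚ).den : ℕ) :=
        Subtype.ext (by simpa using (Rat.mul_den_eq_num (i : ℚ)).symm)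
      have h2 : (((i : ℚ).num : ℤ) : O) ∈ J := h1 ▸ J.mul_mem_right _ hi
      rcases Int.natAbs_eq (i : ℚ).num with h | h
      · rw [h, Int.cast_natCast] at h2; exact h2
      · rw [h, Int.cast_neg, Int.cast_natCast, J.neg_mem_iff] at h2; exact h2
    obtain ⟨v, w, hw, hvw⟩ := Nat.exists_eq_pow_mul_and_not_dvd
      (Int.natAbs_ne_zero.mpr (fun h => hi0 (Subtype.ext (Rat.num_eq_zero.mp h))))
      ℓ hℓ.ne_one
    rw [hvw, Nat.cast_mul, Nat.cast_pow] at hn
    rcases hmax.isPrime.mem_or_mem hn with h | h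
    · exact hl (by
        have h2 := hmax.isPrime.mem_of_pow_mem v h
        rwa [show ((ℓ : ℕ) : O) = lO from Subtype.ext (by simp [lO])] at h2)
    · refine hmax.ne_top (Ideal.eq_top_of_isUnit_mem _ h ?_)
      have hw0 : w ≠ 0 := fun h0 => hw (h0 ▸ dvd_zero ℓ)
      have hinv : ((w : ℚ))⁻¹ ∈ GaloisRep.ratLocalizedAt ℓ := by
        show ((w : ℚ))⁻¹.den.Coprime ℓ
        rw [Rat.inv_natCast_den, if_neg hw0]
        exact (hℓ.coprime_iff_not_dvd.mpr hw).symm
      refine IsUnit.of_mul_eq_one (⟨_, hinv⟩ : O) (Subtype.ext ?_)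
      simp [hw0]
  let R : Subring Qbar := (ev t).range
  let e := (ev t).rangeRestrict
  have hne : m.map e ≠ ⊤ := by
    intro h
    have h2 : m.map e = ⊤ ↔ m = ⊤ := by
      constructor
      · intro h
        have h3 := Ideal.comap_map_of_surjective e (ev t).rangeRestrict_surjective m
        rw [h, Ideal.comap_top, sup_eq_left.mpr ?_] at h3
        · exact h3.symm
        · intro x hx
          exact ht (congrArg Subtype.val (Ideal.mem_comap.mp hx : e x ∈ (⊥ : Ideal R)))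
      · intro h; rw [h, Ideal.map_top]
    exact hm.ne_top (h2.mp h)
  obtain ⟨A, hRA, hA⟩ := Ideal.image_subset_nonunits_valuationSubring _ hne
  have hmA : ∀ b ∈ m, (b : T → Qbar) t ∈ A.nonunits := fun b hb =>
    hA ⟨e b, Ideal.mem_map_of_mem e hb, rfl⟩
  have hAℓ : A.LiesOverPrime ℓ := by
    have := hmA _ hlm
    simpa [ValuationSubring.LiesOverPrime, algebraMap_localBase, lO] using this
  obtain ⟨σ, hσ, hσn⟩ := exists_smul_mem_of_liesOverPrime hℓ A A₀ hAℓ hA₀
  refine ⟨σ, t, fun b => ⟨fun hb => hσn _ (hmA b hb), fun hb => ?_⟩⟩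
  by_contra hbm
  obtain ⟨y, i, hi, hyi⟩ := hm.exists_inv hbm
  have h1 := congrArg (fun x : B => σ • (x : T → Qbar) t) hyi
  simp only [AddMemClass.coe_add, MulMemClass.coe_mul, OneMemClass.coe_one, Pi.add_apply,
    Pi.mul_apply, Pi.one_apply, smul_add, smul_mul', smul_one] at h1
  have hy : σ • (y : T → Qbar) t ∈ A₀ := hσ _ (hRA ⟨y, rfl⟩)
  have h3 : (⟨_, hy⟩ : A₀) * ⟨_, A₀.nonunits_subset hb⟩ + ⟨_, A₀.nonunits_subset (hσn _ (hmA i hi))⟩ ∈
      IsLocalRing.maximalIdeal A₀ :=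
    add_mem (Ideal.mul_mem_left _ _ (ValuationSubring.coe_mem_nonunits_iff.mp hb))
      (ValuationSubring.coe_mem_nonunits_iff.mp (hσn _ (hmA i hi)))
  rw [show ((⟨_, hy⟩ : A₀) * ⟨_, A₀.nonunits_subset hb⟩ +
    ⟨_, A₀.nonunits_subset (hσn _ (hmA i hi))⟩) = 1 from Subtype.ext h1] at h3
  exact (IsLocalRing.maximalIdeal.isMaximal A₀).ne_top ((Ideal.eq_top_iff_one _).mpr h3)

end FermatLib.Igusa.TorsionModel
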