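import Fermat.Agent.Igusa.RRField

/-!
# Normal bases at a rational place and normal forms of non-special divisors
-/

set_option autoImplicit false
set_option linter.unusedSectionVars false

noncomputable section

open AlgebraicCurve

namespace FermatLib.Igusa.TorsionModel

variable {K F : Type*} [Field K] [Field F] [Algebra K F] {g : ℕ}

/-- `n` times the base place. -/
abbrev atBase (P₀ : Place K F) (n : ℤ) : Divisor K F := Finsupp.single P₀ n

theorem mem_space_iff {D : Divisor K F} {f : F} :
    f ∈ riemannRochSpace D ↔ f = 0 ∨ ∀ v : Place K F, -D v ≤ v.ord f := by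
  rw [mem_riemannRochSpace_iff]
  rcases eq_or_ne f 0 with rfl | hf
  · simp
  · simp [hf]

/-- Two functions with the same exact order differ, up to a constant, by a higher order. -/
theorem exists_sub_ord_gt (hF : RRField K F g) (v : Place K F) {f h : F} (hf : f ≠ 0) (hh : h ≠ 0)
    (he : v.ord f = v.ord h) :
    ∃ c : K, f - c • h = 0 ∨ v.ord h + 1 ≤ v.ord (f - c • h) := by
  have h0 : v.ord (f / h) = 0 := by
    rw [div_eq_mul_inv, v.ord_mul hf (inv_ne_zero hh), v.ord_inv, he, add_neg_cancel]
  obtain ⟨c, hc⟩ := exists_hasValueAt (hF.deg_one v) (f := f / h) (Or.inr h0.ge)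
  refine ⟨c, ?_⟩
  have e : f - c • h = (f / h - algebraMap K F c) * h := by
    rw [sub_mul, div_mul_cancel₀ f hh, Algebra.smul_def]
  rcases hc with hc | hc
  · left; rw [e, hc, sub_self, zero_mul]
  · rcases eq_or_ne (f / h - algebraMap K F c) 0 with h1 | h1
    · left; rw [e, h1, zero_mul]
    · right; rw [e, v.ord_mul h1 hh]; omega

theorem finrank_space_add_single_le (hF : RRField K F g) (D : Divisor K F) (v : Place K F) :
    Module.finrank K (riemannRochSpace (D + Finsupp.single v 1)) ≤
      Module.finrank K (riemannRochSpace D) + 1 := by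
  classical
  haveI := hF.finite_space D
  haveI := hF.finite_space (D + Finsupp.single v 1)
  by_cases hex : ∃ h ∈ riemannRochSpace (D + Finsupp.single v 1), h ∉ riemannRochSpace D
  · obtain ⟨h, hh, hhD⟩ := hex
    have hh0 : h ≠ 0 := fun e => hhD (e ▸ Submodule.zero_mem _)
    have ho := (mem_space_iff.mp hh).resolve_left hh0
    have hvh : v.ord h = -D v - 1 := by
      by_contra hne
      refine hhD (mem_space_iff.mpr (Or.inr fun w => ?_))
      have := ho w
      rw [Finsupp.add_apply] at this
      rcases eq_or_ne w v with rfl | hw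
      · rw [Finsupp.single_eq_same] at this; omega
      · rw [Finsupp.single_eq_of_ne hw] at this; omega
    have hle : riemannRochSpace (D + Finsupp.single v 1) ≤
        riemannRochSpace D ⊔ Submodule.span K {h} := by
      intro f hf
      by_cases hfD : f ∈ riemannRochSpace D
      · exact Submodule.mem_sup_left hfD
      have hf0 : f ≠ 0 := fun e => hfD (e ▸ Submodule.zero_mem _)
      have hfo := (mem_space_iff.mp hf).resolve_left hf0
      have hvf : v.ord f = v.ord h := by
        by_contra hne
        refine hfD (mem_space_iff.mpr (Or.inr fun w => ?_))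
        have := hfo w
        rw [Finsupp.add_apply] at this
        rcases eq_or_ne w v with rfl | hw
        · rw [Finsupp.single_eq_same] at this; omega
        · rw [Finsupp.single_eq_of_ne hw] at this; omega
      obtain ⟨c, hc⟩ := exists_sub_ord_gt hF v hf0 hh0 hvf
      rw [← sub_add_cancel f (c • h)]
      refine Submodule.add_mem_sup ?_ (Submodule.mem_span_singleton.mpr ⟨c, rfl⟩)
      have hmem := Submodule.sub_mem _ hf (Submodule.smul_mem _ c hh)
      rcases eq_or_ne (f - c • h) 0 with e | e
      · rw [e]; exact Submodule.zero_mem _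
      refine mem_space_iff.mpr (Or.inr fun w => ?_)
      have h2 := (mem_space_iff.mp hmem).resolve_left e w
      rw [Finsupp.add_apply] at h2
      rcases eq_or_ne w v with rfl | hw
      · have := hc.resolve_left e; omega
      · rw [Finsupp.single_eq_of_ne hw] at h2; omega
    refine (Submodule.finrank_mono hle).trans ((Submodule.finrank_add_le_finrank_add_finrank _ _).trans ?_)
    rw [finrank_span_singleton hh0]
  · push Not at hex
    exact (Submodule.finrank_mono hex).trans (Nat.le_succ _)

/-- The Riemann inequality. -/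
theorem le_finrank_space (hF : RRField K F g) (D : Divisor K F) :
    Divisor.degree D + 1 - g ≤ (Module.finrank K (riemannRochSpace D) : ℤ) := by
  obtain ⟨v⟩ := hF.nonempty_place
  have key : ∀ n : ℕ, Module.finrank K (riemannRochSpace (D + Finsupp.single v (n : ℤ))) ≤
      Module.finrank K (riemannRochSpace D) + n := by
    intro n
    induction n with
    | zero => rw [Nat.cast_zero, Finsupp.single_zero, add_zero]; omega
    | succ n ih =>
      have := finrank_space_add_single_le hF (D + Finsupp.single v (n : ℤ)) v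
      rw [add_assoc, ← Finsupp.single_add] at this
      push_cast
      omega
  set n := (2 * (g : ℤ) - 1 - Divisor.degree D).toNat with hn
  have h1 := hF.finrank_space (D + Finsupp.single v (n : ℤ)) (by
    rw [map_add, Divisor.degree_single, hF.deg_one]; omega)
  rw [map_add, Divisor.degree_single, hF.deg_one] at h1
  have h2 := key n
  omega

/-- A basis of the functions regular away from `P₀`, adapted to the pole order: `C` spans
`L((2g-1)P₀)` and `E t` has pole order exactly `2g + t`. -/
structure NormalBasis (K F : Type*) [Field K] [Field F] [Algebra K F] (g : ℕ) (P₀ : Place K F) where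
  C : Fin g → F
  E : ℕ → F
  C_mem : ∀ l, C l ∈ riemannRochSpace (atBase P₀ (2 * g - 1))
  C_indep : LinearIndependent K C
  E_mem : ∀ t : ℕ, E t ∈ riemannRochSpace (atBase P₀ (2 * g + t))
  E_ne : ∀ t : ℕ, E t ≠ 0
  E_ord : ∀ t : ℕ, P₀.ord (E t) = -(2 * (g : ℤ) + t)

namespace NormalBasis

variable {P₀ : Place K F} (B : NormalBasis K F g P₀)

/-- The first `g + M` members of the basis. -/
def bas (M : ℕ) : Fin g ⊕ Fin M → F := Sum.elim B.C fun t => B.E t

theorem bas_mem (M : ℕ) (i : Fin g ⊕ Fin M) :
    B.bas M i ∈ riemannRochSpace (atBase P₀ (2 * g - 1 + M)) := by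
  rcases i with l | t
  · exact riemannRochSpace_mono (Finsupp.single_mono (by omega)) (B.C_mem l)
  · exact riemannRochSpace_mono (E := atBase P₀ (2 * g - 1 + M))
      (Finsupp.single_mono (by have := t.2; omega)) (B.E_mem t)

theorem bas_indep (M : ℕ) : LinearIndependent K (B.bas M) := by
  induction M with
  | zero =>
    have e : B.bas 0 = B.C ∘ (Equiv.sumEmpty (Fin g) (Fin 0)) := by
      funext i
      rcases i with l | t
      · rfl
      · exact t.elim0
    rw [e]
    exact B.C_indep.comp _ (Equiv.injective _)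
  | succ M ih =>
    rw [Fintype.linearIndependent_iff]
    intro c hc
    rw [Fintype.sum_sum_type, Fin.sum_univ_castSucc] at hc
    simp only [bas, Sum.elim_inl, Sum.elim_inr, Fin.val_castSucc, Fin.val_last] at hc
    have hlast : c (Sum.inr (Fin.last M)) = 0 := by
      by_contra hne
      have hmem : B.E M ∈ riemannRochSpace (atBase P₀ (2 * g - 1 + M)) := by
        rw [← add_assoc, add_comm, add_eq_zero_iff_eq_neg] at hc
        rw [← one_smul K (B.E M), ← inv_mul_cancel₀ hne, mul_smul, hc]
        refine Submodule.smul_mem _ _ (Submodule.neg_mem _ (Submodule.add_mem _ ?_ ?_))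
        · exact Submodule.sum_mem _ fun l _ => Submodule.smul_mem _ _ (B.bas_mem M (Sum.inl l))
        · exact Submodule.sum_mem _ fun t _ => Submodule.smul_mem _ _ (B.bas_mem M (Sum.inr t))
      have := (mem_space_iff.mp hmem).resolve_left (B.E_ne M) P₀
      rw [Finsupp.single_eq_same, B.E_ord] at this
      omega
    rw [hlast, zero_smul, add_zero] at hc
    have := Fintype.linearIndependent_iff.mp ih
      (Sum.elim (fun l => c (Sum.inl l)) fun t => c (Sum.inr t.castSucc)) (by
        rw [Fintype.sum_sum_type]; simpa [bas] using hc)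
    rintro (l | t)
    · simpa using this (Sum.inl l)
    · refine Fin.lastCases hlast (fun t => ?_) t
      simpa using this (Sum.inr t)

theorem span_bas (hF : RRField K F g) (M : ℕ) :
    Submodule.span K (Set.range (B.bas M)) = riemannRochSpace (atBase P₀ (2 * g - 1 + M)) := by
  haveI := hF.finite_space (atBase P₀ (2 * g - 1 + M))
  refine Submodule.eq_of_le_of_finrank_le (Submodule.span_le.mpr ?_) ?_
  · rintro _ ⟨i, rfl⟩; exact B.bas_mem M i
  · have h1 := finrank_span_eq_card (B.bas_indep M)
    have h2 := hF.finrank_space (atBase P₀ (2 * g - 1 + M)) (by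
      rw [Divisor.degree_single, hF.deg_one]; omega)
    rw [Divisor.degree_single, hF.deg_one] at h2
    rw [h1, Fintype.card_sum, Fintype.card_fin, Fintype.card_fin]
    omega

theorem exists_coeff (hF : RRField K F g) {M : ℕ} {f : F}
    (hf : f ∈ riemannRochSpace (atBase P₀ (2 * g - 1 + M))) :
    ∃ c : Fin g ⊕ Fin M → K, ∑ i, c i • B.bas M i = f :=
  (Submodule.mem_span_range_iff_exists_fun K).mp (by rw [B.span_bas hF]; exact hf)

end NormalBasis

/-- An effective divisor of degree `g` in general position with respect to `P₀`. -/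
structure IsGood (g : ℕ) (P₀ : Place K F) (D : Divisor K F) : Prop where
  nonneg : 0 ≤ D
  degree : Divisor.degree D = g
  nonspecial : riemannRochSpace (D - atBase P₀ 1) = ⊥
  complement : riemannRochSpace (atBase P₀ (2 * g - 1) - D) = ⊥

theorem IsGood.apply_base {P₀ : Place K F} {D : Divisor K F} (h : IsGood g P₀ D) : D P₀ = 0 := by
  have h0 := Finsupp.le_def.mp h.nonneg P₀
  simp only [Finsupp.coe_zero, Pi.zero_apply] at h0
  by_contra hne
  have h1 : (1 : F) ∈ riemannRochSpace (D - atBase P₀ 1) := by
    refine one_mem_riemannRochSpace (Finsupp.le_def.mpr fun v => ?_)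
    have hv := Finsupp.le_def.mp h.nonneg v
    simp only [Finsupp.coe_zero, Pi.zero_apply, Finsupp.sub_apply] at hv ⊢
    rcases eq_or_ne v P₀ with rfl | hv'
    · rw [Finsupp.single_eq_same]; omega
    · rw [Finsupp.single_eq_of_ne hv']; omega
  rw [h.nonspecial] at h1
  exact one_ne_zero ((Submodule.mem_bot K).mp h1)

/-- A function of pole order at most `2g - 1` vanishing on a good divisor is zero. -/
theorem IsGood.eq_zero {P₀ : Place K F} {D : Divisor K F} (h : IsGood g P₀ D) {N : ℤ} {y : F}
    (hy : y ∈ riemannRochSpace (atBase P₀ (2 * g - 1)))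
    (hyD : y ∈ riemannRochSpace (atBase P₀ N - D)) : y = 0 := by
  have : y ∈ riemannRochSpace (atBase P₀ (2 * g - 1) - D) := by
    rcases eq_or_ne y 0 with rfl | hy0
    · exact Submodule.zero_mem _
    refine mem_space_iff.mpr (Or.inr fun v => ?_)
    have h1 := (mem_space_iff.mp hy).resolve_left hy0 v
    have h2 := (mem_space_iff.mp hyD).resolve_left hy0 v
    rw [Finsupp.sub_apply] at h2 ⊢
    rcases eq_or_ne v P₀ with rfl | hv
    · rw [h.apply_base]; omega
    · rw [Finsupp.single_eq_of_ne hv] at h1 h2 ⊢; omega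
  rw [h.complement] at this
  exact (Submodule.mem_bot K).mp this

namespace NormalBasis

variable {P₀ : Place K F} (B : NormalBasis K F g P₀)

/-- The function `E t - ∑ c l • C l`. -/
def reduced (c : Fin g → K) (t : ℕ) : F := B.E t - ∑ l, c l • B.C l

/-- `c` is the coordinate family of the divisor `D`. -/
def IsCoord (D : Divisor K F) (c : ℕ → Fin g → K) : Prop :=
  ∀ t : ℕ, B.reduced (c t) t ∈ riemannRochSpace (atBase P₀ (2 * g + t) - D)

theorem sumC_mem (c : Fin g → K) :
    ∑ l, c l • B.C l ∈ riemannRochSpace (atBase P₀ (2 * g - 1)) :=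
  Submodule.sum_mem _ fun l _ => Submodule.smul_mem _ _ (B.C_mem l)

theorem reduced_ne_zero (c : Fin g → K) (t : ℕ) : B.reduced c t ≠ 0 := by
  intro h
  have h1 := B.sumC_mem c
  rw [← sub_eq_zero.mp h] at h1
  have := (mem_space_iff.mp h1).resolve_left (B.E_ne t) P₀
  rw [Finsupp.single_eq_same, B.E_ord] at this
  omega

theorem reduced_mem (c : Fin g → K) (t : ℕ) :
    B.reduced c t ∈ riemannRochSpace (atBase P₀ (2 * g + t)) :=
  Submodule.sub_mem _ (B.E_mem t)
    (riemannRochSpace_mono (Finsupp.single_mono (by omega)) (B.sumC_mem c))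

theorem reduced_ord (c : Fin g → K) (t : ℕ) : P₀.ord (B.reduced c t) = -(2 * (g : ℤ) + t) := by
  have h1 := (mem_space_iff.mp (B.reduced_mem c t)).resolve_left (B.reduced_ne_zero c t) P₀
  rw [Finsupp.single_eq_same] at h1
  by_contra hne
  have h2 : B.reduced c t ∈ riemannRochSpace (atBase P₀ (2 * g - 1 + t)) := by
    refine mem_space_iff.mpr (Or.inr fun v => ?_)
    have h3 := (mem_space_iff.mp (B.reduced_mem c t)).resolve_left (B.reduced_ne_zero c t) v
    rcases eq_or_ne v P₀ with rfl | hv
    · rw [Finsupp.single_eq_same]; omega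
    · rw [Finsupp.single_eq_of_ne hv] at h3 ⊢; omega
  have h4 : B.E t ∈ riemannRochSpace (atBase P₀ (2 * g - 1 + t)) := by
    have := Submodule.add_mem _ h2
      (riemannRochSpace_mono (E := atBase P₀ (2 * g - 1 + t))
        (Finsupp.single_mono (by omega)) (B.sumC_mem c))
    rwa [reduced, sub_add_cancel] at this
  have := (mem_space_iff.mp h4).resolve_left (B.E_ne t) P₀
  rw [Finsupp.single_eq_same, B.E_ord] at this
  omega

theorem coord_unique {D : Divisor K F} (hD : IsGood g P₀ D) {c c' : ℕ → Fin g → K}
    (h : B.IsCoord D c) (h' : B.IsCoord D c') : c = c' := by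
  funext t l
  have h1 := Submodule.sub_mem _ (h' t) (h t)
  have e : B.reduced (c' t) t - B.reduced (c t) t = ∑ l, (c t l - c' t l) • B.C l := by
    simp only [reduced, sub_smul, Finset.sum_sub_distrib]; abel
  rw [e] at h1
  have h2 := hD.eq_zero (B.sumC_mem _) h1
  exact sub_eq_zero.mp (Fintype.linearIndependent_iff.mp B.C_indep _ h2 l)

theorem exists_coord (hF : RRField K F g) {D : Divisor K F} (hD : IsGood g P₀ D) :
    ∃ c, B.IsCoord D c := by
  suffices h : ∀ t : ℕ, ∃ c, B.reduced c t ∈ riemannRochSpace (atBase P₀ (2 * g + t) - D) from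
    ⟨fun t => (h t).choose, fun t => (h t).choose_spec⟩
  intro t
  set S := riemannRochSpace (atBase P₀ (2 * g + t)) with hS
  set W := riemannRochSpace (atBase P₀ (2 * g + t) - D) with hW
  set V := Submodule.span K (Set.range B.C) with hV
  haveI : FiniteDimensional K S := hF.finite_space _
  haveI : FiniteDimensional K W := hF.finite_space _
  haveI : FiniteDimensional K V := FiniteDimensional.span_of_finite K (Set.finite_range _)
  have hle : V ⊔ W ≤ S := by
    refine sup_le (Submodule.span_le.mpr ?_) (riemannRochSpace_mono (sub_le_self _ hD.nonneg))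
    rintro _ ⟨l, rfl⟩
    exact riemannRochSpace_mono (Finsupp.single_mono (by omega)) (B.C_mem l)
  have hdisj : V ⊓ W = ⊥ := by
    rw [eq_bot_iff]
    rintro x ⟨hxV, hxW⟩
    obtain ⟨c, rfl⟩ := (Submodule.mem_span_range_iff_exists_fun K).mp hxV
    exact (Submodule.mem_bot K).mpr (hD.eq_zero (B.sumC_mem c) hxW)
  have heq : V ⊔ W = S := by
    refine Submodule.eq_of_le_of_finrank_le hle ?_
    have h1 := Submodule.finrank_sup_add_finrank_inf_eq V W
    rw [hdisj, finrank_bot, add_zero, finrank_span_eq_card B.C_indep, Fintype.card_fin] at h1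
    have h2 := le_finrank_space hF (atBase P₀ (2 * g + t) - D)
    rw [map_sub, Divisor.degree_single, hF.deg_one, hD.degree] at h2
    have h3 := hF.finrank_space (atBase P₀ (2 * g + t)) (by
      rw [Divisor.degree_single, hF.deg_one]; omega)
    rw [Divisor.degree_single, hF.deg_one] at h3
    rw [← hW] at h2
    rw [← hS] at h3
    omega
  have hmem : B.E t ∈ V ⊔ W := by rw [heq]; exact B.E_mem t
  obtain ⟨x, hx, y, hy, hxy⟩ := Submodule.mem_sup.mp hmem
  obtain ⟨c, rfl⟩ := (Submodule.mem_span_range_iff_exists_fun K).mp hx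
  exact ⟨c, by rw [reduced, ← hxy, add_sub_cancel_left]; exact hy⟩

theorem exists_reduced_coeff (hF : RRField K F g) {D : Divisor K F} (hD : IsGood g P₀ D)
    {c : ℕ → Fin g → K} (hc : B.IsCoord D c) {M : ℕ} {f : F}
    (hf : f ∈ riemannRochSpace (atBase P₀ (2 * g - 1 + M) - D)) :
    ∃ d : Fin M → K, ∑ t, d t • B.reduced (c t) t = f := by
  obtain ⟨a, ha⟩ := B.exists_coeff hF (riemannRochSpace_mono (sub_le_self _ hD.nonneg) hf)
  refine ⟨fun t => a (Sum.inr t), ?_⟩
  have hr : ∑ t : Fin M, a (Sum.inr t) • B.reduced (c t) t ∈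
      riemannRochSpace (atBase P₀ (2 * g - 1 + M) - D) :=
    Submodule.sum_mem _ fun t _ => Submodule.smul_mem _ _ (riemannRochSpace_mono
      (sub_le_sub_right (Finsupp.single_mono (by have := t.2; omega)) D) (hc t))
  have hd := Submodule.sub_mem _ hf hr
  have e : f - ∑ t : Fin M, a (Sum.inr t) • B.reduced (c t) t
      = ∑ l, (a (Sum.inl l) + ∑ t : Fin M, a (Sum.inr t) * c t l) • B.C l := by
    rw [← ha, Fintype.sum_sum_type]
    simp only [bas, Sum.elim_inl, Sum.elim_inr, reduced, smul_sub, Finset.sum_sub_distrib,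
      add_smul, Finset.sum_add_distrib, Finset.sum_smul, Finset.smul_sum, smul_smul]
    rw [Finset.sum_comm]
    abel
  rw [e] at hd
  rw [eq_comm, ← sub_eq_zero, e]
  exact hD.eq_zero (B.sumC_mem _) hd

theorem reduced_indep (c : ℕ → Fin g → K) (M : ℕ) :
    LinearIndependent K fun t : Fin M => B.reduced (c t) t := by
  rw [Fintype.linearIndependent_iff]
  intro d hd t
  have h2 := Fintype.linearIndependent_iff.mp (B.bas_indep M)
    (Sum.elim (fun l => -∑ t : Fin M, d t * c t l) d) (by
      rw [Fintype.sum_sum_type]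
      simp only [bas, Sum.elim_inl, Sum.elim_inr]
      rw [← hd]
      simp only [reduced, smul_sub, Finset.sum_sub_distrib, neg_smul, Finset.sum_neg_distrib,
        Finset.sum_smul, Finset.smul_sum, smul_smul]
      rw [Finset.sum_comm]
      abel) (Sum.inr t)
  simpa using h2

end NormalBasis

end FermatLib.Igusa.TorsionModel
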