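import Fermat.Agent.Igusa.LaurentLattice
import Fermat.Agent.Igusa.TorsionModel.SpecData

/-!
# Integral rational bases of Galois stable spaces of series

A finite dimensional space of Laurent series over `ℚ̄`, stable under the Galois action on
coefficients and with bounded denominators at a place over `ℓ`, has a basis with coefficients in
`ℤ_(ℓ)` whose reductions are independent.
-/

set_option autoImplicit false

noncomputable section

open ModularCurve HahnSeries

namespace FermatLib.Igusa.TorsionModel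

local notation "Qbar" => AlgebraicClosure ℚ
local notation "Γℚ" => (AlgebraicClosure ℚ ≃ₐ[ℚ] AlgebraicClosure ℚ)

variable {ℓ : ℕ}

set_option quotPrecheck false in
local notation "O" => ↥(GaloisRep.ratLocalizedAt ℓ)

theorem coeff_smul_series {K : Type*} [Field K] (c : K) (x : LaurentSeries K) (i : ℤ) :
    (c • x).coeff i = c * x.coeff i := by
  rw [laurent_smul_eq, HahnSeries.coeff_single_zero_mul]

/-- A coefficient as a linear form. -/
def coeffForm (K : Type*) [Field K] (i : ℤ) : LaurentSeries K →ₗ[K] K where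
  toFun x := x.coeff i
  map_add' _ _ := by simp
  map_smul' c x := coeff_smul_series c x i

@[simp] theorem coeffForm_apply {K : Type*} [Field K] (i : ℤ) (x : LaurentSeries K) :
    coeffForm K i x = x.coeff i := rfl

/-- Stability under the Galois action on coefficients. -/
def IsGalStable (V : Submodule Qbar (LaurentSeries Qbar)) : Prop :=
  ∀ σ : Γℚ, ∀ x ∈ V, coeffMap (σ : Qbar →+* Qbar) x ∈ V

theorem IsGalStable.inf_coeff {V : Submodule Qbar (LaurentSeries Qbar)} (hV : IsGalStable V)
    (i : ℤ) : IsGalStable (V ⊓ LinearMap.ker (coeffForm Qbar i)) := by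
  intro σ x hx
  obtain ⟨hx, hi⟩ := Submodule.mem_inf.mp hx
  refine Submodule.mem_inf.mpr ⟨hV σ x hx, ?_⟩
  rw [LinearMap.mem_ker, coeffForm_apply] at hi ⊢
  rw [coeffMap_coeff, hi, map_zero]

theorem finrank_inf_coeff {V : Submodule Qbar (LaurentSeries Qbar)} [FiniteDimensional Qbar V]
    {i : ℤ} {x : LaurentSeries Qbar} (hx : x ∈ V) (hi : x.coeff i ≠ 0) :
    Module.finrank Qbar ↥(V ⊓ LinearMap.ker (coeffForm Qbar i)) + 1 = Module.finrank Qbar V := by
  set f : V →ₗ[Qbar] Qbar := (coeffForm Qbar i).comp V.subtype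
  have hsurj : Function.Surjective f := fun c => ⟨(c * (x.coeff i)⁻¹) • ⟨x, hx⟩, by
    simp [f, mul_assoc, inv_mul_cancel₀ hi]⟩
  have hk := f.finrank_range_add_finrank_ker
  rw [LinearMap.range_eq_top.mpr hsurj, finrank_top, Module.finrank_self] at hk
  have he : Submodule.map V.subtype (LinearMap.ker f) = V ⊓ LinearMap.ker (coeffForm Qbar i) := by
    rw [LinearMap.ker_comp, Submodule.map_comap_eq, Submodule.range_subtype]
  rw [← he, Submodule.finrank_map_subtype_eq]
  omega

/-- A nonzero Galois stable finite dimensional space has a nonzero fixed element. -/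
theorem exists_galFixed (n : ℕ) : ∀ (V : Submodule Qbar (LaurentSeries Qbar)),
    FiniteDimensional Qbar V → IsGalStable V → Module.finrank Qbar V = n + 1 →
    ∃ y ∈ V, y ≠ 0 ∧ ∀ σ : Γℚ, coeffMap (σ : Qbar →+* Qbar) y = y := by
  induction n with
  | zero =>
    intro V hfin hV hn
    obtain ⟨x, hx, hx0⟩ := Submodule.exists_mem_ne_zero_of_ne_bot
      (p := V) fun h => by rw [h, finrank_bot] at hn; omega
    obtain ⟨i, hi⟩ : ∃ i, x.coeff i ≠ 0 := by
      by_contra hcon; push Not at hcon; exact hx0 (HahnSeries.ext (funext hcon))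
    set y := (x.coeff i)⁻¹ • x with hy
    have hyV : y ∈ V := Submodule.smul_mem _ _ hx
    have hyi : y.coeff i = 1 := by
      rw [← coeffForm_apply, hy, map_smul, coeffForm_apply, smul_eq_mul, inv_mul_cancel₀ hi]
    refine ⟨y, hyV, fun h => by simp [h] at hyi, fun σ => ?_⟩
    by_contra hne
    have hd := finrank_inf_coeff hyV (hyi ▸ one_ne_zero : y.coeff i ≠ 0)
    have hmem : coeffMap (σ : Qbar →+* Qbar) y - y ∈ V ⊓ LinearMap.ker (coeffForm Qbar i) := by
      refine Submodule.mem_inf.mpr ⟨Submodule.sub_mem _ (hV σ y hyV) hyV, ?_⟩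
      rw [LinearMap.mem_ker, map_sub, coeffForm_apply, coeffForm_apply, coeffMap_coeff, hyi,
        map_one, sub_self]
    have : V ⊓ LinearMap.ker (coeffForm Qbar i) = ⊥ := by
      have : FiniteDimensional Qbar ↥(V ⊓ LinearMap.ker (coeffForm Qbar i)) :=
        Submodule.finiteDimensional_of_le inf_le_left
      exact Submodule.finrank_eq_zero.mp (by omega)
    rw [this, Submodule.mem_bot, sub_eq_zero] at hmem
    exact hne hmem
  | succ n ih =>
    intro V hfin hV hn
    obtain ⟨x, hx, hx0⟩ := Submodule.exists_mem_ne_zero_of_ne_bot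
      (p := V) fun h => by rw [h, finrank_bot] at hn; omega
    obtain ⟨i, hi⟩ : ∃ i, x.coeff i ≠ 0 := by
      by_contra hcon; push Not at hcon; exact hx0 (HahnSeries.ext (funext hcon))
    have hd := finrank_inf_coeff hx hi
    obtain ⟨y, hy, hy0, hfix⟩ := ih _ (Submodule.finiteDimensional_of_le inf_le_left)
      (hV.inf_coeff i) (by omega)
    exact ⟨y, (Submodule.mem_inf.mp hy).1, hy0, hfix⟩

variable {hℓ : ℓ.Prime} {A₀ : ValuationSubring (AlgebraicClosure ℚ)} {hA₀ : A₀.LiesOverPrime ℓ}

include hℓ hA₀ in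
/-- A rational number integral at a place over `ℓ` lies in `ℤ_(ℓ)`. -/
theorem mem_ratLocalizedAt_of_mem {q : ℚ} (hq : algebraMap ℚ Qbar q ∈ A₀) :
    q ∈ GaloisRep.ratLocalizedAt ℓ := by
  show q.den.Coprime ℓ
  rw [Nat.coprime_comm, hℓ.coprime_iff_not_dvd]
  intro hdvd
  obtain ⟨m, hm⟩ := hdvd
  have hnum : Nat.Coprime q.num.natAbs ℓ :=
    Nat.Coprime.coprime_dvd_right ⟨m, hm⟩ q.reduced
  have hmem : (⟨ℓ, natCast_mem A₀ ℓ⟩ : A₀) ∈ IsLocalRing.maximalIdeal A₀ :=
    ValuationSubring.coe_mem_nonunits_iff.mp hA₀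
  have h1 := Ideal.mul_mem_left (IsLocalRing.maximalIdeal A₀)
    (⟨algebraMap ℚ Qbar q, hq⟩ * ⟨m, natCast_mem A₀ m⟩) hmem
  have he : algebraMap ℚ Qbar q * (m : Qbar) * (ℓ : Qbar) = (q.num : Qbar) := by
    have : q * ((m : ℚ) * ℓ) = (q.num : ℚ) := by
      rw [show ((m : ℚ) * ℓ) = (q.den : ℚ) by rw [hm]; push_cast; ring]
      exact Rat.mul_den_eq_num q
    rw [mul_assoc]
    have := congrArg (algebraMap ℚ Qbar) this
    simpa using this
  have h2 : (q.num : Qbar) ∈ A₀.nonunits := by
    rw [← he]; exact ValuationSubring.coe_mem_nonunits_iff.mpr h1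
  refine intCast_not_mem_nonunits hℓ A₀ hA₀ hnum ?_
  rcases Int.natAbs_eq q.num with h | h
  · rwa [h, Int.cast_natCast] at h2
  · rw [h, Int.cast_neg, Int.cast_natCast] at h2
    simpa using h2

include hℓ hA₀ in
/-- A Galois fixed series with bounded denominators has an integral rational normalisation. -/
theorem exists_normalised {y : LaurentSeries Qbar} (hfix : ∀ σ : Γℚ, coeffMap (σ : Qbar →+* Qbar) y = y)
    {c : Qbar} {y' : LaurentSeries A₀} (hy' : latVal A₀ y' = c • y)
    (hred : latRed (IsLocalRing.residue A₀) y' ≠ 0) :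
    ∃ (z : LaurentSeries O) (i : ℤ) (a : Qbar),
      coeffMap (algebraMap O Qbar) z = a • y ∧ z.coeff i = 1 := by
  obtain ⟨i, hi⟩ : ∃ i, IsLocalRing.residue A₀ (y'.coeff i) ≠ 0 := by
    by_contra hcon; push Not at hcon
    exact hred (HahnSeries.ext (funext fun j => by rw [latRed_coeff]; exact hcon j))
  obtain ⟨w, hw⟩ := (not_not.mp fun h => hi ((IsLocalRing.residue_eq_zero_iff _).mpr
    ((IsLocalRing.mem_maximalIdeal _).mpr h)) : IsUnit (y'.coeff i)).exists_left_inv
  have hcoeff : ∀ j, ((y'.coeff j : A₀) : Qbar) = c * y.coeff j := fun j => by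
    rw [← latVal_coeff, hy', laurent_smul_eq, HahnSeries.coeff_single_zero_mul]
  have hwq : (w : Qbar) * (c * y.coeff i) = 1 := by
    rw [← hcoeff]; exact congrArg Subtype.val hw
  have hc : c ≠ 0 := fun h => by simp [h] at hwq
  have hyi : y.coeff i ≠ 0 := fun h => by simp [h] at hwq
  have hrat : ∀ j, ∃ r : O, algebraMap O Qbar r = (y.coeff i)⁻¹ * y.coeff j := by
    intro j
    obtain ⟨q, hq⟩ := (InfiniteGalois.mem_range_algebraMap_iff_fixed (k := ℚ)
      ((y.coeff i)⁻¹ * y.coeff j)).mpr fun σ => by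
        have h1 := fun j => congrArg (fun s : LaurentSeries Qbar => s.coeff j) (hfix σ)
        simp only [coeffMap_coeff] at h1
        show σ _ = _
        rw [map_mul, map_inv₀]
        exact congrArg₂ (fun a b => a⁻¹ * b) (h1 i) (h1 j)
    refine ⟨⟨q, mem_ratLocalizedAt_of_mem (hℓ := hℓ) (A₀ := A₀) (hA₀ := hA₀) ?_⟩, hq⟩
    rw [hq]
    have h2 := mul_mem w.2 (y'.coeff j).2
    rw [hcoeff, show (w : Qbar) * (c * y.coeff j) = (y.coeff i)⁻¹ * y.coeff j by
      rw [eq_inv_mul_iff_mul_eq₀ hyi]; linear_combination y.coeff j * hwq] at h2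
    exact h2
  choose r hr using hrat
  let z : LaurentSeries O := HahnSeries.mk r (y.isPWO_support.mono fun j hj hyj => hj <| by
    apply Subtype.ext
    apply (algebraMap ℚ Qbar).injective
    rw [← algebraMap_localBase, hr, hyj, mul_zero]
    simp)
  refine ⟨z, i, (y.coeff i)⁻¹, HahnSeries.ext (funext fun j => ?_), ?_⟩
  · rw [coeffMap_coeff, laurent_smul_eq, HahnSeries.coeff_single_zero_mul]
    exact hr j
  · refine Subtype.ext ((algebraMap ℚ Qbar).injective ?_)
    show algebraMap ℚ Qbar (r i : ℚ) = algebraMap ℚ Qbar ((1 : O) : ℚ)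
    rw [← algebraMap_localBase, hr, inv_mul_cancel₀ hyi]
    simp

/-- Bounded denominators at `A₀`. -/
def HasBoundedDenom (A₀ : ValuationSubring Qbar) (V : Submodule Qbar (LaurentSeries Qbar)) : Prop :=
  ∀ x ∈ V, x ≠ 0 → ∃ (c : Qbar) (y : LaurentSeries A₀),
    latVal A₀ y = c • x ∧ latRed (IsLocalRing.residue A₀) y ≠ 0

theorem exists_integral_basis (n : ℕ) : ∀ (V : Submodule Qbar (LaurentSeries Qbar)),
    FiniteDimensional Qbar V → IsGalStable V → HasBoundedDenom A₀ V →
    Module.finrank Qbar V = n →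
    ∃ z : Fin n → LaurentSeries O, (∀ i, coeffMap (algebraMap O Qbar) (z i) ∈ V) ∧
      LinearIndependent (IsLocalRing.ResidueField A₀)
        fun i => coeffMap (baseRes hℓ A₀ hA₀) (z i) := by
  induction n with
  | zero => exact fun V _ _ _ _ => ⟨Fin.elim0, fun i => i.elim0, linearIndependent_empty_type⟩
  | succ n ih =>
    intro V hfin hV hb hn
    obtain ⟨y, hy, hy0, hfix⟩ := exists_galFixed n V hfin hV hn
    obtain ⟨c, y', hy', hred⟩ := hb y hy hy0
    obtain ⟨z₀, i, a, hz₀, hzi⟩ := exists_normalised (hℓ := hℓ) (hA₀ := hA₀) hfix hy' hred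
    have hz₀V : coeffMap (algebraMap O Qbar) z₀ ∈ V := hz₀ ▸ Submodule.smul_mem _ _ hy
    have hd := finrank_inf_coeff hz₀V (i := i) (by simp [coeffMap_coeff, hzi])
    obtain ⟨z, hz, hind⟩ := ih (V ⊓ LinearMap.ker (coeffForm Qbar i))
      (Submodule.finiteDimensional_of_le inf_le_left) (hV.inf_coeff i)
      (fun x hx => hb x (Submodule.mem_inf.mp hx).1) (by omega)
    refine ⟨Fin.cons z₀ z, fun j => ?_, ?_⟩
    · refine Fin.cases ?_ (fun j => ?_) j
      · simpa using hz₀V
      · simpa using (Submodule.mem_inf.mp (hz j)).1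
    · have e : (fun j => coeffMap (baseRes hℓ A₀ hA₀) ((Fin.cons z₀ z : Fin (n + 1) → _) j)) =
          Fin.cons (coeffMap (baseRes hℓ A₀ hA₀) z₀)
            fun j => coeffMap (baseRes hℓ A₀ hA₀) (z j) := by
        funext j; refine Fin.cases ?_ (fun j => ?_) j <;> simp
      rw [e, linearIndependent_finCons]
      refine ⟨hind, fun hmem => ?_⟩
      have hle : Submodule.span (IsLocalRing.ResidueField A₀)
          (Set.range fun j => coeffMap (baseRes hℓ A₀ hA₀) (z j)) ≤
          LinearMap.ker (coeffForm _ i) := by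
        rw [Submodule.span_le]
        rintro _ ⟨j, rfl⟩
        have h0 := LinearMap.mem_ker.mp (Submodule.mem_inf.mp (hz j)).2
        have h1 : (z j).coeff i = 0 := by
          refine Subtype.ext ((algebraMap ℚ Qbar).injective ?_)
          rw [coeffForm_apply, coeffMap_coeff, algebraMap_localBase] at h0
          simpa using h0
        rw [SetLike.mem_coe, LinearMap.mem_ker, coeffForm_apply, coeffMap_coeff, h1, map_zero]
      have h2 := LinearMap.mem_ker.mp (hle hmem)
      rw [coeffForm_apply, coeffMap_coeff, hzi, map_one] at h2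
      exact one_ne_zero h2

end FermatLib.Igusa.TorsionModel
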