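import Fermat.Agent.Igusa.TorsionModel.NormalBasis
import Fermat.Agent.Curve.KaehlerDivisor
import Fermat.Agent.Curve.PoleDegree
import Fermat.Agent.Curve.PlaceConstruction
import Mathlib.FieldTheory.PurelyInseparable.Basic

/-!
# Simple fibres of a function with one pole of order prime to the characteristic
-/

set_option autoImplicit false
set_option linter.unusedSectionVars false

noncomputable section

open AlgebraicCurve
open scoped IntermediateField

namespace FermatLib.Igusa.TorsionModel

variable {K F : Type*} [Field K] [Field F] [Algebra K F] [IsAlgClosed K]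
  [Curve.IsFunctionField K F]

/-- A function whose only pole has order `n`. -/
structure IsOnePole (f : F) (P₀ : Place K F) (n : ℕ) : Prop where
  ord_base : P₀.ord f = -(n : ℤ)
  regular : ∀ v, v ≠ P₀ → 0 ≤ v.ord f
  pos : 0 < n

theorem IsOnePole.transcendental {f : F} {P₀ : Place K F} {n : ℕ} (h : IsOnePole f P₀ n) :
    Transcendental K f :=
  Curve.transcendental_of_ord_ne_zero (v := P₀) (by have := h.pos; rw [h.ord_base]; omega)

theorem IsOnePole.finrank_eq {f : F} {P₀ : Place K F} {n : ℕ} (h : IsOnePole f P₀ n) :
    Module.finrank K⟮f⟯ F = n := by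
  have h1 := Curve.sum_poles_ord_mul_deg (K := K) h.transcendental
  have hp : Curve.poles K f = {P₀} := by
    ext v
    rw [Curve.mem_poles, Finset.mem_singleton]
    constructor
    · intro hv
      by_contra hne
      have := h.regular v hne
      omega
    · rintro rfl
      have := h.pos
      rw [h.ord_base]
      omega
  rw [hp, Finset.sum_singleton, h.ord_base, Curve.deg_eq_one] at h1
  omega

/-- A function with one pole of order prime to the characteristic is separating. -/
theorem IsOnePole.isSeparable {f : F} {P₀ : Place K F} {n : ℕ} (h : IsOnePole f P₀ n)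
    (hn : (n : K) ≠ 0) : Algebra.IsSeparable K⟮f⟯ F := by
  have := Curve.finiteDimensional_adjoin_of_transcendental (K := K) (F := F) h.transcendental
  rw [isSeparable_iff_finInsepDegree_eq_one]
  obtain ⟨q, hq⟩ := ExpChar.exists K
  have : ExpChar K⟮f⟯ q := expChar_of_injective_algebraMap (algebraMap K K⟮f⟯).injective q
  obtain ⟨e, he⟩ := finInsepDegree_eq_pow K⟮f⟯ F q
  have hdvd : Field.finInsepDegree K⟮f⟯ F ∣ n :=
    ⟨Field.finSepDegree K⟮f⟯ F, by
      rw [mul_comm, Field.finSepDegree_mul_finInsepDegree, h.finrank_eq]⟩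
  rw [he] at hdvd ⊢
  rcases Nat.eq_zero_or_pos e with rfl | hepos
  · exact pow_zero q
  rcases hq with _ | ⟨hqp⟩
  · exact one_pow e
  exfalso
  refine hn ((CharP.cast_eq_zero_iff K q n).mpr ?_)
  exact (dvd_pow_self q hepos.ne').trans hdvd

/-- Almost all values of such a function are taken at simple zeros. -/
theorem IsOnePole.finite_multiple (hdeg : ∀ v : Place K F, v.deg = 1)
    (hpd : HasPrincipalDivisors K F) {f : F} {P₀ : Place K F} {n : ℕ} (h : IsOnePole f P₀ n)
    (hn : (n : K) ≠ 0) :
    {v : Place K F | ∃ c : K, 2 ≤ v.ord (f - algebraMap K F c)}.Finite := by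
  have hfin := Curve.finiteDimensional_adjoin_of_transcendental (K := K) (F := F) h.transcendental
  have hsep := h.isSeparable hn
  refine (Curve.finite_ordDifferential_D_ne_zero h.transcendental hdeg).subset fun v hv => ?_
  obtain ⟨c, hc⟩ := hv
  simp only [Set.mem_ofPred_eq]
  have hΩ := (Curve.finrank_kaehler_eq_one h.transcendental).2
  have hD0 : KaehlerDifferential.D K F f ≠ 0 := Curve.D_ne_zero_of_separating h.transcendental
  set x := f - algebraMap K F c with hx
  have hDx : KaehlerDifferential.D K F x = KaehlerDifferential.D K F f := by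
    rw [hx, map_sub, Derivation.map_algebraMap, sub_zero]
  by_cases hm : (v.ord x : K) = 0
  · have := Curve.dCoordGenerates_of_deg_eq_one v (hdeg v) hΩ
    have : Nontrivial Ω[F⁄K] := Module.nontrivial_of_finrank_eq_succ (n := 0) hΩ
    obtain ⟨π, hπ⟩ := IsDiscreteValuationRing.exists_irreducible v.toValuationSubring
    have hx0 : x ≠ 0 := fun e => by rw [e, Place.ord_zero] at hc; omega
    obtain ⟨u, hu⟩ := v.exists_unit_mul_zpow hx0 hπ
    set w : F := (π : F) ^ v.ord x with hw
    have hw0 : w ≠ 0 := fun e => hx0 (by rw [hu, e, mul_zero])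
    have hwD : KaehlerDifferential.D K F w = 0 := by
      rw [hw, show v.ord x = ((v.ord x).toNat : ℤ) from (Int.toNat_of_nonneg (by omega)).symm,
        zpow_natCast, Derivation.leibniz_pow]
      have h0 : (((v.ord x).toNat : ℕ) : K) = 0 := by
        rw [← Int.cast_natCast (R := K), Int.toNat_of_nonneg (by omega)]
        exact hm
      rw [← Nat.cast_smul_eq_nsmul K, h0, zero_smul]
    have hD : KaehlerDifferential.D K F x =
        w • KaehlerDifferential.D K F ((u : v.toValuationSubring) : F) := by
      rw [hu, Derivation.leibniz, hwD, smul_zero, zero_add]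
    have hDu : KaehlerDifferential.D K F ((u : v.toValuationSubring) : F) ≠ 0 := fun e => by
      rw [e, smul_zero] at hD
      exact hD0 (hDx ▸ hD)
    rw [← hDx, hD, Curve.ordDifferential_smul_of_ne v hw0 hDu]
    have h1 := Curve.ordDifferential_D_nonneg v (hdeg v) hΩ
      (f := ((u : v.toValuationSubring) : F)) (Or.inr (v.ord_coe_unit u).ge)
    have h2 : v.ord w = v.ord x := by
      rw [hw, v.ord_zpow, v.ord_coe_irreducible hπ, mul_one]
    omega
  · rw [← hDx, (Curve.ordDifferential_D_of_deg_eq_one v (hdeg v) hΩ hm).2]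
    omega

end FermatLib.Igusa.TorsionModel
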