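import Fermat.Agent.Igusa.TorsionModel.NormalBasis

/-!
# The linear systems computing the divisor in the class `D₁ + D₂ - Dc`

Given good divisors with `D₁ + D₂ - D₃ - Dc` principal, the coordinates of `D₃` are determined by
two overdetermined linear systems whose coefficients are polynomials in those of `D₁, D₂, Dc`.
-/

set_option autoImplicit false
set_option linter.unusedSectionVars false

noncomputable section

open AlgebraicCurve

namespace FermatLib.Igusa.TorsionModel

variable {K F : Type*} [Field K] [Field F] [Algebra K F] {g : ℕ}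

namespace NormalBasis

variable {P₀ : Place K F} (B : NormalBasis K F g P₀)

/-- The auxiliary function `φ` vanishing on two divisors. -/
def phi (c₁ c₂ : ℕ → Fin g → K) : F := B.reduced (c₁ g) g * B.reduced (c₂ g) g

/-- The unknown function of the first system. -/
def xVec (j : ℕ) (a : Fin g ⊕ Fin (4 * g) → K) : F :=
  B.E (4 * g + j) + ∑ i, a i • B.bas (4 * g) i

/-- The equations of the first system. -/
def StageOne (c₁ c₂ cc : ℕ → Fin g → K) (j : ℕ) (a : Fin g ⊕ Fin (4 * g) → K)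
    (u : Fin (g + 1) → Fin (g + 1) → Fin (5 * g + 1) → K) : Prop :=
  ∀ s t : Fin (g + 1), B.xVec j a * (B.reduced (c₁ s) s * B.reduced (c₂ t) t) =
    B.phi c₁ c₂ * ∑ l, u s t l • B.reduced (cc l) l

/-- The homogeneous first system. -/
def StageOneZero (c₁ c₂ cc : ℕ → Fin g → K) (a : Fin g ⊕ Fin (4 * g) → K)
    (u : Fin (g + 1) → Fin (g + 1) → Fin (5 * g + 1) → K) : Prop :=
  ∀ s t : Fin (g + 1),
    (∑ i, a i • B.bas (4 * g) i) * (B.reduced (c₁ s) s * B.reduced (c₂ t) t) =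
      B.phi c₁ c₂ * ∑ l, u s t l • B.reduced (cc l) l

/-- The equations of the second system, for the `i`-th coordinate vector. -/
def StageTwo (i : ℕ) (a : ℕ → Fin g ⊕ Fin (4 * g) → K) (y : Fin g → K)
    (u : Fin (g + 1) → Fin g ⊕ Fin (6 * g + 1) → K) : Prop :=
  ∀ j : Fin (g + 1), B.reduced y i * B.xVec j (a j) =
    B.xVec 0 (a 0) * ∑ k, u j k • B.bas (6 * g + 1) k

/-- The homogeneous second system. -/
def StageTwoZero (a : ℕ → Fin g ⊕ Fin (4 * g) → K) (y : Fin g → K)
    (u : Fin (g + 1) → Fin g ⊕ Fin (6 * g + 1) → K) : Prop :=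
  ∀ j : Fin (g + 1), (∑ l, y l • B.C l) * B.xVec j (a j) =
    B.xVec 0 (a 0) * ∑ k, u j k • B.bas (6 * g + 1) k

theorem xVec_zero_ne (a : Fin g ⊕ Fin (4 * g) → K) : B.xVec 0 a ≠ 0 := by
  intro h
  have h1 : B.E (4 * g) ∈ riemannRochSpace (atBase P₀ (2 * g - 1 + (4 * g : ℕ))) := by
    rw [show B.E (4 * g) = -(∑ i, a i • B.bas (4 * g) i) from eq_neg_of_add_eq_zero_left h]
    exact Submodule.neg_mem _ (Submodule.sum_mem _ fun i _ =>
      Submodule.smul_mem _ _ (B.bas_mem _ i))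
  have := (mem_space_iff.mp h1).resolve_left (B.E_ne _) P₀
  rw [Finsupp.single_eq_same, B.E_ord] at this
  omega

theorem xVec_mem (j : ℕ) (a : Fin g ⊕ Fin (4 * g) → K) :
    B.xVec j a ∈ riemannRochSpace (atBase P₀ (6 * g + j)) := by
  refine Submodule.add_mem _ ?_ (Submodule.sum_mem _ fun i _ => Submodule.smul_mem _ _ ?_)
  · exact riemannRochSpace_mono (Finsupp.single_mono (by push_cast; omega)) (B.E_mem _)
  · exact riemannRochSpace_mono (Finsupp.single_mono (by push_cast; omega)) (B.bas_mem _ i)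

end NormalBasis

/-- The data of one application of the group law. -/
structure LawData (g : ℕ) {P₀ : Place K F} (B : NormalBasis K F g P₀) where
  D₁ : Divisor K F
  D₂ : Divisor K F
  D₃ : Divisor K F
  Dc : Divisor K F
  c₁ : ℕ → Fin g → K
  c₂ : ℕ → Fin g → K
  cc : ℕ → Fin g → K
  good₁ : IsGood g P₀ D₁
  good₂ : IsGood g P₀ D₂
  good₃ : IsGood g P₀ D₃
  goodc : IsGood g P₀ Dc
  coord₁ : B.IsCoord D₁ c₁
  coord₂ : B.IsCoord D₂ c₂
  coordc : B.IsCoord Dc cc
  f₀ : F
  f₀_ne : f₀ ≠ 0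
  div_f₀ : ∀ v, (D₁ + D₂ - D₃ - Dc) v = v.ord f₀
  rr : RRField K F g

namespace LawData

variable {P₀ : Place K F} {B : NormalBasis K F g P₀} (Q : LawData g B)

theorem phi_ne : B.phi Q.c₁ Q.c₂ ≠ 0 :=
  mul_ne_zero (B.reduced_ne_zero _ _) (B.reduced_ne_zero _ _)

/-- The divisor of `φ`. -/
def divPhi : Divisor K F := (Q.rr.exists_div Q.phi_ne).choose

theorem divPhi_apply (v : Place K F) : Q.divPhi v = v.ord (B.phi Q.c₁ Q.c₂) :=
  (Q.rr.exists_div Q.phi_ne).choose_spec.1 v

theorem degree_divPhi : Divisor.degree Q.divPhi = 0 :=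
  (Q.rr.exists_div Q.phi_ne).choose_spec.2

/-- The divisor `6gP₀ - E - Dc`. -/
def DX : Divisor K F := Q.D₁ + Q.D₂ - Q.Dc - Q.divPhi

theorem degree_DX : Divisor.degree Q.DX = g := by
  simp [DX, Q.degree_divPhi, Q.good₁.degree, Q.good₂.degree, Q.goodc.degree]

theorem divPhi_base : Q.divPhi P₀ = -(6 * (g : ℤ)) := by
  rw [Q.divPhi_apply, NormalBasis.phi, P₀.ord_mul (B.reduced_ne_zero _ _) (B.reduced_ne_zero _ _),
    B.reduced_ord, B.reduced_ord]
  omega

theorem DX_base : Q.DX P₀ = 6 * (g : ℤ) := by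
  simp [DX, Q.divPhi_base, Q.good₁.apply_base, Q.good₂.apply_base, Q.goodc.apply_base]

theorem DX_le : Q.DX ≤ atBase P₀ (6 * g) := by
  refine Finsupp.le_def.mpr fun v => ?_
  rcases eq_or_ne v P₀ with rfl | hv
  · rw [Q.DX_base, Finsupp.single_eq_same]
  have h1 := (mem_space_iff.mp (Q.coord₁ g)).resolve_left (B.reduced_ne_zero _ _) v
  have h2 := (mem_space_iff.mp (Q.coord₂ g)).resolve_left (B.reduced_ne_zero _ _) v
  have h3 := Finsupp.le_def.mp Q.goodc.nonneg v
  rw [Finsupp.sub_apply, Finsupp.single_eq_of_ne hv] at h1 h2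
  simp only [Finsupp.coe_zero, Pi.zero_apply] at h3
  rw [DX, Finsupp.sub_apply, Finsupp.sub_apply, Finsupp.add_apply, Q.divPhi_apply,
    NormalBasis.phi, v.ord_mul (B.reduced_ne_zero _ _) (B.reduced_ne_zero _ _),
    Finsupp.single_eq_of_ne hv]
  omega

theorem space_DX_le (j : ℕ) :
    riemannRochSpace (Q.DX + atBase P₀ j) ≤ riemannRochSpace (atBase P₀ (6 * g + j)) :=
  riemannRochSpace_mono ((add_le_add_left Q.DX_le _).trans (Finsupp.single_add _ _ _).ge)

/-- The map `x ↦ x f₀ / φ` carries `L(DX + A)` to `L(D₃ + A)`. -/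
theorem mem_DX_iff (A : Divisor K F) (x : F) :
    x ∈ riemannRochSpace (Q.DX + A) ↔
      Q.f₀ * (B.phi Q.c₁ Q.c₂)⁻¹ * x ∈ riemannRochSpace (Q.D₃ + A) := by
  have hne : Q.f₀ * (B.phi Q.c₁ Q.c₂)⁻¹ ≠ 0 := mul_ne_zero Q.f₀_ne (inv_ne_zero Q.phi_ne)
  rw [mul_mem_iff_mem_add hne (Df := Q.D₁ + Q.D₂ - Q.D₃ - Q.Dc - Q.divPhi) (fun v => by
    rw [Finsupp.sub_apply, Q.div_f₀, Q.divPhi_apply, v.ord_mul Q.f₀_ne (inv_ne_zero Q.phi_ne),
      v.ord_inv]; ring)]
  have e : Q.D₃ + A + (Q.D₁ + Q.D₂ - Q.D₃ - Q.Dc - Q.divPhi) = Q.DX + A := by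
    rw [DX]; abel
  rw [e]

theorem space_DX_sub_base : riemannRochSpace (Q.DX - atBase P₀ 1) = ⊥ := by
  rw [eq_bot_iff]
  intro x hx
  rw [sub_eq_add_neg, Q.mem_DX_iff, ← sub_eq_add_neg, Q.good₃.nonspecial] at hx
  simpa [Q.f₀_ne, Q.phi_ne] using hx

theorem low_eq_zero {x : F} (hx : x ∈ riemannRochSpace (atBase P₀ (6 * g - 1))) {N : ℤ}
    (hxD : x ∈ riemannRochSpace (Q.DX + atBase P₀ N)) : x = 0 := by
  have : x ∈ riemannRochSpace (Q.DX - atBase P₀ 1) := by
    rcases eq_or_ne x 0 with rfl | hx0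
    · exact Submodule.zero_mem _
    refine mem_space_iff.mpr (Or.inr fun v => ?_)
    have h1 := (mem_space_iff.mp hx).resolve_left hx0 v
    have h2 := (mem_space_iff.mp hxD).resolve_left hx0 v
    rw [Finsupp.add_apply] at h2
    rw [Finsupp.sub_apply]
    rcases eq_or_ne v P₀ with rfl | hv
    · rw [Finsupp.single_eq_same] at h1 ⊢; rw [Q.DX_base]; omega
    · rw [Finsupp.single_eq_of_ne hv] at h1 h2 ⊢; omega
  rw [Q.space_DX_sub_base] at this
  exact (Submodule.mem_bot K).mp this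

theorem exists_xVec (j : ℕ) : ∃ a, B.xVec j a ∈ riemannRochSpace (Q.DX + atBase P₀ j) := by
  set S := riemannRochSpace (atBase P₀ (6 * g + j)) with hS
  set U := riemannRochSpace (Q.DX + atBase P₀ j) with hU
  set V := riemannRochSpace (atBase P₀ (6 * g - 1)) with hV
  haveI : FiniteDimensional K S := Q.rr.finite_space _
  haveI : FiniteDimensional K U := Q.rr.finite_space _
  haveI : FiniteDimensional K V := Q.rr.finite_space _
  have hle : U ⊔ V ≤ S :=
    sup_le (Q.space_DX_le j) (riemannRochSpace_mono (Finsupp.single_mono (by omega)))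
  have hdisj : U ⊓ V = ⊥ := by
    rw [eq_bot_iff]
    rintro x ⟨hxU, hxV⟩
    exact (Submodule.mem_bot K).mpr (Q.low_eq_zero hxV hxU)
  have heq : U ⊔ V = S := by
    refine Submodule.eq_of_le_of_finrank_le hle ?_
    have h1 := Submodule.finrank_sup_add_finrank_inf_eq U V
    rw [hdisj, finrank_bot, add_zero] at h1
    have h2 := le_finrank_space Q.rr (Q.DX + atBase P₀ j)
    rw [map_add, Q.degree_DX, Divisor.degree_single, Q.rr.deg_one, ← hU] at h2
    have h3 := Q.rr.finrank_space (atBase P₀ (6 * g + j)) (by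
      rw [Divisor.degree_single, Q.rr.deg_one]; omega)
    rw [Divisor.degree_single, Q.rr.deg_one, ← hS] at h3
    have h4 := Q.rr.finrank_space (atBase P₀ (6 * g - 1)) (by
      rw [Divisor.degree_single, Q.rr.deg_one]; omega)
    rw [Divisor.degree_single, Q.rr.deg_one, ← hV] at h4
    omega
  have hmem : B.E (4 * g + j) ∈ U ⊔ V := by
    rw [heq]
    exact riemannRochSpace_mono (Finsupp.single_mono (by push_cast; omega)) (B.E_mem _)
  obtain ⟨x, hx, y, hy, hxy⟩ := Submodule.mem_sup.mp hmem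
  have hy' : -y ∈ riemannRochSpace (atBase P₀ (2 * g - 1 + (4 * g : ℕ))) :=
    riemannRochSpace_mono (Finsupp.single_mono (by push_cast; omega)) (Submodule.neg_mem _ hy)
  obtain ⟨a, ha⟩ := B.exists_coeff Q.rr hy'
  refine ⟨a, ?_⟩
  rw [NormalBasis.xVec, ha, ← hxy, add_neg_cancel_right]
  exact hx

theorem exists_stageOne {j : ℕ} (hj : j ≤ g) {a : Fin g ⊕ Fin (4 * g) → K}
    (hx : B.xVec j a ∈ riemannRochSpace (Q.DX + atBase P₀ j)) :
    ∃ u, B.StageOne Q.c₁ Q.c₂ Q.cc j a u := by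
  have key : ∀ s t : Fin (g + 1), ∃ d : Fin (5 * g + 1) → K,
      B.xVec j a * (B.reduced (Q.c₁ s) s * B.reduced (Q.c₂ t) t) =
        B.phi Q.c₁ Q.c₂ * ∑ l, d l • B.reduced (Q.cc l) l := by
    intro s t
    set w := B.xVec j a * (B.reduced (Q.c₁ s) s * B.reduced (Q.c₂ t) t) with hw
    have h1 : w ∈ riemannRochSpace
        (Q.DX + atBase P₀ j + (atBase P₀ (3 * g) - Q.D₁ + (atBase P₀ (3 * g) - Q.D₂))) :=
      mul_mem_riemannRochSpace hx (mul_mem_riemannRochSpace
        (riemannRochSpace_mono (sub_le_sub_right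
          (Finsupp.single_mono (by have := s.2; omega)) _) (Q.coord₁ s))
        (riemannRochSpace_mono (sub_le_sub_right
          (Finsupp.single_mono (by have := t.2; omega)) _) (Q.coord₂ t)))
    have h2 : (B.phi Q.c₁ Q.c₂)⁻¹ * w ∈
        riemannRochSpace (atBase P₀ (2 * g - 1 + (5 * g + 1 : ℕ)) - Q.Dc) := by
      rw [mul_mem_iff_mem_add (inv_ne_zero Q.phi_ne) (Df := -Q.divPhi) (fun v => by
        rw [Finsupp.neg_apply, Q.divPhi_apply, v.ord_inv])]
      refine riemannRochSpace_mono ?_ h1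
      refine Finsupp.le_def.mpr fun v => ?_
      simp only [DX, Finsupp.add_apply, Finsupp.sub_apply, Finsupp.neg_apply]
      rcases eq_or_ne v P₀ with rfl | hv
      · simp only [Finsupp.single_eq_same]; push_cast; omega
      · simp only [Finsupp.single_eq_of_ne hv]; omega
    obtain ⟨d, hd⟩ := B.exists_reduced_coeff Q.rr Q.goodc Q.coordc h2
    exact ⟨d, by rw [hd, mul_inv_cancel_left₀ Q.phi_ne]⟩
  choose u hu using key
  exact ⟨u, hu⟩

theorem exists_exact_reduced (hF : RRField K F g) {D : Divisor K F} (hD : IsGood g P₀ D) {c : ℕ → Fin g → K}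
    (hc : B.IsCoord D c) {v : Place K F} (hv : v ≠ P₀) :
    ∃ d : Fin (g + 1) → K, (∑ t, d t • B.reduced (c t) t) ≠ 0 ∧
      v.ord (∑ t, d t • B.reduced (c t) t) = D v := by
  obtain ⟨f, hf, hf0, hfv⟩ := hF.exists_ord_eq (D := atBase P₀ (2 * (g : ℤ) - 1 + (g + 1 : ℕ)) - D)
    (by rw [map_sub, Divisor.degree_single, hF.deg_one, hD.degree]; push_cast; omega) v
  obtain ⟨d, hd⟩ := B.exists_reduced_coeff hF hD hc hf
  refine ⟨d, hd ▸ hf0, ?_⟩
  rw [hd, hfv, Finsupp.sub_apply, Finsupp.single_eq_of_ne hv]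
  omega

/-- The equations force membership in `L(DX + ·)`. -/
theorem mem_of_eqs {j : ℕ} {x : F} (hx : x ∈ riemannRochSpace (atBase P₀ (6 * g + j)))
    (heq : ∀ s t : Fin (g + 1), ∃ u : Fin (5 * g + 1) → K,
      x * (B.reduced (Q.c₁ s) s * B.reduced (Q.c₂ t) t) =
        B.phi Q.c₁ Q.c₂ * ∑ l, u l • B.reduced (Q.cc l) l) :
    x ∈ riemannRochSpace (Q.DX + atBase P₀ j) := by
  rcases eq_or_ne x 0 with rfl | hx0
  · exact Submodule.zero_mem _
  refine mem_space_iff.mpr (Or.inr fun v => ?_)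
  have h0 := (mem_space_iff.mp hx).resolve_left hx0 v
  rw [Finsupp.add_apply]
  rcases eq_or_ne v P₀ with rfl | hv
  · rw [Q.DX_base, Finsupp.single_eq_same] at *; omega
  rw [Finsupp.single_eq_of_ne hv, add_zero]
  obtain ⟨d₁, hd₁, hv₁⟩ := exists_exact_reduced Q.rr Q.good₁ Q.coord₁ hv
  obtain ⟨d₂, hd₂, hv₂⟩ := exists_exact_reduced Q.rr Q.good₂ Q.coord₂ hv
  set p₁ := ∑ t, d₁ t • B.reduced (Q.c₁ t) t with hp₁
  set p₂ := ∑ t, d₂ t • B.reduced (Q.c₂ t) t with hp₂
  choose u hu using heq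
  have hmem : (B.phi Q.c₁ Q.c₂)⁻¹ * (x * (p₁ * p₂)) ∈
      riemannRochSpace (atBase P₀ (7 * g) - Q.Dc) := by
    simp only [hp₁, hp₂, Finset.sum_mul, Finset.mul_sum, smul_mul_assoc, mul_smul_comm, hu,
      inv_mul_cancel_left₀ Q.phi_ne]
    refine Submodule.sum_mem _ fun s _ => ?_
    refine Submodule.smul_mem _ _ (Submodule.sum_mem _ fun t _ => ?_)
    refine Submodule.smul_mem _ _ (Submodule.sum_mem _ fun l _ => Submodule.smul_mem _ _ ?_)
    exact riemannRochSpace_mono (sub_le_sub_right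
      (Finsupp.single_mono (by have := l.2; omega)) _) (Q.coordc l)
  have hne : (B.phi Q.c₁ Q.c₂)⁻¹ * (x * (p₁ * p₂)) ≠ 0 :=
    mul_ne_zero (inv_ne_zero Q.phi_ne) (mul_ne_zero hx0 (mul_ne_zero hd₁ hd₂))
  have h1 := (mem_space_iff.mp hmem).resolve_left hne v
  rw [v.ord_mul (inv_ne_zero Q.phi_ne) (mul_ne_zero hx0 (mul_ne_zero hd₁ hd₂)), v.ord_inv,
    v.ord_mul hx0 (mul_ne_zero hd₁ hd₂), v.ord_mul hd₁ hd₂, hv₁, hv₂, ← Q.divPhi_apply,
    Finsupp.sub_apply, Finsupp.single_eq_of_ne hv] at h1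
  simp only [DX, Finsupp.sub_apply, Finsupp.add_apply]
  omega

theorem stageOne_mem {j : ℕ} {a : Fin g ⊕ Fin (4 * g) → K}
    {u : Fin (g + 1) → Fin (g + 1) → Fin (5 * g + 1) → K}
    (h : B.StageOne Q.c₁ Q.c₂ Q.cc j a u) :
    B.xVec j a ∈ riemannRochSpace (Q.DX + atBase P₀ j) :=
  Q.mem_of_eqs (B.xVec_mem j a) fun s t => ⟨u s t, h s t⟩

theorem stageOne_injective {a : Fin g ⊕ Fin (4 * g) → K}
    {u : Fin (g + 1) → Fin (g + 1) → Fin (5 * g + 1) → K}
    (h : B.StageOneZero Q.c₁ Q.c₂ Q.cc a u) : a = 0 ∧ u = 0 := by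
  set x := ∑ i, a i • B.bas (4 * g) i with hx
  have hxlow : x ∈ riemannRochSpace (atBase P₀ (6 * g - 1)) := Submodule.sum_mem _ fun i _ =>
    Submodule.smul_mem _ _ (riemannRochSpace_mono (Finsupp.single_mono (by push_cast; omega))
      (B.bas_mem _ i))
  have hx0 : x = 0 := Q.low_eq_zero hxlow (N := (0 : ℕ))
    (Q.mem_of_eqs (riemannRochSpace_mono (Finsupp.single_mono (by omega)) hxlow)
      fun s t => ⟨u s t, h s t⟩)
  have ha : a = 0 := funext (Fintype.linearIndependent_iff.mp (B.bas_indep _) a hx0)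
  refine ⟨ha, funext fun s => funext fun t => funext fun l => ?_⟩
  have h1 := (h s t).symm
  rw [← hx, hx0, zero_mul] at h1
  exact Fintype.linearIndependent_iff.mp (B.reduced_indep Q.cc _) (u s t)
    ((mul_eq_zero.mp h1).resolve_left Q.phi_ne) l

/-- The span of the solutions of the first system. -/
theorem span_xVec {a : ℕ → Fin g ⊕ Fin (4 * g) → K}
    (ha : ∀ j, j ≤ g → B.xVec j (a j) ∈ riemannRochSpace (Q.DX + atBase P₀ j)) :
    ∀ j, j ≤ g → ∀ x ∈ riemannRochSpace (Q.DX + atBase P₀ j),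
      ∃ d : ℕ → K, x = ∑ i ∈ Finset.range (j + 1), d i • B.xVec i (a i) := by
  have step : ∀ j : ℕ, j ≤ g → ∀ x ∈ riemannRochSpace (Q.DX + atBase P₀ j), ∃ c : K,
      x - c • B.xVec j (a j) ∈ riemannRochSpace (Q.DX + atBase P₀ (j - 1)) := by
    intro j hj x hx
    have hne : B.xVec j (a j) ≠ 0 ∧ P₀.ord (B.xVec j (a j)) = -(6 * (g : ℤ) + j) := by
      have hnm : B.xVec j (a j) ∉ riemannRochSpace (atBase P₀ (6 * g + j - 1)) := by
        intro h
        have h2 : B.E (4 * g + j) ∈ riemannRochSpace (atBase P₀ (6 * g + j - 1)) := by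
          have := Submodule.sub_mem _ h (riemannRochSpace_mono (E := atBase P₀ (6 * g + j - 1))
            (Finsupp.single_mono (by push_cast; omega))
            (Submodule.sum_mem (t := Finset.univ) _
              fun i _ => Submodule.smul_mem _ (a j i) (B.bas_mem (4 * g) i)))
          rwa [NormalBasis.xVec, add_sub_cancel_right] at this
        have := (mem_space_iff.mp h2).resolve_left (B.E_ne _) P₀
        rw [Finsupp.single_eq_same, B.E_ord] at this
        push_cast at this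
        omega
      have h0 : B.xVec j (a j) ≠ 0 := fun h => hnm (h ▸ Submodule.zero_mem _)
      refine ⟨h0, ?_⟩
      by_contra hne
      refine hnm (mem_space_iff.mpr (Or.inr fun v => ?_))
      have h1 := (mem_space_iff.mp (B.xVec_mem j (a j))).resolve_left h0 v
      rcases eq_or_ne v P₀ with rfl | hv
      · rw [Finsupp.single_eq_same] at h1 ⊢; omega
      · rw [Finsupp.single_eq_of_ne hv] at h1 ⊢; omega
    by_cases hlow : x ∈ riemannRochSpace (Q.DX + atBase P₀ ((j : ℤ) - 1))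
    · exact ⟨0, by simpa using hlow⟩
    have hx0 : x ≠ 0 := fun e => hlow (e ▸ Submodule.zero_mem _)
    have hxo := (mem_space_iff.mp hx).resolve_left hx0
    have hxord : P₀.ord x = P₀.ord (B.xVec j (a j)) := by
      by_contra hne'
      refine hlow (mem_space_iff.mpr (Or.inr fun v => ?_))
      have := hxo v
      rw [Finsupp.add_apply] at this ⊢
      rcases eq_or_ne v P₀ with rfl | hv
      · rw [Finsupp.single_eq_same, Q.DX_base] at this ⊢; rw [hne.2] at hne'; omega
      · rw [Finsupp.single_eq_of_ne hv] at this ⊢; omega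
    obtain ⟨c, hc⟩ := exists_sub_ord_gt Q.rr P₀ hx0 hne.1 hxord
    refine ⟨c, ?_⟩
    have hm := Submodule.sub_mem _ hx (Submodule.smul_mem _ c (ha j hj))
    rcases eq_or_ne (x - c • B.xVec j (a j)) 0 with e | e
    · rw [e]; exact Submodule.zero_mem _
    refine mem_space_iff.mpr (Or.inr fun v => ?_)
    have h1 := (mem_space_iff.mp hm).resolve_left e v
    rw [Finsupp.add_apply] at h1 ⊢
    rcases eq_or_ne v P₀ with rfl | hv
    · have h2 := hc.resolve_left e
      rw [Finsupp.single_eq_same, Q.DX_base]; rw [hne.2] at h2; omega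
    · rw [Finsupp.single_eq_of_ne hv] at h1 ⊢; omega
  intro j
  induction j with
  | zero =>
    intro hj x hx
    obtain ⟨c, hc⟩ := step 0 hj x hx
    have : x - c • B.xVec 0 (a 0) ∈ riemannRochSpace (Q.DX - atBase P₀ 1) := by
      convert hc using 2
      simp [sub_eq_add_neg, atBase, ← Finsupp.single_neg]
    rw [Q.space_DX_sub_base, Submodule.mem_bot, sub_eq_zero] at this
    exact ⟨fun _ => c, by simpa using this⟩
  | succ j ih =>
    intro hj x hx
    obtain ⟨c, hc⟩ := step (j + 1) hj x hx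
    obtain ⟨d, hd⟩ := ih (by omega) _ (by simpa using hc)
    refine ⟨Function.update d (j + 1) c, ?_⟩
    rw [Finset.sum_range_succ, Function.update_self,
      Finset.sum_congr rfl fun i hi => by
        rw [Function.update_of_ne (Finset.mem_range.mp hi).ne], ← hd, sub_add_cancel]

theorem div_xVec_zero {a : Fin g ⊕ Fin (4 * g) → K}
    (ha : B.xVec 0 a ∈ riemannRochSpace (Q.DX + atBase P₀ (0 : ℕ))) {Dh : Divisor K F}
    (hDh : ∀ v, Dh v = v.ord (B.xVec 0 a)) : Dh = Q.D₃ - Q.DX := by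
  have hh0 := B.xVec_zero_ne a
  have hDh0 := Q.rr.degree_div hh0 hDh
  refine (eq_of_le_of_degree_eq Q.rr.deg_one (D := Q.D₃ - Q.DX) ?_ ?_).symm
  · have h := ha
    rw [Nat.cast_zero, atBase, Finsupp.single_zero] at h
    have hne : Q.f₀ * (B.phi Q.c₁ Q.c₂)⁻¹ ≠ 0 :=
      mul_ne_zero Q.f₀_ne (inv_ne_zero Q.phi_ne)
    have h2 := (Q.mem_DX_iff 0 _).mp h
    rw [add_zero] at h2
    -- `L(D₃)` consists of constants
    obtain ⟨c, hc⟩ : ∃ c : K, Q.f₀ * (B.phi Q.c₁ Q.c₂)⁻¹ * B.xVec 0 a = algebraMap K F c := by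
      by_cases hm : Q.f₀ * (B.phi Q.c₁ Q.c₂)⁻¹ * B.xVec 0 a ∈
          riemannRochSpace (Q.D₃ - atBase P₀ 1)
      · rw [Q.good₃.nonspecial, Submodule.mem_bot] at hm
        exact ⟨0, by rw [hm, map_zero]⟩
      set z := Q.f₀ * (B.phi Q.c₁ Q.c₂)⁻¹ * B.xVec 0 a with hz
      have hz0 : z ≠ 0 := fun e => hm (e ▸ Submodule.zero_mem _)
      obtain ⟨c, hc⟩ := exists_hasValueAt (Q.rr.deg_one P₀) (f := z) (by
        right
        have := (mem_space_iff.mp h2).resolve_left hz0 P₀
        rw [Q.good₃.apply_base] at this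
        omega)
      refine ⟨c, ?_⟩
      rcases hc with hc | hc
      · exact hc
      exfalso
      have hmem : z - algebraMap K F c ∈ riemannRochSpace Q.D₃ := by
        refine Submodule.sub_mem _ h2 ?_
        rw [← mul_one (algebraMap K F c), ← Algebra.smul_def]
        exact Submodule.smul_mem _ _ (one_mem_riemannRochSpace Q.good₃.nonneg)
      have hne' : z - algebraMap K F c ≠ 0 := fun e => by simp [e] at hc
      have : z - algebraMap K F c ∈ riemannRochSpace (Q.D₃ - atBase P₀ 1) := by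
        refine mem_space_iff.mpr (Or.inr fun v => ?_)
        have h3 := (mem_space_iff.mp hmem).resolve_left hne' v
        rw [Finsupp.sub_apply]
        rcases eq_or_ne v P₀ with rfl | hv
        · rw [Finsupp.single_eq_same, Q.good₃.apply_base]; omega
        · rw [Finsupp.single_eq_of_ne hv]; omega
      rw [Q.good₃.nonspecial, Submodule.mem_bot] at this
      exact hne' this
    have hc0 : algebraMap K F c ≠ 0 := hc ▸ mul_ne_zero hne hh0
    refine Finsupp.le_def.mpr fun v => ?_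
    have h4 := congrArg v.ord hc
    rw [v.ord_mul hne hh0, v.ord_mul Q.f₀_ne (inv_ne_zero Q.phi_ne), v.ord_inv,
      ord_algebraMap, ← Q.div_f₀, ← Q.divPhi_apply] at h4
    rw [Finsupp.sub_apply, hDh, DX]
    simp only [Finsupp.sub_apply, Finsupp.add_apply] at h4 ⊢
    omega
  · rw [map_sub, Q.good₃.degree, Q.degree_DX, hDh0, sub_self]

theorem exists_stageTwo {c₃ : ℕ → Fin g → K} (h₃ : B.IsCoord Q.D₃ c₃)
    {a : ℕ → Fin g ⊕ Fin (4 * g) → K}
    (ha : ∀ j, j ≤ g → B.xVec j (a j) ∈ riemannRochSpace (Q.DX + atBase P₀ j))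
    {i : ℕ} (hi : i ≤ 5 * g) : ∃ u, B.StageTwo i a (c₃ i) u := by
  have hh0 := B.xVec_zero_ne (a 0)
  obtain ⟨Dh, hDh, hDh0⟩ := Q.rr.exists_div hh0
  have hh : Dh = Q.D₃ - Q.DX := Q.div_xVec_zero (ha 0 (Nat.zero_le _)) hDh
  have key : ∀ j : Fin (g + 1), ∃ d : Fin g ⊕ Fin (6 * g + 1) → K,
      B.reduced (c₃ i) i * B.xVec j (a j) =
        B.xVec 0 (a 0) * ∑ k, d k • B.bas (6 * g + 1) k := by
    intro j
    have h1 := mul_mem_riemannRochSpace (h₃ i) (ha j (by omega))
    have h2 : (B.xVec 0 (a 0))⁻¹ * (B.reduced (c₃ i) i * B.xVec j (a j)) ∈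
        riemannRochSpace (atBase P₀ (2 * g - 1 + (6 * g + 1 : ℕ))) := by
      rw [mul_mem_iff_mem_add (inv_ne_zero hh0) (Df := -Dh) (fun v => by
        rw [Finsupp.neg_apply, hDh, v.ord_inv])]
      refine riemannRochSpace_mono ?_ h1
      refine Finsupp.le_def.mpr fun v => ?_
      simp only [hh, Finsupp.add_apply, Finsupp.sub_apply, Finsupp.neg_apply]
      have := j.2
      rcases eq_or_ne v P₀ with rfl | hv
      · simp only [Finsupp.single_eq_same]; push_cast; omega
      · simp only [Finsupp.single_eq_of_ne hv]; omega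
    obtain ⟨d, hd⟩ := B.exists_coeff Q.rr h2
    exact ⟨d, by rw [hd, mul_inv_cancel_left₀ hh0]⟩
  choose u hu using key
  exact ⟨u, hu⟩

theorem stageTwo_injective {a : ℕ → Fin g ⊕ Fin (4 * g) → K}
    (ha : ∀ j, j ≤ g → B.xVec j (a j) ∈ riemannRochSpace (Q.DX + atBase P₀ j))
    {y : Fin g → K} {u : Fin (g + 1) → Fin g ⊕ Fin (6 * g + 1) → K}
    (h : B.StageTwoZero a y u) : y = 0 ∧ u = 0 := by
  set Y := ∑ l, y l • B.C l with hY
  have hh0 := B.xVec_zero_ne (a 0)
  obtain ⟨Dh, hDh, hDh0⟩ := Q.rr.exists_div hh0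
  have hY0 : Y = 0 := by
    by_contra hY0
    set D' : Divisor K F := Dh + Q.DX with hD'
    -- `Y` vanishes on `D' = D₃`
    have hmem : Y ∈ riemannRochSpace (atBase P₀ (7 * g + g) - D') := by
      refine mem_space_iff.mpr (Or.inr fun v => ?_)
      rw [Finsupp.sub_apply]
      rcases eq_or_ne v P₀ with rfl | hv
      · rw [Finsupp.single_eq_same, hD', Finsupp.add_apply, hDh, Q.DX_base]
        have h1 := (mem_space_iff.mp (B.sumC_mem y)).resolve_left hY0 v
        have h2 := (mem_space_iff.mp (B.xVec_mem 0 (a 0))).resolve_left hh0 v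
        rw [Finsupp.single_eq_same, ← hY] at h1
        rw [Finsupp.single_eq_same] at h2
        have h5 : v.ord (B.xVec 0 (a 0)) ≤ -(6 * (g : ℤ)) := by
          by_contra hgt
          push Not at hgt
          refine hh0 (Q.low_eq_zero (N := (0 : ℕ)) (mem_space_iff.mpr (Or.inr fun w => ?_))
            (ha 0 (Nat.zero_le _)))
          have h6 := (mem_space_iff.mp (B.xVec_mem 0 (a 0))).resolve_left hh0 w
          rcases eq_or_ne w v with rfl | hw
          · rw [Finsupp.single_eq_same]; omega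
          · rw [Finsupp.single_eq_of_ne hw] at h6 ⊢; omega
        omega
      obtain ⟨f, hf, hf0, hfv⟩ := Q.rr.exists_ord_eq (D := Q.DX + atBase P₀ g)
        (by rw [map_add, Q.degree_DX, Divisor.degree_single, Q.rr.deg_one]; push_cast; omega) v
      obtain ⟨d, hd⟩ := Q.span_xVec ha g le_rfl f hf
      have hprod : Y * f ∈ riemannRochSpace (atBase P₀ (8 * g) - Dh) := by
        rw [hd, Finset.mul_sum]
        refine Submodule.sum_mem _ fun i hi => ?_
        rw [mul_smul_comm]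
        refine Submodule.smul_mem _ _ ?_
        rw [hY, h ⟨i, Finset.mem_range.mp hi⟩]
        have hk : ∑ k, u ⟨i, Finset.mem_range.mp hi⟩ k • B.bas (6 * g + 1) k ∈
            riemannRochSpace (atBase P₀ (8 * g)) :=
          Submodule.sum_mem _ fun k _ => Submodule.smul_mem _ _ (riemannRochSpace_mono
            (Finsupp.single_mono (by push_cast; omega)) (B.bas_mem _ k))
        rw [mul_mem_iff_mem_add hh0 hDh, sub_add_cancel]
        exact hk
      have h1 := (mem_space_iff.mp hprod).resolve_left (mul_ne_zero hY0 hf0) v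
      rw [v.ord_mul hY0 hf0, hfv, Finsupp.sub_apply, Finsupp.add_apply,
        Finsupp.single_eq_of_ne hv, Finsupp.single_eq_of_ne hv] at h1
      rw [Finsupp.single_eq_of_ne hv, hD', Finsupp.add_apply]
      omega
    -- and `D'` is effective of degree `g` in the class of `D₃`
    have hsub : Q.D₃ ≤ D' := by
      rw [hD', Q.div_xVec_zero (ha 0 (Nat.zero_le _)) hDh, sub_add_cancel]
    exact hY0 (Q.good₃.eq_zero (B.sumC_mem y)
      (riemannRochSpace_mono (sub_le_sub_left hsub _) hmem))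
  refine ⟨funext (Fintype.linearIndependent_iff.mp B.C_indep y hY0), funext fun j => funext
    fun k => ?_⟩
  have h1 := (h j).symm
  rw [← hY, hY0, zero_mul] at h1
  exact Fintype.linearIndependent_iff.mp (B.bas_indep _) (u j)
    ((mul_eq_zero.mp h1).resolve_left hh0) k

end LawData

end FermatLib.Igusa.TorsionModel
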