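import Fermat.Agent.Igusa.TorsionModel.SpecData
import Fermat.Agent.Igusa.TorsionModel.DualBasis
import Fermat.Agent.Igusa.TorsionModel.DivisorRep
import Fermat.Agent.Igusa.TorsionModel.IntegralValues

/-!
# Translated representatives of a finite Galois module of divisor classes
-/

set_option autoImplicit false
set_option linter.unusedSectionVars false

noncomputable section

open AlgebraicCurve ModularCurve

namespace FermatLib.Igusa.TorsionModel

local notation "Qbar" => AlgebraicClosure ℚ
local notation "Γℚ" => (AlgebraicClosure ℚ ≃ₐ[ℚ] AlgebraicClosure ℚ)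

variable {ℓ : ℕ} {hℓ : ℓ.Prime} {A₀ : ValuationSubring (AlgebraicClosure ℚ)}
  {hA₀ : A₀.LiesOverPrime ℓ}

set_option quotPrecheck false in
local notation "O" => ↥(GaloisRep.ratLocalizedAt ℓ)

namespace SpecData

variable {F Fb : Type} [Field F] [Algebra Qbar F] [Field Fb]
  [Algebra (IsLocalRing.ResidueField A₀) Fb] (S : SpecData hℓ A₀ hA₀ F Fb)

variable {M : Type} [AddCommGroup M] [DistribMulAction Γℚ M]

/-- An equivariant family of divisor classes. -/
structure ClassFamily (M : Type) [AddCommGroup M] [DistribMulAction Γℚ M] where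
  map : M →+ Pic0 Qbar F
  injective : Function.Injective map
  map_smul : ∀ (σ : Γℚ) (m : M), map (σ • m) = S.act σ • map m

variable {S}

/-- A translation making all the classes good, unramified at `ℓ`. -/
structure Translation (Φ : S.ClassFamily M) where
  C : Divisor Qbar F
  degree_C : Divisor.degree C = S.g
  N : Subgroup Γℚ
  normal : N.Normal
  finiteIndex : N.FiniteIndex
  fix : ∀ σ ∈ N, S.act σ • C = C
  unramified : ∀ σ, IsTrivialResidue ℓ A₀ N σ → σ ∈ N
  good : ∀ (σ : Γℚ) (X : Divisor.degZero (K := Qbar) (F := F)) (E : Divisor Qbar F),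
    (∃ m, Φ.map m = Pic0.mk X) → 0 ≤ E →
    E - ((X : Divisor Qbar F) + S.act σ • C) ∈ Divisor.principal (K := Qbar) (F := F) →
    IsGood S.g S.Pb (S.red E)

namespace Translation

variable {Φ : S.ClassFamily M} (T : Translation Φ)

/-- A degree zero divisor in a class. -/
def lift (Φ : S.ClassFamily M) (m : M) : Divisor.degZero (K := Qbar) (F := F) :=
  (Pic0.mk_surjective (Φ.map m)).choose

theorem mk_lift (Φ : S.ClassFamily M) (m : M) : Pic0.mk (lift Φ m) = Φ.map m :=
  (Pic0.mk_surjective (Φ.map m)).choose_spec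

theorem exists_div (m : M) (σ : Γℚ) :
    ∃ E : Divisor Qbar F, 0 ≤ E ∧
      E - ((lift Φ m : Divisor Qbar F) + S.act σ • T.C) ∈
        Divisor.principal (K := Qbar) (F := F) := by
  refine exists_effective_equiv S.hF ?_
  rw [map_add, Divisor.mem_degZero.mp (lift Φ m).2, SemilinearAut.degree_smul, T.degree_C,
    zero_add]

/-- The effective divisor of degree `g` in a translated class. -/
def div (m : M) (σ : Γℚ) : Divisor Qbar F := (T.exists_div m σ).choose

theorem div_nonneg (m : M) (σ : Γℚ) : 0 ≤ T.div m σ := (T.exists_div m σ).choose_spec.1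

theorem div_spec (m : M) (σ : Γℚ) :
    T.div m σ - ((lift Φ m : Divisor Qbar F) + S.act σ • T.C) ∈
      Divisor.principal (K := Qbar) (F := F) := (T.exists_div m σ).choose_spec.2

theorem everywhereGood (m : M) (σ : Γℚ) : S.IsEverywhereGood (T.div m σ) := by
  refine ⟨T.div_nonneg m σ, fun τ => T.good (τ * σ)
    (SemilinearAut.degZeroSMulHom (S.act τ) (lift Φ m)) _ ⟨τ • m, ?_⟩
    (S.smul_nonneg_divisor τ (T.div_nonneg m σ)) ?_⟩
  · rw [Φ.map_smul, ← mk_lift Φ m, SemilinearAut.pic0_smul_mk]
  · have h := SemilinearAut.smul_mem_principal (S.act τ) (T.div_spec m σ)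
    rw [smul_sub, smul_add, ← mul_smul, ← map_mul] at h
    exact h

theorem isGood (m : M) (σ : Γℚ) : IsGood S.g S.P₀ (T.div m σ) := (T.everywhereGood m σ).good

/-- Uniqueness of the representative. -/
theorem div_eq {m : M} {σ : Γℚ} {X : Divisor.degZero (K := Qbar) (F := F)} {E : Divisor Qbar F}
    (hX : Pic0.mk X = Φ.map m) (hE : 0 ≤ E)
    (h : E - ((X : Divisor Qbar F) + S.act σ • T.C) ∈ Divisor.principal (K := Qbar) (F := F)) :
    E = T.div m σ := by
  refine (T.isGood m σ).eq_of_principal S.hF hE ?_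
  have h1 : (X : Divisor Qbar F) - lift Φ m ∈ Divisor.principal (K := Qbar) (F := F) := by
    have := QuotientAddGroup.eq_iff_sub_mem.mp (hX.trans (mk_lift Φ m).symm)
    rwa [AddSubgroup.mem_addSubgroupOf, AddSubgroupClass.coe_sub] at this
  have h2 := sub_mem (add_mem h h1) (T.div_spec m σ)
  have e : E - ((X : Divisor Qbar F) + S.act σ • T.C) + ((X : Divisor Qbar F) - lift Φ m) -
      (T.div m σ - ((lift Φ m : Divisor Qbar F) + S.act σ • T.C)) = E - T.div m σ := by abel
  rwa [e] at h2

theorem act_smul_div (τ : Γℚ) (m : M) (σ : Γℚ) :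
    S.act τ • T.div m σ = T.div (τ • m) (τ * σ) := by
  refine T.div_eq (X := SemilinearAut.degZeroSMulHom (S.act τ) (lift Φ m)) ?_
    (S.smul_nonneg_divisor τ (T.div_nonneg m σ)) ?_
  · rw [Φ.map_smul, ← mk_lift Φ m, SemilinearAut.pic0_smul_mk]
  · have h := SemilinearAut.smul_mem_principal (S.act τ) (T.div_spec m σ)
    rw [smul_sub, smul_add, ← mul_smul, ← map_mul] at h
    exact h

theorem div_congr (m : M) {σ σ' : Γℚ} (h : σ⁻¹ * σ' ∈ T.N) : T.div m σ' = T.div m σ := by
  refine T.div_eq (mk_lift Φ m) (T.div_nonneg m σ') ?_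
  have e : S.act σ' • T.C = S.act σ • T.C := by
    rw [show σ' = σ * (σ⁻¹ * σ') by group, map_mul, mul_smul, T.fix _ h]
  rw [← e]
  exact T.div_spec m σ'

/-- Different classes have different representatives. -/
theorem div_injective (σ : Γℚ) {m m' : M} (h : T.div m σ = T.div m' σ) : m = m' := by
  apply Φ.injective
  rw [← mk_lift Φ m, ← mk_lift Φ m']
  refine QuotientAddGroup.eq_iff_sub_mem.mpr ?_
  rw [AddSubgroup.mem_addSubgroupOf, AddSubgroupClass.coe_sub]
  have h2 := sub_mem (T.div_spec m' σ) (T.div_spec m σ)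
  rw [← h] at h2
  have e : T.div m σ - ((lift Φ m' : Divisor Qbar F) + S.act σ • T.C) -
      (T.div m σ - ((lift Φ m : Divisor Qbar F) + S.act σ • T.C)) =
      (lift Φ m : Divisor Qbar F) - lift Φ m' := by abel
  rwa [e] at h2

/-- The coordinates of a representative. -/
def coord (m : M) (σ : Γℚ) : ℕ → Fin S.g → Qbar :=
  (S.BL.exists_coord S.hF (T.isGood m σ)).choose

theorem isCoord (m : M) (σ : Γℚ) : S.BL.IsCoord (T.div m σ) (T.coord m σ) :=
  (S.BL.exists_coord S.hF (T.isGood m σ)).choose_spec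

theorem smul_coord (τ : Γℚ) (m : M) (σ : Γℚ) (t : ℕ) (l : Fin S.g) :
    τ • T.coord m σ t l = T.coord (τ • m) (τ * σ) t l := by
  have h := S.coord_smul τ (T.isCoord m σ)
  rw [T.act_smul_div] at h
  exact congr_fun (congr_fun (S.BL.coord_unique (T.isGood _ _) h (T.isCoord _ _)) t) l

theorem coord_congr (m : M) {σ σ' : Γℚ} (h : σ⁻¹ * σ' ∈ T.N) : T.coord m σ' = T.coord m σ :=
  S.BL.coord_unique (T.isGood m σ) (T.div_congr m h ▸ T.isCoord m σ') (T.isCoord m σ)

theorem isIntegral_coord (m : M) (σ : Γℚ) (t : ℕ) (l : Fin S.g) :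
    IsIntegral O (T.coord m σ t l) := by
  refine isIntegral_of_forall_smul_mem hℓ A₀ hA₀ fun τ => ?_
  rw [T.smul_coord]
  exact (S.coord_integral ((T.everywhereGood _ _).good_red) (T.isCoord _ _)).1 t l

end Translation

end SpecData

end FermatLib.Igusa.TorsionModel
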