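import Fermat.Agent.Igusa.TorsionModel.RationalLattice
import Fermat.Agent.Igusa.ReductionInputs

/-!
# Integral rational functions with poles at the cusp at infinity

For `ℓ ∤ N`: in each space `L(n ∞)` on `X₀(N)` a basis with `q`-expansions over `ℤ_(ℓ)` and
independent reductions, and a function of exact pole order with unit leading coefficient.
-/

set_option autoImplicit false
set_option synthInstance.maxHeartbeats 400000

noncomputable section

open AlgebraicCurve ModularCurve HahnSeries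

namespace FermatLib.Igusa.TorsionModel

local notation "Qbar" => AlgebraicClosure ℚ
local notation "Γℚ" => (AlgebraicClosure ℚ ≃ₐ[ℚ] AlgebraicClosure ℚ)

variable {ℓ : ℕ} (N : ℕ) [NeZero N] (A₀ : ValuationSubring (AlgebraicClosure ℚ))

set_option quotPrecheck false in
local notation "O" => ↥(GaloisRep.ratLocalizedAt ℓ)
set_option quotPrecheck false in
local notation "k₀" => IsLocalRing.ResidueField A₀
set_option quotPrecheck false in
local notation "FN" => ↥(modularFunctionFieldBar N)
set_option quotPrecheck false in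
local notation "FbN" => ↥(modularFunctionFieldFullC (IsLocalRing.ResidueField A₀) N)

omit [NeZero N] in
theorem act_smul_cuspInf (σ : Γℚ) :
    arithmeticGalois (modularFunctionFieldFull N) σ • cuspInf Qbar N = cuspInf Qbar N := by
  refine IsOrderPlace.unique (fun x => ?_) isOrderPlace_cuspInf
  set g := arithmeticGalois (modularFunctionFieldFull N) σ with hg
  have h := SemilinearAut.ord_smul g (cuspInf Qbar N) (g⁻¹ • x)
  rw [smul_inv_smul] at h
  rw [h, isOrderPlace_cuspInf]
  have hx : (x : LaurentSeries Qbar) = coeffMap (σ : Qbar →+* Qbar)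
      ((g⁻¹ • x : FN) : LaurentSeries Qbar) := by
    conv_lhs => rw [← smul_inv_smul g x]
    rfl
  rw [hx]
  rcases eq_or_ne ((g⁻¹ • x : FN) : LaurentSeries Qbar) 0 with h0 | h0
  · rw [h0, map_zero]
  · have h1 : coeffMap (σ : Qbar →+* Qbar) ((g⁻¹ • x : FN) : LaurentSeries Qbar) ≠ 0 := fun hz =>
      h0 (HahnSeries.ext (funext fun j => (σ : Qbar →+* Qbar).injective (by
        rw [← coeffMap_coeff, hz]; simp)))
    refine le_antisymm ((HahnSeries.le_order_iff_forall h1).mpr fun j hj => ?_)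
      ((HahnSeries.le_order_iff_forall h0).mpr fun j hj => ?_)
    · rw [coeffMap_coeff, HahnSeries.coeff_eq_zero_of_lt_order hj, map_zero]
    · refine (σ : Qbar →+* Qbar).injective ?_
      rw [← coeffMap_coeff, HahnSeries.coeff_eq_zero_of_lt_order hj, map_zero]

omit [NeZero N] in
theorem coe_smul_series (c : Qbar) (f : FN) :
    ((c • f : FN) : LaurentSeries Qbar) = c • (f : LaurentSeries Qbar) := by
  rw [Algebra.smul_def, IntermediateField.coe_mul, laurent_smul_eq,
    ← algebraMap_laurentSeries_eq_single]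
  rfl

/-- The expansion as a linear map. -/
def seriesMap : FN →ₗ[Qbar] LaurentSeries Qbar where
  toFun f := (f : LaurentSeries Qbar)
  map_add' _ _ := rfl
  map_smul' c f := coe_smul_series N c f

omit [NeZero N] in
@[simp] theorem seriesMap_apply (f : FN) : seriesMap N f = (f : LaurentSeries Qbar) := rfl

/-- The space `L(n ∞)` as a space of series. -/
def seriesSpace (n : ℤ) : Submodule Qbar (LaurentSeries Qbar) :=
  Submodule.map (seriesMap N)
    (riemannRochSpace (atBase (cuspInf Qbar N) n))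

omit [NeZero N] in
theorem mem_seriesSpace {n : ℤ} {x : LaurentSeries Qbar} :
    x ∈ seriesSpace N n ↔
      ∃ f : FN, f ∈ riemannRochSpace (atBase (cuspInf Qbar N) n) ∧ (f : LaurentSeries Qbar) = x :=
  Submodule.mem_map

omit [NeZero N] in
theorem isGalStable_seriesSpace (n : ℤ) : IsGalStable (seriesSpace N n) := by
  intro σ x hx
  obtain ⟨f, hf, rfl⟩ := (mem_seriesSpace N).mp hx
  set g := arithmeticGalois (modularFunctionFieldFull N) σ with hg
  refine (mem_seriesSpace N).mpr ⟨SemilinearAut.toRingAut g f, ?_, rfl⟩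
  rcases eq_or_ne f 0 with rfl | hf0
  · simp
  refine mem_space_iff.mpr (Or.inr fun v => ?_)
  have h1 := (mem_space_iff.mp hf).resolve_left hf0 (g⁻¹ • v)
  have h2 := SemilinearAut.ord_smul g (g⁻¹ • v) f
  rw [smul_inv_smul, SemilinearAut.smul_def] at h2
  have e : g • atBase (cuspInf Qbar N) n = atBase (cuspInf Qbar N) n := by
    rw [SemilinearAut.smul_single, act_smul_cuspInf]
  rw [← e, SemilinearAut.divisor_smul_apply, h2]
  exact h1

variable [Fact ℓ.Prime] (hℓN : ¬ ℓ ∣ N) (hA₀ : A₀.LiesOverPrime ℓ)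

include hℓN hA₀ in
theorem smoothLattice_cusp : ∃ n₀, SmoothLattice (IsLocalRing.residue A₀)
    (modularFunctionFieldBar N) (modularFunctionFieldFullC k₀ N)
    (cuspInf Qbar N) (cuspInfRed k₀ N) n₀ := by
  obtain ⟨P, Q, n₀, h⟩ := exists_smoothLattice N hℓN A₀ hA₀
  refine ⟨n₀, ?_⟩
  rwa [← IsOrderPlace.unique h.orderL isOrderPlace_cuspInf,
    ← IsOrderPlace.unique h.orderK isOrderPlace_cuspInfRed]

include hℓN hA₀ in
theorem bounded_seriesSpace (n : ℤ) {x : LaurentSeries Qbar} (hx : x ∈ seriesSpace N n)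
    (hx0 : x ≠ 0) :
    ∃ (c : Qbar) (y : LaurentSeries A₀), latVal A₀ y = c • x ∧
      latRed (IsLocalRing.residue A₀) y ≠ 0 ∧
      latRed (IsLocalRing.residue A₀) y ∈ modularFunctionFieldFullC k₀ N := by
  obtain ⟨n₀, hS⟩ := smoothLattice_cusp N A₀ hℓN hA₀
  obtain ⟨f, hf, rfl⟩ := (mem_seriesSpace N).mp hx
  refine hS.bounded n.toNat f (riemannRochSpace_mono (Finsupp.single_mono ?_) hf) ?_
  · exact Int.self_le_toNat n
  · exact fun h => hx0 (by rw [h]; rfl)

/-- An integral function: a series over `A₀` whose value and reduction are functions. -/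
theorem mem_integralSeries_of_seriesSpace {n : ℤ} {y : LaurentSeries A₀}
    (hy : latVal A₀ y ∈ seriesSpace N n) (hred : latRed (IsLocalRing.residue A₀) y ≠ 0)
    (hℓN : ¬ ℓ ∣ N) (hA₀ : A₀.LiesOverPrime ℓ) :
    y ∈ integralSeries A₀ (IsLocalRing.residue A₀) N := by
  obtain ⟨f, -, hf⟩ := (mem_seriesSpace N).mp hy
  refine (mem_integralSeries A₀ _ N).mpr ⟨?_, ?_⟩
  · show latVal A₀ y ∈ modularFunctionFieldBar N
    rw [← hf]; exact f.2
  have hy0 : latVal A₀ y ≠ 0 := fun h =>
    hred (by rw [latVal_injective (h.trans (map_zero _).symm), map_zero])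
  obtain ⟨c, y', hy', hred', hmem⟩ := bounded_seriesSpace N A₀ hℓN hA₀ n hy hy0
  obtain ⟨j, hj⟩ : ∃ j, IsLocalRing.residue A₀ (y.coeff j) ≠ 0 := by
    by_contra hcon; push Not at hcon
    exact hred (HahnSeries.ext (funext fun i => by rw [latRed_coeff]; exact hcon i))
  obtain ⟨w, hw⟩ := (isUnit_of_residue_ne_zero A₀ _ hj).exists_right_inv
  have hc : c = ((y'.coeff j * w : A₀) : Qbar) := by
    have h1 : ((y'.coeff j : A₀) : Qbar) = c * (y.coeff j : A₀) := by
      rw [← latVal_coeff, hy', coeff_smul_series, latVal_coeff]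
    have h2 : ((y.coeff j : A₀) : Qbar) * (w : Qbar) = 1 := congrArg Subtype.val hw
    rw [MulMemClass.coe_mul, h1, mul_assoc, h2, mul_one]
  set a := y'.coeff j * w with ha
  have he : latRed (IsLocalRing.residue A₀) y' =
      IsLocalRing.residue A₀ a • latRed (IsLocalRing.residue A₀) y := by
    refine HahnSeries.ext (funext fun i => ?_)
    rw [coeff_smul_series, latRed_coeff, latRed_coeff, ← map_mul]
    congr 1
    refine Subtype.ext ?_
    rw [MulMemClass.coe_mul, ← latVal_coeff y', hy', coeff_smul_series, latVal_coeff, hc]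
  have ha0 : IsLocalRing.residue A₀ a ≠ 0 := fun h => hred' (by rw [he, h, zero_smul])
  have h3 := mul_mem ((modularFunctionFieldFullC k₀ N).algebraMap_mem
    (IsLocalRing.residue A₀ a)⁻¹) hmem
  rw [he, laurent_smul_eq, algebraMap_laurentSeries_eq_single, ← mul_assoc,
    HahnSeries.single_mul_single, add_zero, inv_mul_cancel₀ ha0, HahnSeries.single_zero_one,
    one_mul] at h3
  exact h3

/-- The base mapped into the place. -/
def baseInA (hℓ : ℓ.Prime) (hA₀ : A₀.LiesOverPrime ℓ) : O →+* A₀ :=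
  (algebraMap O Qbar).codRestrict A₀.toSubring (algebraMap_localBase_mem hℓ A₀ hA₀)

omit [Fact ℓ.Prime] [NeZero N] in
theorem latVal_baseInA (hℓ : ℓ.Prime) (z : LaurentSeries O) :
    latVal A₀ (coeffMap (baseInA A₀ hℓ hA₀) z) = coeffMap (algebraMap O Qbar) z :=
  coeffMap_coeffMap _ _ z

omit [Fact ℓ.Prime] [NeZero N] in
theorem latRed_baseInA (hℓ : ℓ.Prime) (z : LaurentSeries O) :
    latRed (IsLocalRing.residue A₀) (coeffMap (baseInA A₀ hℓ hA₀) z) =
      coeffMap (baseRes hℓ A₀ hA₀) z :=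
  coeffMap_coeffMap _ _ z

/-- A series over `ℤ_(ℓ)` which gives a function in `L(n ∞)` and one in the special `L(n ∞)`. -/
structure IsIntegralIn (hℓ : ℓ.Prime) (hA₀ : A₀.LiesOverPrime ℓ) (n : ℤ) (z : LaurentSeries O) :
    Prop where
  mem : coeffMap (algebraMap O Qbar) z ∈ seriesSpace N n
  integral : coeffMap (baseInA A₀ hℓ hA₀) z ∈ integralSeries A₀ (IsLocalRing.residue A₀) N

theorem exists_integralIn_basis {g : ℕ} (hF : RRField Qbar FN g) (n : ℤ)
    (hn : 2 * (g : ℤ) - 1 ≤ n) (d : ℕ) (hd : (d : ℤ) = n + 1 - g) (hℓ : ℓ.Prime)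
    (hℓN : ¬ ℓ ∣ N) (hA₀ : A₀.LiesOverPrime ℓ) :
    ∃ z : Fin d → LaurentSeries O, (∀ i, IsIntegralIn N A₀ hℓ hA₀ n (z i)) ∧
      LinearIndependent k₀ fun i => coeffMap (baseRes hℓ A₀ hA₀) (z i) := by
  have := hF.finite_space (atBase (cuspInf Qbar N) n)
  have hrank : Module.finrank Qbar (seriesSpace N n) = d := by
    have h := hF.finrank_space (atBase (cuspInf Qbar N) n)
      (by rw [Divisor.degree_single, hF.deg_one]; simpa using hn)
    rw [Divisor.degree_single, hF.deg_one] at h
    rw [seriesSpace, ← LinearEquiv.finrank_eq (Submodule.equivMapOfInjective _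
      (fun x y hxy => Subtype.ext hxy) _)]
    omega
  have : FiniteDimensional Qbar (seriesSpace N n) := Module.Finite.map _ _
  obtain ⟨z, hz, hind⟩ := exists_integral_basis (hℓ := hℓ) (A₀ := A₀) (hA₀ := hA₀) d
    (seriesSpace N n) inferInstance (isGalStable_seriesSpace N n)
    (fun x hx hx0 => (bounded_seriesSpace N A₀ hℓN hA₀ n hx hx0).imp fun c h =>
      h.imp fun y hy => ⟨hy.1, hy.2.1⟩) hrank
  refine ⟨z, fun i => ⟨hz i, ?_⟩, hind⟩
  refine mem_integralSeries_of_seriesSpace N A₀ (n := n) ?_ ?_ hℓN hA₀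
  · rw [latVal_baseInA]; exact hz i
  · rw [latRed_baseInA]; exact hind.ne_zero i

end FermatLib.Igusa.TorsionModel
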